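import Fermat.Agent.OrdinaryAtP.Cover
import Fermat.Agent.JacTorsion.Main
import Fermat.Agent.Semistable.GoodM

/-!
# Flat classes have no invariant quotient

An inertia stable group of flat classes is the image of a finite group with a congruent algebra of
coordinates, so it has no nonzero invariant map to `ℤ/p`.
-/

set_option autoImplicit false
set_option synthInstance.maxHeartbeats 400000
set_option maxHeartbeats 1000000
set_option linter.unusedSectionVars false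

noncomputable section

namespace Fermat.Agent.OrdinaryAtP

open ModularCurve AlgebraicCurve Semistable
open Arith (QBar GQ)
open scoped Pointwise

variable {A : ValuationSubring QBar} {M p : ℕ} [NeZero M] [hp : Fact p.Prime] [CharP (Res A) p]

theorem smul_flat {hpM : ¬ p ∣ M} {y : Pic0 QBar (FB (p * M))}
    (hy : IsFlatClass A M p hpM y) : p • y = 0 := by
  have : NeZero p := ⟨hp.out.ne_zero⟩
  obtain ⟨f, rfl, -⟩ := hy
  have h1 := (Pic0.mem_torsion (K := QBar) (F := FB (p * M))).mp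
    (JacTorsion.toTorsion (Additive.ofMul f)).2
  simp

section Reductions

variable {hpM : ¬ p ∣ M} {n : ℕ} (P : Points A M p hpM n)

theorem Points.mul_mem_Phi {a b : ℕ} {φ ψ : Fin P.d → Res A} (hφ : φ ∈ P.Phi a)
    (hψ : ψ ∈ P.Phi b) : φ * ψ ∈ P.Phi (a + b) := by
  obtain ⟨u, hu, rfl⟩ := hφ
  obtain ⟨v, hv, rfl⟩ := hψ
  exact ⟨u * v, mul_mem_polesSpace hu hv, map_mul _ _ _⟩

/-- The multiplier. -/
def Points.jFix (m : ℕ) (i : Fin P.d) : fixRing A :=
  ⟨P.s i (upJ A M p hpM) ^ m, pow_mem (P.mem i _) m, fun τ hτ => by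
    rw [map_pow]
    exact congrArg (· ^ m) ((P.galois i ⟨τ, hτ⟩ _).symm.trans (by rw [galB_upJ]))⟩

theorem Points.resW_jFix (m : ℕ) :
    (fun i => resW A (P.jFix m i)) = P.resS (upJ A M p hpM ^ m) := funext fun i => by
  rw [resW_apply, map_pow, Pi.pow_apply, P.resS_apply, ← map_pow]
  rfl

/-- A finite subgroup has finite preimage in the cover. -/
theorem Points.finite_comap [NeZero p] (hA : A.LiesOverPrime p)
    (H : AddSubgroup (Pic0 QBar (FB (p * M)))) [Finite H] : Finite (AddSubgroup.comap (G := P.CoverGrp) P.clsQ H) := by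
  classical
  set G := AddSubgroup.comap (G := P.CoverGrp) P.clsQ H
  let φ : G → H := fun g => ⟨P.clsQ g, g.2⟩
  have : Finite (P.clsQ.ker : AddSubgroup P.CoverGrp) := (P.finite_ker hA).to_subtype
  have hsec : ∀ b ∈ Set.range φ, ∃ g, φ g = b := fun b hb => hb
  choose sec hsec using fun b : Set.range φ => hsec b b.2
  refine Finite.of_injective (fun g : G =>
    ((⟨φ g, g, rfl⟩ : Set.range φ),
      (⟨(g : P.CoverGrp) - (sec ⟨φ g, g, rfl⟩ : P.CoverGrp), by
        have h1 := AddMonoidHom.map_sub P.clsQ (g : P.CoverGrp)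
          (sec ⟨φ g, g, rfl⟩ : P.CoverGrp)
        have h2 : P.clsQ (sec ⟨φ g, g, rfl⟩ : P.CoverGrp) = P.clsQ g :=
          congrArg Subtype.val (hsec ⟨φ g, g, rfl⟩)
        refine AddMonoidHom.mem_ker.mpr (h1.trans ?_)
        rw [h2]
        exact sub_self _⟩ :
          (P.clsQ.ker : AddSubgroup P.CoverGrp)))) fun g g' e => ?_
  obtain ⟨e1, e2⟩ := Prod.ext_iff.mp e
  have e3 := congrArg Subtype.val e2
  simp only at e1 e3
  rw [e1] at e3
  exact Subtype.ext (sub_left_injective e3)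

end Reductions

variable [FF.IsFunctionField (Res A) (KM A M)] {h : Setup A M p}
variable {n : ℕ} {P : Points A M p h.hqM n}

theorem Points.span_Phi {m : ℕ}
    (hmul : ∀ i, ∀ r ∈ Bn A M p h.hqM (m + i), r ∈ Submodule.span (Res A)
      {z : Fin 2 → LaurentSeries (Res A) |
        ∃ a ∈ Bn A M p h.hqM m, ∃ b ∈ Bn A M p h.hqM i, z = a * b}) :
    P.Phi (m + m) ≤ Submodule.span (Res A) {z | ∃ a ∈ P.Phi m, ∃ b ∈ P.Phi m, z = a * b} := by
  rintro _ ⟨u, hu, rfl⟩
  have hr : rho A M p h.hqM u ∈ Bn A M p h.hqM (m + m) :=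
    mem_redSub.mpr ⟨⟨u, u.2.1⟩, hu, rfl⟩
  suffices key : ∀ z, z ∈ Submodule.span (Res A) {z : Fin 2 → LaurentSeries (Res A) |
      ∃ a ∈ Bn A M p h.hqM m, ∃ b ∈ Bn A M p h.hqM m, z = a * b} →
      ∃ w, rho A M p h.hqM w = z ∧
        P.resS w ∈ Submodule.span (Res A) {z | ∃ a ∈ P.Phi m, ∃ b ∈ P.Phi m, z = a * b} by
    obtain ⟨w, hw, hwmem⟩ := key _ (hmul m _ hr)
    rwa [P.resS_congr hw.symm]
  intro z hz
  induction hz using Submodule.span_induction with
  | mem z hz =>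
    obtain ⟨a, ha, b, hb, rfl⟩ := hz
    obtain ⟨a', ha', rfl⟩ := exists_lift_rho h m ha
    obtain ⟨b', hb', rfl⟩ := exists_lift_rho h m hb
    exact ⟨a' * b', map_mul _ _ _, Submodule.subset_span
      ⟨_, ⟨a', ha', rfl⟩, _, ⟨b', hb', rfl⟩, map_mul _ _ _⟩⟩
  | zero => exact ⟨0, map_zero _, by rw [map_zero]; exact zero_mem _⟩
  | add z z' _ _ hz hz' =>
    obtain ⟨w, e, hw⟩ := hz
    obtain ⟨w', e', hw'⟩ := hz'
    exact ⟨w + w', by rw [map_add, e, e'], by rw [map_add]; exact add_mem hw hw'⟩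
  | smul c z _ hz =>
    obtain ⟨w, e, hw⟩ := hz
    obtain ⟨c, rfl⟩ := IsLocalRing.residue_surjective c
    exact ⟨constB A M p h.hqM c * w, by rw [rho_constB_mul, e],
      by rw [P.resS_constB_mul]; exact Submodule.smul_mem _ _ hw⟩

theorem Points.colon_Phi {m : ℕ} (hmn : 3 * m ≤ n)
    (hcol : ∀ r ∈ Bn A M p h.hqM (2 * m),
      jvec A p ^ m * r ∈ Bn A M p h.hqM (2 * m) → r ∈ Bn A M p h.hqM m)
    {φ : Fin P.d → Res A} (hφ : φ ∈ P.Phi (m + m))
    (hjφ : (fun i => resW A (P.jFix m i)) * φ ∈ P.Phi (m + m)) : φ ∈ P.Phi m := by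
  obtain ⟨u, hu, rfl⟩ := hφ
  obtain ⟨u', hu', e⟩ := hjφ
  rw [P.resW_jFix, ← map_mul] at e
  have hJ : ((upJ A M p h.hqM ^ m : Bint A M p h.hqM) : FB (p * M)) ∈ HN M p m := by
    have h1 := pow_mem_poles (upF_mem_HN M p (jM_mem_HM (M := M))) m
    rw [mul_one] at h1
    rw [SubmonoidClass.coe_pow]
    exact h1
  have hmem : ((upJ A M p h.hqM ^ m * u - u' : Bint A M p h.hqM) : FB (p * M)) ∈ HN M p n :=
    sub_mem (RedTorsion.polesSpace_mono (by omega) (mul_mem_polesSpace hJ hu))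
      (RedTorsion.polesSpace_mono (by omega) hu')
  have h0 := P.sep _ hmem fun i => (Semistable.residue_eq_zero_iff (P.mem i _)).mp (by
    rw [← P.resS_apply, map_sub, e, sub_self]
    rfl)
  rw [map_sub, map_mul, map_pow, rho_upJ, sub_eq_zero] at h0
  have hB : ∀ {w : Bint A M p h.hqM}, (w : FB (p * M)) ∈ HN M p (m + m) →
      rho A M p h.hqM w ∈ Bn A M p h.hqM (2 * m) := fun {w} hw => by
    rw [two_mul]
    exact mem_redSub.mpr ⟨⟨w, w.2.1⟩, hw, rfl⟩
  have h1 := hcol _ (hB hu) (by rw [h0]; exact hB hu')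
  obtain ⟨w, hw, hwr⟩ := exists_lift_rho h m h1
  exact ⟨w, hw, P.resS_congr hwr⟩

/-- The data on the preimage of an inertia stable group of flat classes. -/
theorem Points.exists_latticeData [NeZero p] {m : ℕ} (hm : IsDegree h m)
    (hpm : IsDegree h (p * m)) (hm2 : IsDegree h (m + m)) (hpmn : p * m ≤ n) (h3mn : 3 * m ≤ n)
    (hmul : ∀ i, ∀ r ∈ Bn A M p h.hqM (m + i), r ∈ Submodule.span (Res A)
      {z : Fin 2 → LaurentSeries (Res A) |
        ∃ a ∈ Bn A M p h.hqM m, ∃ b ∈ Bn A M p h.hqM i, z = a * b})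
    (hcol : ∀ r ∈ Bn A M p h.hqM (2 * m),
      jvec A p ^ m * r ∈ Bn A M p h.hqM (2 * m) → r ∈ Bn A M p h.hqM m)
    (G : AddSubgroup P.CoverGrp) (act : A.inertiaSubgroupIn ℚ → G ≃ G)
    (hact : ∀ τ x, (act τ x : P.CoverGrp) = P.galQ τ x) :
    Nonempty (LatticeData A G act P.d) := by
  refine ⟨{
    V₁ := fun x => P.valQ m x
    V₂ := fun x => P.valQ (m + m) x
    Φ₁ := P.Phi m
    Φ₂ := P.Phi (m + m)
    c := P.jFix m
    finrank₁ := fun x => ?_
    finrank₂ := fun x => ?_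
    lift₁ := fun x φ hφ => ?_
    lift₂ := fun x φ hφ => ?_
    equiv₁ := fun τ x v hv => ?_
    mul₁ := fun x y v hv w hw => P.mul_mem_valQ m x y hv hw
    le₂ := fun x => P.valQ_mono (Nat.le_add_right m m) x
    smul₁ := fun x v hv => P.jpow_mem_valQ m x hv
    span₂ := P.span_Phi (h := h) hmul
    mul₂ := fun a ha b hb => P.mul_mem_Phi ha hb
    colon := fun φ hφ hjφ => P.colon_Phi (h := h) h3mn hcol hφ hjφ
    sep := fun x y hxy => Subtype.ext (P.valQ_sep hm hpm hpmn _ _ hxy) }⟩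
  · obtain ⟨y, hy⟩ := P.cls_surjective (x : P.CoverGrp)
    rw [← hy, P.valQ_mk]
    exact (P.mem_pairGrp.mp y.2).finrank_valSpace hm (by omega)
  · obtain ⟨y, hy⟩ := P.cls_surjective (x : P.CoverGrp)
    rw [← hy, P.valQ_mk]
    exact (P.mem_pairGrp.mp y.2).finrank_valSpace hm2 (by omega)
  · obtain ⟨y, hy⟩ := P.cls_surjective (x : P.CoverGrp)
    obtain ⟨w, hw, e⟩ := (P.mem_pairGrp.mp y.2).exists_lift hm (by omega) hφ
    refine ⟨w, ?_, e⟩
    rw [← hy, P.valQ_mk]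
    exact hw
  · obtain ⟨y, hy⟩ := P.cls_surjective (x : P.CoverGrp)
    obtain ⟨w, hw, e⟩ := (P.mem_pairGrp.mp y.2).exists_lift hm2 (by omega) hφ
    refine ⟨w, ?_, e⟩
    rw [← hy, P.valQ_mk]
    exact hw
  · rw [hact]
    exact P.valQ_galQ m τ x hv

/-- A flat class lifts to the cover. -/
theorem Points.exists_preimage [NeZero p] {m : ℕ} (hm : IsDegree h m)
    {y : Pic0 QBar (FB (p * M))} (hy : IsFlatClass A M p h.hqM y) :
    ∃ x : P.CoverGrp, P.clsQ x = y := by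
  classical
  obtain ⟨f, rfl, hf⟩ := hy
  obtain ⟨a, -, haU, -⟩ := exists_normal hm f.2 hf
  have hr : ∀ i, ∃ r : QBarˣ, (r : QBar) ^ p = P.ext i ⟨_, haU.1⟩ := fun i => by
    obtain ⟨r, hr⟩ := IsAlgClosed.exists_pow_nat_eq (P.ext i ⟨_, haU.1⟩) hp.out.pos
    refine ⟨Units.mk0 r fun h0 => P.ext_ne_zero i haU ?_, hr⟩
    rw [← hr, h0, zero_pow hp.out.ne_zero]
  choose r hr using hr
  refine ⟨P.cls ⟨((f : (FB (p * M))ˣ) * a ^ p, r),
    ⟨haU, mul_mem f.2 (pow_unit_mem_divGrp a), hr⟩⟩, ?_⟩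
  rw [P.clsQ_mk]
  have e : (⟨(f : (FB (p * M))ˣ) * a ^ p, mul_mem f.2 (pow_unit_mem_divGrp a)⟩ :
      JacTorsion.divGrp QBar (FB (p * M)) p) = f * ⟨a ^ p, pow_unit_mem_divGrp a⟩ := rfl
  have h0 : JacTorsion.toTorsion (Additive.ofMul
      (⟨a ^ p, pow_unit_mem_divGrp a⟩ : JacTorsion.divGrp QBar (FB (p * M)) p)) = 0 :=
    (JacTorsion.toTorsion_eq_zero_iff _).mpr
      ((JacTorsion.mem_powGrp (K := QBar) (F := FB (p * M))).mpr ⟨a, rfl⟩)
  show (JacTorsion.toTorsion (Additive.ofMul (⟨(f : (FB (p * M))ˣ) * a ^ p,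
    mul_mem f.2 (pow_unit_mem_divGrp a)⟩ : JacTorsion.divGrp QBar (FB (p * M)) p))).1 = _
  rw [e, ofMul_mul, map_add, h0, add_zero]

omit [CharP (Res A) p] [FF.IsFunctionField (Res A) (KM A M)] in
/-- **No invariant quotient**: an invariant map to `ℤ/p` of an inertia stable group of flat
classes is zero. -/
theorem eq_zero_of_invariant_of_flat {hpM : ¬ p ∣ M} (hA : A.LiesOverPrime p) (hp3 : 3 ≤ p)
    (h4 : 4 ∣ M) (H : AddSubgroup (JZero (p * M)))
    (hflat : ∀ y ∈ H, IsFlatClass A M p hpM y)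
    (hstab : ∀ τ ∈ A.inertiaSubgroupIn ℚ, ∀ y ∈ H, τ • y ∈ H) (π : H →+ ZMod p)
    (hπ : ∀ τ (hτ : τ ∈ A.inertiaSubgroupIn ℚ) (y : H),
      π ⟨τ • (y : JZero (p * M)), hstab τ hτ y y.2⟩ = π y) : π = 0 := by
  classical
  have : CharP (Res A) p := Arith.residueField_charP hA hp.out
  have hM : (M : Res A) ≠ 0 := by
    rw [Ne, CharP.cast_eq_zero_iff (Res A) p]
    exact hpM
  have := isFunctionField_KM A hM
  have : NeZero p := ⟨hp.out.ne_zero⟩
  have h : Setup A M p := ⟨hA, hpM, hM, goodM_of_dvd (Or.inl rfl) h4 hM⟩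
  obtain ⟨n₁, hn₁⟩ := exists_isDegree h
  obtain ⟨n₂, hn₂⟩ := exists_Bn_le_mul h
  obtain ⟨n₃, hn₃⟩ := exists_colon h
  set m := n₁ + n₂ + n₃ + 1 with hm
  obtain ⟨P⟩ := exists_points h (p * m + 3 * m)
  have hmp : m ≤ p * m := Nat.le_mul_of_pos_left m hp.out.pos
  set G := AddSubgroup.comap (G := P.CoverGrp) P.clsQ H with hG
  have : NeZero (p * M) := ⟨Nat.mul_ne_zero hp.out.ne_zero (NeZero.ne M)⟩
  have : Finite (Pic0.torsion QBar (FB (p * M)) p) :=
    JacTorsion.finite_torsion_JZero (N := p * M) (m := p)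
  have : Finite H := by
    refine Finite.of_injective (fun y : H => (⟨(y : JZero (p * M)), ?_⟩ :
      Pic0.torsion QBar (FB (p * M)) p)) fun a b e => Subtype.ext (congrArg (fun z => z.1) e :)
    rw [Pic0.mem_torsion]
    simpa using smul_flat (hflat y y.2)
  have : Finite G := P.finite_comap hA H
  have hmemG : ∀ (τ : A.inertiaSubgroupIn ℚ) (x : G), P.galQ τ x ∈ G := fun τ x => by
    show P.clsQ (P.galQ τ x) ∈ H
    rw [P.clsQ_galQ]
    exact hstab τ τ.2 _ x.2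
  let act : A.inertiaSubgroupIn ℚ → G ≃ G := fun τ =>
    { toFun := fun x => ⟨P.galQ τ x, hmemG τ x⟩
      invFun := fun x => ⟨P.galQ τ⁻¹ x, hmemG τ⁻¹ x⟩
      left_inv := fun x => Subtype.ext (by
        show P.galQ τ⁻¹ (P.galQ τ x) = _
        rw [P.galQ_galQ, inv_mul_cancel, P.galQ_one])
      right_inv := fun x => Subtype.ext (by
        show P.galQ τ (P.galQ τ⁻¹ x) = _
        rw [P.galQ_galQ, mul_inv_cancel, P.galQ_one]) }
  obtain ⟨D⟩ := P.exists_latticeData (m := m) (hn₁ m (by omega)) (hn₁ (p * m) (by omega))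
    (hn₁ (m + m) (by omega)) (by omega) (by omega)
    (fun i => hn₂ m (by omega) i) (hn₃ m (by omega)) G act fun τ x => rfl
  obtain ⟨O⟩ := D.exists_congruentAlgebra hA hp.out
  let φ : G →+ H := (P.clsQ.comp G.subtype).codRestrict H fun x => x.2
  have := isPrincipalIdealRing_fixRing hA hp.out
  have h0 : π.comp φ = 0 := O.eq_zero_of_invariant hp3 (natCast_fix_ne_zero hp.out)
    (not_isUnit_natCast hA) _ fun τ x => by
      show π (φ (act τ x)) = π (φ x)
      rw [← hπ (τ : GQ) τ.2 (φ x)]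
      exact congrArg π (Subtype.ext (P.clsQ_galQ τ x))
  refine AddMonoidHom.ext fun y => ?_
  obtain ⟨x, hx⟩ := P.exists_preimage (m := m) (hn₁ m (by omega)) (hflat y y.2)
  have hxG : x ∈ G := by
    show P.clsQ x ∈ H
    rw [hx]
    exact y.2
  have h1 := DFunLike.congr_fun h0 ⟨x, hxG⟩
  rw [show y = φ ⟨x, hxG⟩ from Subtype.ext hx.symm]
  exact h1

end Fermat.Agent.OrdinaryAtP

end
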