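import Fermat.Agent.Arith.RootsOfUnity
import Fermat.Agent.Mazur.Eisenstein.Unram
import Mathlib.RingTheory.PrincipalIdealDomain
import Mathlib.RingTheory.IntegralClosure.IsIntegralClosure.Basic
import Mathlib.FieldTheory.IsAlgClosed.Basic

/-!
# The ring of integers fixed by inertia

For a place `A` over `p` the elements of `A` fixed by inertia form a principal ideal ring with
uniformiser `p` and the same residue field, in which simple roots lift. Equivariant functions on a
finite set with values in `A` are integral over it.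
-/

set_option autoImplicit false
set_option linter.style.haveILetI false

noncomputable section

namespace Fermat.Agent.OrdinaryAtP

open Polynomial
open Fermat.Agent.Arith Fermat.Agent.Mazur.Eisenstein
open scoped Pointwise

variable (A : ValuationSubring QBar)

/-- The elements of `A` fixed by inertia. -/
def fixRing : Subring QBar where
  carrier := {a | a ∈ A ∧ ∀ τ ∈ A.inertiaSubgroupIn ℚ, τ a = a}
  one_mem' := ⟨one_mem _, fun _ _ => map_one _⟩
  mul_mem' ha hb := ⟨mul_mem ha.1 hb.1, fun τ hτ => by rw [map_mul, ha.2 τ hτ, hb.2 τ hτ]⟩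
  zero_mem' := ⟨zero_mem _, fun _ _ => map_zero _⟩
  add_mem' ha hb := ⟨add_mem ha.1 hb.1, fun τ hτ => by rw [map_add, ha.2 τ hτ, hb.2 τ hτ]⟩
  neg_mem' ha := ⟨neg_mem ha.1, fun τ hτ => by rw [map_neg, ha.2 τ hτ]⟩

/-- The inclusion in `A`. -/
def fixToPlace : fixRing A →+* A where
  toFun w := ⟨w, w.2.1⟩
  map_one' := rfl
  map_mul' _ _ := rfl
  map_zero' := rfl
  map_add' _ _ := rfl

/-- The residue map. -/
def resW : fixRing A →+* IsLocalRing.ResidueField A :=
  (IsLocalRing.residue A).comp (fixToPlace A)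

variable {A}

theorem resW_apply (w : fixRing A) : resW A w = IsLocalRing.residue A ⟨w, w.2.1⟩ := rfl

theorem resW_eq_zero_iff {w : fixRing A} : resW A w = 0 ↔ (w : QBar) ∈ A.nonunits := by
  rw [resW_apply, IsLocalRing.residue_eq_zero_iff, ← ValuationSubring.coe_mem_nonunits_iff]

theorem fixed_apply (w : fixRing A) {τ : GQ} (hτ : τ ∈ A.inertiaSubgroupIn ℚ) :
    τ (w : QBar) = w := w.2.2 τ hτ

variable {p : ℕ}

theorem natCast_fix_ne_zero (hp : p.Prime) : (p : fixRing A) ≠ 0 := by
  intro h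
  have := congrArg (fun w : fixRing A => (w : QBar)) h
  simp only [ZeroMemClass.coe_zero] at this
  exact hp.ne_zero (by exact_mod_cast this)

theorem resW_natCast_self (hA : A.LiesOverPrime p) : resW A (p : fixRing A) = 0 := by
  rw [resW_eq_zero_iff]
  exact_mod_cast hA

theorem not_isUnit_natCast (hA : A.LiesOverPrime p) : ¬ IsUnit (p : fixRing A) := fun h =>
  (h.map (resW A)).ne_zero (resW_natCast_self hA)

/-- A fixed element is a power of `p` times a unit of the fixed ring. -/
theorem exists_zpow_mul_unit (hA : A.LiesOverPrime p) (hp : p.Prime) {x : QBar} (hx : x ≠ 0)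
    (hfix : ∀ τ ∈ A.inertiaSubgroupIn ℚ, τ x = x) :
    ∃ (k : ℤ) (u : (fixRing A)ˣ), x = (p : QBar) ^ k * ((u : fixRing A) : QBar) := by
  obtain ⟨k, hk⟩ := exists_int_ordAt hA hp hx hfix
  have hp0 : (p : QBar) ≠ 0 := by exact_mod_cast hp.ne_zero
  set u := x * (p : QBar) ^ (-k) with hu
  have hu0 : u ≠ 0 := mul_ne_zero hx (zpow_ne_zero _ hp0)
  have hord : ordAt A p u = 0 := by
    rw [hu, ordAt_mul hA hp hx (zpow_ne_zero _ hp0), ordAt_prime_zpow hA hp, hk]
    push_cast
    ring
  obtain ⟨h1, h2⟩ := (isUnitAt_iff hu0).mp ((ordAt_eq_zero_iff hA hp hu0).mp hord)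
  have hfu : ∀ τ ∈ A.inertiaSubgroupIn ℚ, τ u = u := fun τ hτ => by
    rw [hu, map_mul, map_zpow₀, map_natCast, hfix τ hτ]
  refine ⟨k, ⟨⟨u, h1, hfu⟩, ⟨u⁻¹, h2, fun τ hτ => by rw [map_inv₀, hfu τ hτ]⟩,
    Subtype.ext (mul_inv_cancel₀ hu0), Subtype.ext (inv_mul_cancel₀ hu0)⟩, ?_⟩
  show x = (p : QBar) ^ k * u
  rw [hu, mul_left_comm, ← zpow_add₀ hp0, add_neg_cancel, zpow_zero, mul_one]

/-- A nonzero element of the fixed ring is a power of `p` times a unit. -/
theorem exists_pow_mul_unit (hA : A.LiesOverPrime p) (hp : p.Prime) {w : fixRing A} (hw : w ≠ 0) :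
    ∃ (n : ℕ) (u : (fixRing A)ˣ), w = (p : fixRing A) ^ n * u := by
  obtain ⟨k, u, hk⟩ := exists_zpow_mul_unit hA hp (x := (w : QBar))
    (fun h => hw (Subtype.ext h)) fun τ hτ => fixed_apply w hτ
  rcases Int.eq_nat_or_neg k with ⟨n, rfl | rfl⟩
  · exact ⟨n, u, Subtype.ext (by push_cast; rw [hk, zpow_natCast])⟩
  · refine ⟨0, u, ?_⟩
    rw [pow_zero, one_mul]
    rcases Nat.eq_zero_or_pos n with rfl | hn
    · exact Subtype.ext (by rw [hk]; simp)
    have hp0 : (p : QBar) ≠ 0 := by exact_mod_cast hp.ne_zero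
    exfalso
    refine not_isUnit_natCast hA ((isUnit_pow_iff hn.ne').mp (IsUnit.of_mul_eq_one
      (w * ↑(u⁻¹)) (Subtype.ext ?_)))
    have h1 : ((u : fixRing A) : QBar) * ((↑(u⁻¹) : fixRing A) : QBar) = 1 := by
      rw [← Subring.coe_mul, Units.mul_inv, Subring.coe_one]
    push_cast
    rw [hk, zpow_neg, zpow_natCast]
    field_simp
    linear_combination h1

theorem isPrincipalIdealRing_fixRing (hA : A.LiesOverPrime p) (hp : p.Prime) :
    IsPrincipalIdealRing (fixRing A) := by
  classical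
  refine ⟨fun I => ?_⟩
  rcases eq_or_ne I ⊥ with rfl | hI
  · exact bot_isPrincipal
  obtain ⟨x, hxI, hx⟩ := Submodule.exists_mem_ne_zero_of_ne_bot hI
  have hex : ∃ n, (p : fixRing A) ^ n ∈ I := by
    obtain ⟨n, u, rfl⟩ := exists_pow_mul_unit hA hp hx
    exact ⟨n, by simpa using I.mul_mem_right (↑(u⁻¹) : fixRing A) hxI⟩
  refine ⟨(p : fixRing A) ^ Nat.find hex, le_antisymm (fun y hy => ?_) ?_⟩
  · rcases eq_or_ne y 0 with rfl | hy0
    · exact zero_mem _
    obtain ⟨n, u, rfl⟩ := exists_pow_mul_unit hA hp hy0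
    have hn : Nat.find hex ≤ n := Nat.find_le (by simpa using I.mul_mem_right (↑(u⁻¹) : fixRing A) hy)
    exact Ideal.mem_span_singleton.mpr (dvd_mul_of_dvd_left (pow_dvd_pow _ hn) _)
  · exact (Ideal.span_singleton_le_iff_mem I).mpr (Nat.find_spec hex)

/-- Fixed elements are fractions. -/
theorem exists_mul_mem_fixRing (hA : A.LiesOverPrime p) (hp : p.Prime) {x : QBar}
    (hfix : ∀ τ ∈ A.inertiaSubgroupIn ℚ, τ x = x) :
    ∃ w : fixRing A, w ≠ 0 ∧ (w : QBar) * x ∈ fixRing A := by
  rcases eq_or_ne x 0 with rfl | hx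
  · exact ⟨1, one_ne_zero, by rw [mul_zero]; exact zero_mem _⟩
  obtain ⟨k, u, rfl⟩ := exists_zpow_mul_unit hA hp hx hfix
  refine ⟨(p : fixRing A) ^ (-k).toNat, pow_ne_zero _ (natCast_fix_ne_zero hp), ?_⟩
  have hp0 : (p : QBar) ≠ 0 := by exact_mod_cast hp.ne_zero
  push_cast
  rw [← mul_assoc, ← zpow_natCast, ← zpow_add₀ hp0,
    show ((-k).toNat : ℤ) + k = (k.toNat : ℤ) by omega, zpow_natCast]
  exact mul_mem (pow_mem (natCast_mem _ p) _) (u : fixRing A).2

/-- An element of the fixed ring with zero residue is divisible by `p`. -/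
theorem natCast_dvd_of_resW_eq_zero (hA : A.LiesOverPrime p) (hp : p.Prime) {w : fixRing A}
    (hw : resW A w = 0) : (p : fixRing A) ∣ w := by
  rcases eq_or_ne w 0 with rfl | hw0
  · exact dvd_zero _
  obtain ⟨n, u, rfl⟩ := exists_pow_mul_unit hA hp hw0
  rcases n with _ | n
  · rw [pow_zero, one_mul] at hw
    exact absurd hw (u.isUnit.map (resW A)).ne_zero
  · exact dvd_mul_of_dvd_left (dvd_pow_self _ n.succ_ne_zero) _

theorem isUnit_of_resW_ne_zero (hA : A.LiesOverPrime p) (hp : p.Prime) {w : fixRing A}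
    (hw : resW A w ≠ 0) : IsUnit w := by
  obtain ⟨n, u, rfl⟩ := exists_pow_mul_unit hA hp
    (show w ≠ 0 from fun h => hw (by rw [h, map_zero]))
  rcases n with _ | n
  · rw [pow_zero, one_mul]; exact u.isUnit
  · exact absurd (by rw [map_mul, map_pow, resW_natCast_self hA, zero_pow n.succ_ne_zero,
      zero_mul]) hw

/-! ### Simple roots -/

/-- A simple root mod the maximal ideal lifts to the fixed ring. -/
theorem exists_root_fixRing (Q : (fixRing A)[X]) (hQ : Q.Monic) {z : IsLocalRing.ResidueField A}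
    (hz : (Q.map (resW A)).eval z = 0) (hz' : (derivative (Q.map (resW A))).eval z ≠ 0) :
    ∃ η : fixRing A, Q.eval η = 0 ∧ resW A η = z := by
  classical
  set QA : A[X] := Q.map (fixToPlace A) with hQA
  have hQAm : QA.Monic := hQ.map _
  set QB : QBar[X] := Q.map (fixRing A).subtype with hQB
  have hQBA : QA.map A.subtype = QB := by rw [hQA, Polynomial.map_map]; rfl
  have hQBres : QA.map (IsLocalRing.residue A) = Q.map (resW A) := by
    rw [hQA, Polynomial.map_map]; rfl
  have hsplit : QB.Splits := IsAlgClosed.splits QB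
  have hint : ∀ r ∈ QB.roots, r ∈ A := fun r hr => by
    have h1 : IsIntegral A r := ⟨QA, hQAm, by
      rw [show algebraMap A QBar = A.subtype from rfl, ← eval_map, hQBA]
      exact isRoot_of_mem_roots hr⟩
    obtain ⟨y, hy⟩ := (IsIntegrallyClosed.isIntegral_iff (R := A) (K := QBar)).mp h1
    exact hy ▸ y.2
  obtain ⟨rts, hrts⟩ : ∃ rts : Multiset A, rts.map A.subtype = QB.roots :=
    ⟨QB.roots.attach.map fun r => (⟨r.1, hint r.1 r.2⟩ : A), by
      rw [Multiset.map_map]
      exact QB.roots.attach_map_val⟩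
  have hfac : QA = (rts.map fun r => X - C r).prod := by
    refine map_injective A.subtype Subtype.val_injective ?_
    rw [hQBA, Polynomial.map_multiset_prod, Multiset.map_map]
    conv_lhs => rw [hsplit.eq_prod_roots_of_monic (hQ.map _), ← hrts]
    rw [Multiset.map_map]
    exact congrArg Multiset.prod (Multiset.map_congr rfl fun r _ => by simp)
  have hfacres : Q.map (resW A) =
      ((rts.map (IsLocalRing.residue A)).map fun s => X - C s).prod := by
    rw [← hQBres, hfac]
    rw [Polynomial.map_multiset_prod, Multiset.map_map, Multiset.map_map]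
    exact congrArg Multiset.prod (Multiset.map_congr rfl fun r _ => by simp)
  have hne : Q.map (resW A) ≠ 0 := (hQ.map _).ne_zero
  have hroots : (Q.map (resW A)).roots = rts.map (IsLocalRing.residue A) := by
    rw [hfacres, roots_multiset_prod_X_sub_C]
  have hzmem : z ∈ rts.map (IsLocalRing.residue A) := hroots ▸ (mem_roots hne).mpr hz
  have hcount : (rts.map (IsLocalRing.residue A)).count z = 1 := by
    rw [← hroots, count_roots]
    refine le_antisymm ?_ ((rootMultiplicity_pos hne).mpr hz)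
    by_contra hgt
    rw [not_le] at hgt
    exact hz' ((one_lt_rootMultiplicity_iff_isRoot hne).mp hgt).2
  obtain ⟨r, hr, hrz⟩ := Multiset.mem_map.mp hzmem
  have hrB : (r : QBar) ∈ QB.roots := hrts ▸ Multiset.mem_map.mpr ⟨r, hr, rfl⟩
  have hfix : ∀ τ ∈ A.inertiaSubgroupIn ℚ, τ (r : QBar) = r := by
    intro τ hτ
    obtain ⟨hτA, hτn⟩ := mem_inertia_iff_forall_mem.mp hτ
    have hroot : IsRoot QB (τ (r : QBar)) := by
      have hB : QB.map (τ : QBar →+* QBar) = QB := Polynomial.ext fun i => by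
        rw [coeff_map, hQB, coeff_map]
        exact fixed_apply (Q.coeff i) hτ
      have := (isRoot_of_mem_roots hrB).map (f := (τ : QBar →+* QBar))
      rwa [hB] at this
    have hmem : τ (r : QBar) ∈ QB.roots := (mem_roots (hQ.map _).ne_zero).mpr hroot
    rw [← hrts, Multiset.mem_map] at hmem
    obtain ⟨r', hr', hrr⟩ := hmem
    have hres : IsLocalRing.residue A r' = z := by
      rw [← hrz]
      refine residue_eq_iff.mpr ?_
      rw [show (r' : QBar) = τ (r : QBar) from hrr]
      exact hτn r r.2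
    by_contra hne'
    have hrne : r' ≠ r := fun h => hne' (by rw [← hrr, h]; rfl)
    have h2 : 2 ≤ (rts.map (IsLocalRing.residue A)).count z := by
      rw [Multiset.count_map]
      have hle : ({r, r'} : Multiset A) ≤ rts.filter fun a => z = IsLocalRing.residue A a := by
        refine (Multiset.le_iff_subset (by simpa using hrne.symm)).mpr fun a ha => ?_
        rcases Multiset.mem_cons.mp ha with rfl | ha
        · exact Multiset.mem_filter.mpr ⟨hr, hrz.symm⟩
        · rw [Multiset.mem_singleton] at ha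
          subst ha
          exact Multiset.mem_filter.mpr ⟨hr', hres.symm⟩
      simpa using Multiset.card_le_card hle
    omega
  refine ⟨⟨r, r.2, hfix⟩, Subtype.ext ?_, hrz⟩
  rw [ZeroMemClass.coe_zero, show ((Q.eval ⟨(r : QBar), r.2, hfix⟩ : fixRing A) : QBar) =
    (fixRing A).subtype (Q.eval ⟨(r : QBar), r.2, hfix⟩) from rfl, ← eval₂_at_apply, ← eval_map]
  exact isRoot_of_mem_roots hrB

theorem exists_frobenius_period (hA : A.LiesOverPrime p) (hp : p.Prime)
    (z : IsLocalRing.ResidueField A) : ∃ n, 0 < n ∧ z ^ p ^ n = z := by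
  haveI := residueField_charP hA hp
  haveI := Fact.mk hp
  letI := ZMod.algebra (IsLocalRing.ResidueField A) p
  obtain ⟨x, hx, rfl⟩ := exists_integral_residue hA hp z
  set w : IsLocalRing.ResidueField A := IsLocalRing.residue A ⟨x, mem_of_isIntegral A hx⟩
  have hw : IsIntegral (ZMod p) w := by
    obtain ⟨P, hP, hPx⟩ := id hx
    refine ⟨P.map (Int.castRingHom (ZMod p)), hP.map _, ?_⟩
    have h0 : eval₂ (Int.castRingHom A) (⟨x, mem_of_isIntegral A hx⟩ : A) P = 0 :=
      Subtype.ext (by
        show A.subtype _ = _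
        rw [hom_eval₂, ZeroMemClass.coe_zero, ← hPx]
        congr 1)
    have := congrArg (IsLocalRing.residue A) h0
    rw [map_zero, hom_eval₂] at this
    rw [eval₂_map]
    refine Eq.trans ?_ this
    congr 1
    exact RingHom.ext_int _ _
  haveI : Module.Finite (ZMod p) (Algebra.adjoin (ZMod p) {w}) :=
    Module.Finite.iff_fg.mpr hw.fg_adjoin_singleton
  haveI : Finite (Algebra.adjoin (ZMod p) {w}) := Module.finite_of_finite (ZMod p)
  obtain ⟨i, j, hij, heq⟩ := Finite.exists_ne_map_eq_of_infinite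
    fun k : ℕ => (⟨w, Algebra.self_mem_adjoin_singleton _ w⟩ : Algebra.adjoin (ZMod p) {w}) ^ p ^ k
  wlog hlt : i < j generalizing i j
  · exact this j i hij.symm heq.symm (lt_of_le_of_ne (not_lt.mp hlt) hij.symm)
  refine ⟨j - i, by omega, ?_⟩
  have h1 : w ^ p ^ i = (w ^ p ^ (j - i)) ^ p ^ i := by
    rw [← pow_mul, ← pow_add, show j - i + i = j by omega]
    exact congrArg Subtype.val heq
  exact (iterateFrobenius_inj (IsLocalRing.ResidueField A) p i (by
    simpa [iterateFrobenius_def] using h1)).symm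

/-- The fixed ring has the full residue field. -/
theorem resW_surjective (hA : A.LiesOverPrime p) (hp : p.Prime) :
    Function.Surjective (resW A) := by
  intro z
  obtain ⟨n, hn, hz⟩ := exists_frobenius_period hA hp z
  haveI := residueField_charP hA hp
  set Q : (fixRing A)[X] := X ^ p ^ n - X with hQ
  have h1 : 1 < p ^ n := Nat.one_lt_pow hn.ne' hp.one_lt
  have hQm : Q.Monic := monic_X_pow_sub (by rw [degree_X]; exact_mod_cast h1)
  have hmap : Q.map (resW A) = X ^ p ^ n - X := by simp [hQ]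
  obtain ⟨η, -, hη⟩ := exists_root_fixRing Q hQm (z := z) (by simp [hmap, hz]) (by
    simp [hmap, derivative_X_pow, zero_pow hn.ne'])
  exact ⟨η, hη⟩

/-! ### Equivariant functions -/

variable {G : Type*} [Finite G] {act : A.inertiaSubgroupIn ℚ → G ≃ G}

/-- The polynomial with roots the values of an equivariant function. -/
theorem exists_annihilating {δ : G → QBar} (hδ : ∀ g, δ g ∈ A)
    (heq : ∀ τ g, δ (act τ g) = (τ : GQ) (δ g)) :
    ∃ P : (fixRing A)[X], P.Monic ∧ aeval δ P = 0 ∧
      ((∀ g, δ g ∉ A.nonunits) → resW A (P.coeff 0) ≠ 0) := by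
  classical
  haveI := Fintype.ofFinite G
  set PA : A[X] := ∏ g, (X - C (⟨δ g, hδ g⟩ : A)) with hPA
  have hfix : ∀ i, ∀ τ ∈ A.inertiaSubgroupIn ℚ, τ (PA.coeff i : QBar) = PA.coeff i := by
    intro i τ hτ
    have h : (PA.map A.subtype).map (τ : QBar →+* QBar) = PA.map A.subtype := by
      simp only [hPA, Polynomial.map_prod, Polynomial.map_sub, map_X, map_C]
      refine Fintype.prod_equiv (act ⟨τ, hτ⟩) _ _ fun g => ?_
      simp [heq]
    have := congrArg (fun q : QBar[X] => q.coeff i) h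
    simpa [coeff_map] using this
  have hlift : PA ∈ Polynomial.lifts (fixToPlace A) :=
    (lifts_iff_coeff_lifts _).mpr fun i => ⟨⟨_, (PA.coeff i).2, hfix i⟩, rfl⟩
  obtain ⟨P, hP, -, hPm⟩ := lifts_and_degree_eq_and_monic hlift
    (monic_prod_of_monic _ _ fun g _ => monic_X_sub_C _)
  refine ⟨P, hPm, funext fun g => ?_, fun hu => ?_⟩
  · have h1 : aeval δ P g = aeval (δ g) P :=
      (aeval_algHom_apply (Pi.evalAlgHom (fixRing A) (fun _ : G => QBar) g) δ P).symm
    have h2 : aeval (δ g) P = (PA.map A.subtype).eval (δ g) := by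
      rw [← hP, Polynomial.map_map, eval_map]
      rfl
    rw [h1, h2, hPA, Polynomial.map_prod, eval_prod, Pi.zero_apply]
    exact Finset.prod_eq_zero (Finset.mem_univ g) (by simp)
  · have h0 : fixToPlace A (P.coeff 0) = PA.coeff 0 := by rw [← coeff_map, hP]
    show IsLocalRing.residue A (fixToPlace A (P.coeff 0)) ≠ 0
    rw [h0, coeff_zero_eq_eval_zero, hPA, eval_prod, map_prod, Finset.prod_ne_zero_iff]
    intro g _
    simp only [eval_sub, eval_X, eval_C, zero_sub, map_neg, neg_ne_zero, ne_eq,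
      IsLocalRing.residue_eq_zero_iff, ← ValuationSubring.coe_mem_nonunits_iff]
    exact hu g

/-- Equivariant functions with integral values are integral. -/
theorem isIntegral_equivariant {δ : G → QBar} (hδ : ∀ g, δ g ∈ A)
    (heq : ∀ τ g, δ (act τ g) = (τ : GQ) (δ g)) : IsIntegral (fixRing A) δ := by
  obtain ⟨P, hP, h, -⟩ := exists_annihilating hδ heq
  exact ⟨P, hP, h⟩

/-- The inverse of an equivariant function with unit values is a polynomial in it. -/
theorem inv_mem_of_equivariant (hA : A.LiesOverPrime p) (hp : p.Prime) {δ : G → QBar}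
    (hδ : ∀ g, δ g ∈ A) (heq : ∀ τ g, δ (act τ g) = (τ : GQ) (δ g))
    (hu : ∀ g, δ g ∉ A.nonunits) {S : Subalgebra (fixRing A) (G → QBar)} (hS : δ ∈ S) :
    (fun g => (δ g)⁻¹) ∈ S := by
  obtain ⟨P, -, h, hc⟩ := exists_annihilating hδ heq
  obtain ⟨c, hc⟩ := isUnit_of_resW_ne_zero hA hp (hc hu)
  rw [← X_mul_divX_add P, map_add, map_mul, aeval_X, aeval_C, ← hc] at h
  have hmem : aeval δ P.divX ∈ S := by
    rw [aeval_eq_sum_range]
    exact sum_mem fun i _ => S.smul_mem (pow_mem hS i) _
  have e : (fun g => (δ g)⁻¹) = (-(↑(c⁻¹) : fixRing A)) • aeval δ P.divX := by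
    funext g
    have h1 : δ g * aeval δ P.divX g + ((c : fixRing A) : QBar) = 0 := congrFun h g
    have h2 : ((c : fixRing A) : QBar) * ((↑(c⁻¹) : fixRing A) : QBar) = 1 := by
      rw [← Subring.coe_mul, Units.mul_inv, Subring.coe_one]
    show (δ g)⁻¹ = -(((↑(c⁻¹) : fixRing A) : QBar)) * aeval δ P.divX g
    refine inv_eq_of_mul_eq_one_right ?_
    linear_combination h2 - ((↑(c⁻¹) : fixRing A) : QBar) * h1
  rw [e]
  exact S.smul_mem hmem _

end Fermat.Agent.OrdinaryAtP

end
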