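import Fermat.Agent.JacTorsion.Kummer
import Fermat.Agent.Semistable.Spaces

/-!
# Classes with trivial reduction on both components

A `p`-torsion class of the Jacobian of level `p M` is flat if it has a Kummer function which is
integral for both Gauss valuations with both reductions equal to one.
-/

set_option autoImplicit false

noncomputable section

namespace Fermat.Agent.OrdinaryAtP

open AlgebraicCurve ModularCurve Semistable JacTorsion
open Arith (QBar GQ)
open scoped Pointwise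

variable (A : ValuationSubring QBar) (M p : ℕ) [NeZero M] [Fact p.Prime] (hpM : ¬ p ∣ M)

/-- The function is integral at both Gauss valuations with both reductions one. -/
def HasUnitRed (f : FB (p * M)) : Prop :=
  ∃ h : f ∈ loc2 A (iota2 M p hpM), red2 A (iota2 M p hpM) ⟨f, h⟩ = 1

/-- The class has a Kummer function with both reductions one. -/
def IsFlatClass (y : Pic0 QBar (FB (p * M))) : Prop :=
  ∃ f : divGrp QBar (FB (p * M)) p, (toTorsion (Additive.ofMul f)).1 = y ∧
    HasUnitRed A M p hpM ((f : (FB (p * M))ˣ) : FB (p * M))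

variable {A M p}

theorem hasUnitRed_one : HasUnitRed A M p hpM 1 :=
  ⟨one_mem _, map_one _⟩

theorem HasUnitRed.mul {f g : FB (p * M)} (hf : HasUnitRed A M p hpM f)
    (hg : HasUnitRed A M p hpM g) : HasUnitRed A M p hpM (f * g) := by
  obtain ⟨hf, ef⟩ := hf
  obtain ⟨hg, eg⟩ := hg
  refine ⟨mul_mem hf hg, ?_⟩
  rw [show (⟨f * g, mul_mem hf hg⟩ : loc2 A (iota2 M p hpM)) = ⟨f, hf⟩ * ⟨g, hg⟩ from rfl,
    map_mul, ef, eg, one_mul]

theorem HasUnitRed.pow {f : FB (p * M)} (hf : HasUnitRed A M p hpM f) (n : ℕ) :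
    HasUnitRed A M p hpM (f ^ n) := by
  induction n with
  | zero => rw [pow_zero]; exact hasUnitRed_one hpM
  | succ n ih => rw [pow_succ]; exact ih.mul hpM hf

theorem HasUnitRed.inv {f : FB (p * M)} (hf : HasUnitRed A M p hpM f) :
    HasUnitRed A M p hpM f⁻¹ := by
  obtain ⟨hf, ef⟩ := hf
  obtain ⟨h, e⟩ := inv_mem_loc2 (iota2 M p hpM) ⟨f, hf⟩
    (fun s => by rw [ef]; exact one_ne_zero)
  exact ⟨h, funext fun s => by rw [e s, ef]; exact inv_one⟩

theorem isFlatClass_zero : IsFlatClass A M p hpM 0 :=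
  ⟨1, by rw [show Additive.ofMul (1 : divGrp QBar (FB (p * M)) p) = 0 from rfl, map_zero]; rfl,
    hasUnitRed_one hpM⟩

theorem IsFlatClass.add {x y : Pic0 QBar (FB (p * M))} (hx : IsFlatClass A M p hpM x)
    (hy : IsFlatClass A M p hpM y) : IsFlatClass A M p hpM (x + y) := by
  obtain ⟨f, rfl, hf⟩ := hx
  obtain ⟨g, rfl, hg⟩ := hy
  refine ⟨f * g, ?_, hf.mul hpM hg⟩
  rw [ofMul_mul, map_add]
  rfl

theorem IsFlatClass.neg {x : Pic0 QBar (FB (p * M))} (hx : IsFlatClass A M p hpM x) :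
    IsFlatClass A M p hpM (-x) := by
  obtain ⟨f, rfl, hf⟩ := hx
  refine ⟨f⁻¹, ?_, ?_⟩
  · rw [ofMul_inv, map_neg]
    rfl
  · rw [Subgroup.coe_inv, Units.val_inv_eq_inv_val]
    exact hf.inv hpM

end Fermat.Agent.OrdinaryAtP

end
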