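import Fermat.Agent.OrdinaryAtP.Statement
import Fermat.Agent.RT.Lift.AtP.Flat
import Fermat.Agent.RT.MazurP.Plane
import Fermat.Agent.Semistable.GoodM

/-!
# Moved classes killed by `p` are flat

Each difference `τ x - x`, `τ` inertia and `x` of `p`-power order, is flat modulo a power of `p`;
flat classes form a group and a class killed by `p` which is flat modulo `p ^ n` is flat modulo
`p`. So the absence of invariant quotients of flat groups gives that of moved groups.
-/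

set_option autoImplicit false

noncomputable section

namespace Fermat.Agent.OrdinaryAtP

open AlgebraicCurve ModularCurve Semistable
open Arith (QBar GQ)
open RT.MazurP (cls)
open RT.Lift.AtP (IsFlat)

variable {A : ValuationSubring QBar} {M p : ℕ} [NeZero M] [hp : Fact p.Prime] {hpM : ¬ p ∣ M}

/-- Flatness passes to higher powers of `p`. -/
theorem isFlat_mul_right {m k : ℕ} [NeZero m] [NeZero (m * k)] {x : JZero (p * M)}
    (hx : IsFlat A M p hpM m x) : IsFlat A M p hpM (m * k) x := by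
  obtain ⟨f, hf, hd, rfl, hr⟩ := hx
  have hd' : ∀ v : Place QBar (FB (p * M)), ((m * k : ℕ) : ℤ) ∣ v.ord (f ^ k) := fun v => by
    rw [FF.ord_pow v, Nat.cast_mul, mul_comm (m : ℤ)]
    exact mul_dvd_mul_left _ (hd v)
  set g : JacTorsion.divGrp QBar (FB (p * M)) m := ⟨Units.mk0 f hf, hd⟩
  set D : Divisor.degZero (K := QBar) (F := FB (p * M)) :=
    ⟨JacTorsion.divQuot g, JacTorsion.divQuot_mem_degZero g⟩
  have hfD : ∀ v : Place QBar (FB (p * M)), v.ord f = (m : ℤ) * (D : Divisor QBar _) v := fun v => by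
    show v.ord ((g : (FB (p * M))ˣ) : FB (p * M)) = _
    rw [← JacTorsion.div_apply, ← JacTorsion.smul_divQuot g, Finsupp.smul_apply, smul_eq_mul]
  refine ⟨f ^ k, pow_ne_zero _ hf, hd', ?_, hr.pow hpM k⟩
  rw [RT.Lift.AtP.cls_eq_mk hf hd D hfD,
    RT.Lift.AtP.cls_eq_mk (pow_ne_zero _ hf) hd' D fun v => by
      rw [FF.ord_pow v, hfD, Nat.cast_mul, mul_left_comm, mul_assoc]]

/-- An element of the moved group is flat modulo some power of `p`. -/
theorem exists_isFlat_of_mem_movedGroup (hA : A.LiesOverPrime p) (h4 : 4 ∣ M) {x : JZero (p * M)}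
    (hx : x ∈ movedGroup A (p * M) p) :
    ∃ n : ℕ, haveI : NeZero (p ^ n) := ⟨pow_ne_zero n hp.out.ne_zero⟩
      IsFlat A M p hpM (p ^ n) x := by
  have : CharP (Res A) p := Arith.residueField_charP hA hp.out
  have hM : (M : Res A) ≠ 0 := by rwa [Ne, CharP.cast_eq_zero_iff (Res A) p]
  have := isFunctionField_KM (A := A) hM
  have hS : Setup A M p := ⟨hA, hpM, hM, goodM_of_dvd (Or.inl rfl) h4 hM⟩
  induction hx using AddSubgroup.closure_induction with
  | mem y hy =>
    obtain ⟨τ, hτ, z, n, hz, rfl⟩ := hy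
    have : NeZero (p ^ n) := ⟨pow_ne_zero n hp.out.ne_zero⟩
    exact ⟨n, RT.Lift.AtP.isFlat_moved hS hτ hz⟩
  | zero =>
    have : NeZero (p ^ 0) := ⟨pow_ne_zero 0 hp.out.ne_zero⟩
    exact ⟨0, RT.Lift.AtP.isFlat_zero hpM⟩
  | add a b _ _ ha hb =>
    obtain ⟨n₁, h₁⟩ := ha
    obtain ⟨n₂, h₂⟩ := hb
    have i₁ : NeZero (p ^ n₁) := ⟨pow_ne_zero _ hp.out.ne_zero⟩
    have i₂ : NeZero (p ^ n₂) := ⟨pow_ne_zero _ hp.out.ne_zero⟩
    have i : NeZero (p ^ (n₁ + n₂)) := ⟨pow_ne_zero _ hp.out.ne_zero⟩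
    have i₁' : NeZero (p ^ n₁ * p ^ n₂) := ⟨mul_ne_zero i₁.out i₂.out⟩
    have i₂' : NeZero (p ^ n₂ * p ^ n₁) := ⟨mul_ne_zero i₂.out i₁.out⟩
    have e₁ := isFlat_mul_right (k := p ^ n₂) h₁
    have e₂ := isFlat_mul_right (k := p ^ n₁) h₂
    refine ⟨n₁ + n₂, RT.Lift.AtP.IsFlat.add hpM ?_ ?_⟩
    · convert e₁ using 2
      exact pow_add p n₁ n₂
    · convert e₂ using 2
      rw [← pow_add, add_comm]
  | neg a _ ha =>
    obtain ⟨n, h⟩ := ha
    have : NeZero (p ^ n) := ⟨pow_ne_zero n hp.out.ne_zero⟩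
    exact ⟨n, RT.Lift.AtP.IsFlat.neg hpM h⟩

/-- A moved class killed by `p` is flat. -/
theorem isFlatClass_of_mem_movedGroup (hA : A.LiesOverPrime p) (h4 : 4 ∣ M) {x : JZero (p * M)}
    (hx : x ∈ movedGroup A (p * M) p) (hpx : p • x = 0) : IsFlatClass A M p hpM x := by
  obtain ⟨n, hn⟩ := exists_isFlat_of_mem_movedGroup (hpM := hpM) hA h4 hx
  have : CharP (Res A) p := Arith.residueField_charP hA hp.out
  have : NeZero (p ^ n) := ⟨pow_ne_zero n hp.out.ne_zero⟩
  exact hn.isFlatClass hpM hA hpx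

/-- No invariant quotient of flat groups gives none of moved groups. -/
theorem noTrivialQuotient_of_flat (hA : A.LiesOverPrime p) (h4 : 4 ∣ M)
    (hG : RT.MazurP.NoFlatQuotient A M p hpM) : NoTrivialQuotient A (p * M) p :=
  fun H hH hp0 hstab π hπ =>
    hG H (fun y hy => isFlatClass_of_mem_movedGroup hA h4 (hH hy) (hp0 y hy)) hstab π hπ

end Fermat.Agent.OrdinaryAtP

end
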