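import Fermat.Agent.OrdinaryAtP.SpaceOps

/-!
# The group of units with roots of their values

Units `f` with divisor divisible by `p` together with `p`-th roots `r` of their values, modulo
`(a ^ p, a)`. It maps to the `p`-torsion of the Jacobian, with finite kernel, compatibly with
inertia, and its value spaces separate its elements.
-/

set_option autoImplicit false
set_option synthInstance.maxHeartbeats 400000
set_option maxHeartbeats 1000000
set_option linter.unusedSectionVars false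

noncomputable section

namespace Fermat.Agent.OrdinaryAtP

open ModularCurve AlgebraicCurve Semistable
open Arith (QBar GQ)
open scoped Pointwise

variable {A : ValuationSubring QBar} {M p : ℕ} [NeZero M] [hp : Fact p.Prime] [CharP (Res A) p]

section Defs

variable {hpM : ¬ p ∣ M} {n : ℕ} (P : Points A M p hpM n)

/-- The pairs. -/
def Points.pairGrp : Subgroup ((FB (p * M))ˣ × (Fin P.d → QBarˣ)) where
  carrier := {x | P.IsRep x.1 fun i => (x.2 i : QBar)}
  one_mem' := Points.IsRep.one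
  mul_mem' := by
    intro x y hx hy
    exact hx.mul hy
  inv_mem' := by
    intro x hx
    refine ⟨inv_mem hx.mem, inv_mem hx.dvd, fun i => ?_⟩
    have h1 := P.ext_units_inv i hx.mem
    rw [← hx.root i] at h1
    rw [Prod.snd_inv, Pi.inv_apply, Units.val_inv_eq_inv_val, inv_pow]
    exact inv_eq_of_mul_eq_one_right h1

theorem Points.mem_pairGrp {x : (FB (p * M))ˣ × (Fin P.d → QBarˣ)} :
    x ∈ P.pairGrp ↔ P.IsRep x.1 fun i => (x.2 i : QBar) := Iff.rfl

/-- The trivial pairs `(a ^ p, a)`. -/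
def Points.changeHom : unitGrp A M p hpM →* P.pairGrp :=
  MonoidHom.codRestrict
    { toFun := fun (a : unitGrp A M p hpM) => ((a : (FB (p * M))ˣ) ^ p,
        fun i => Units.mk0 (P.ext i ⟨((a : (FB (p * M))ˣ) : FB (p * M)), a.2.1⟩)
          (P.ext_ne_zero i a.2))
      map_one' := Prod.ext (one_pow _) (funext fun i => Units.ext (map_one (P.ext i)))
      map_mul' := fun (a b : unitGrp A M p hpM) => Prod.ext (mul_pow _ _ _) (funext fun i => Units.ext
        (P.ext_units_mul i a.2 b.2 (mul_mem a.2 b.2))) }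
    P.pairGrp fun (a : unitGrp A M p hpM) => by
      refine ⟨pow_mem a.2 p, pow_unit_mem_divGrp _, fun i => ?_⟩
      show P.ext i _ ^ p = P.ext i _
      rw [← map_pow]
      rfl

theorem Points.changeHom_fst (a : unitGrp A M p hpM) :
    (P.changeHom a).1.1 = (a : (FB (p * M))ˣ) ^ p := rfl

theorem Points.changeHom_snd (a : unitGrp A M p hpM) (i : Fin P.d) :
    ((P.changeHom a).1.2 i : QBar) =
      P.ext i ⟨((a : (FB (p * M))ˣ) : FB (p * M)), a.2.1⟩ := rfl

/-- The cover. -/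
abbrev Points.CoverGrp : Type := Additive (P.pairGrp ⧸ P.changeHom.range)

/-- The class of a pair. -/
def Points.cls (x : P.pairGrp) : P.CoverGrp := Additive.ofMul (QuotientGroup.mk x)

theorem Points.cls_mul (x y : P.pairGrp) : P.cls (x * y) = P.cls x + P.cls y := rfl

theorem Points.cls_surjective : Function.Surjective P.cls := fun x =>
  let ⟨y, hy⟩ := QuotientGroup.mk_surjective x.toMul
  ⟨y, congrArg Additive.ofMul hy⟩

theorem Points.cls_eq_mk_iff {x y : P.pairGrp} :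
    P.cls x = P.cls y ↔ ∃ a, x = y * P.changeHom a := by
  rw [Points.cls, Points.cls, Additive.ofMul.apply_eq_iff_eq, eq_comm, QuotientGroup.eq,
    MonoidHom.mem_range]
  exact ⟨fun ⟨a, ha⟩ => ⟨a, by rw [ha, mul_inv_cancel_left]⟩,
    fun ⟨a, ha⟩ => ⟨a, by rw [ha, inv_mul_cancel_left]⟩⟩

/-- The action of inertia on pairs. -/
def Points.galPair (τ : A.inertiaSubgroupIn ℚ) : P.pairGrp →* P.pairGrp :=
  MonoidHom.codRestrict
    { toFun := fun (x : P.pairGrp) => (OrdinaryAtP.galU τ x.1.1,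
        fun i => Units.map ((τ : GQ) : QBar →* QBar) (x.1.2 i))
      map_one' := Prod.ext (map_one _) (funext fun _i => map_one _)
      map_mul' := fun (_ _ : P.pairGrp) => Prod.ext (map_mul _ _ _) (funext fun _ => map_mul _ _ _) }
    P.pairGrp fun (x : P.pairGrp) => (P.mem_pairGrp.mp x.2).galU τ

theorem Points.galPair_fst (τ : A.inertiaSubgroupIn ℚ) (x : P.pairGrp) :
    (P.galPair τ x).1.1 = OrdinaryAtP.galU τ x.1.1 := rfl

theorem Points.galPair_snd (τ : A.inertiaSubgroupIn ℚ) (x : P.pairGrp) (i : Fin P.d) :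
    ((P.galPair τ x).1.2 i : QBar) = (τ : GQ) (x.1.2 i : QBar) := rfl

theorem Points.galPair_galPair (τ υ : A.inertiaSubgroupIn ℚ) (x : P.pairGrp) :
    P.galPair τ (P.galPair υ x) = P.galPair (τ * υ) x := by
  refine Subtype.ext (Prod.ext (Units.ext (Subtype.ext ?_)) (funext fun i => Units.ext rfl))
  rw [P.galPair_fst, P.galPair_fst, P.galPair_fst, coe_galU, coe_galU, coe_galU,
    coe_arithmeticRingAut, coe_arithmeticRingAut, coe_arithmeticRingAut, Subgroup.coe_mul]
  ext k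
  simp [coeffMap_coeff]

theorem Points.galPair_one (x : P.pairGrp) : P.galPair 1 x = x := by
  refine Subtype.ext (Prod.ext (Units.ext (Subtype.ext ?_)) (funext fun i => Units.ext rfl))
  rw [P.galPair_fst, coe_galU, coe_arithmeticRingAut]
  ext k
  simp [coeffMap_coeff]

theorem Points.changeHom_range_le_comap (τ : A.inertiaSubgroupIn ℚ) :
    P.changeHom.range ≤ P.changeHom.range.comap (P.galPair τ) := by
  rintro _ ⟨a, rfl⟩
  refine ⟨⟨OrdinaryAtP.galU τ a, galU_mem_unitGrp τ a.2⟩, Subtype.ext (Prod.ext ?_ ?_)⟩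
  · rw [P.changeHom_fst, P.galPair_fst, P.changeHom_fst, map_pow]
  · refine funext fun i => Units.ext ?_
    rw [P.changeHom_snd, P.galPair_snd, P.changeHom_snd]
    exact P.ext_galois i τ ⟨((a : (FB (p * M))ˣ) : FB (p * M)), a.2.1⟩

/-- The action of inertia. -/
def Points.galQ (τ : A.inertiaSubgroupIn ℚ) : P.CoverGrp →+ P.CoverGrp :=
  MonoidHom.toAdditive
    (QuotientGroup.map _ _ (P.galPair τ) (P.changeHom_range_le_comap τ))

theorem Points.galQ_mk (τ : A.inertiaSubgroupIn ℚ) (x : P.pairGrp) :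
    P.galQ τ (P.cls x) = P.cls (P.galPair τ x) := rfl

theorem Points.galQ_galQ (τ υ : A.inertiaSubgroupIn ℚ) (x : P.CoverGrp) :
    P.galQ τ (P.galQ υ x) = P.galQ (τ * υ) x := by
  obtain ⟨y, rfl⟩ := P.cls_surjective x
  rw [P.galQ_mk, P.galQ_mk, P.galQ_mk, P.galPair_galPair]

theorem Points.galQ_one (x : P.CoverGrp) : P.galQ 1 x = x := by
  obtain ⟨y, rfl⟩ := P.cls_surjective x
  rw [P.galQ_mk, P.galPair_one]

/-- The Kummer class. -/
def Points.clsPair [NeZero p] : P.pairGrp →* Multiplicative (Pic0 QBar (FB (p * M))) :=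
  MonoidHom.mk' (fun x => Multiplicative.ofAdd
    (JacTorsion.toTorsion (Additive.ofMul
      (⟨x.1.1, (P.mem_pairGrp.mp x.2).dvd⟩ : JacTorsion.divGrp QBar (FB (p * M)) p))).1)
    fun x y => by
      rw [← ofAdd_add, ← AddSubgroup.coe_add, ← map_add]
      rfl

theorem Points.changeHom_range_le_ker [NeZero p] :
    P.changeHom.range ≤ P.clsPair.ker := by
  rintro _ ⟨a, rfl⟩
  rw [MonoidHom.mem_ker]
  show Multiplicative.ofAdd _ = 1
  rw [(JacTorsion.toTorsion_eq_zero_iff _).mpr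
    ((JacTorsion.mem_powGrp (K := QBar) (F := FB (p * M))).mpr ⟨(a : (FB (p * M))ˣ), (P.changeHom_fst a).symm⟩)]
  rfl

/-- The map to the Jacobian. -/
def Points.clsQ [NeZero p] : P.CoverGrp →+ Pic0 QBar (FB (p * M)) :=
  MonoidHom.toAdditiveLeft (QuotientGroup.lift _ P.clsPair P.changeHom_range_le_ker)

theorem Points.clsQ_mk [NeZero p] (x : P.pairGrp) : P.clsQ (P.cls x) =
    (JacTorsion.toTorsion (Additive.ofMul
      (⟨x.1.1, (P.mem_pairGrp.mp x.2).dvd⟩ : JacTorsion.divGrp QBar (FB (p * M)) p))).1 := rfl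

theorem Points.clsQ_galQ [NeZero p] (τ : A.inertiaSubgroupIn ℚ) (x : P.CoverGrp) :
    P.clsQ (P.galQ τ x) = ((τ : GQ) • P.clsQ x : JZero (p * M)) := by
  obtain ⟨y, rfl⟩ := P.cls_surjective x
  rw [P.galQ_mk, P.clsQ_mk, P.clsQ_mk]
  set u : JacTorsion.divGrp QBar (FB (p * M)) p := ⟨y.1.1, (P.mem_pairGrp.mp y.2).dvd⟩
  set u' : JacTorsion.divGrp QBar (FB (p * M)) p :=
    ⟨(P.galPair τ y).1.1, (P.mem_pairGrp.mp (P.galPair τ y).2).dvd⟩
  show Pic0.mk ⟨JacTorsion.divQuot u', JacTorsion.divQuot_mem_degZero _⟩ =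
    ((τ : GQ) • (Pic0.mk ⟨JacTorsion.divQuot u, JacTorsion.divQuot_mem_degZero _⟩) :
      JZero (p * M))
  rw [galois_smul_pic0_def, SemilinearAut.pic0_smul_mk]
  refine congrArg Pic0.mk (Subtype.ext (Finsupp.ext fun v => ?_))
  set g := arithmeticGalois (modularFunctionFieldFull (p * M)) (τ : GQ)
  show JacTorsion.divQuot u' v = (g • JacTorsion.divQuot u) v
  rw [SemilinearAut.divisor_smul_apply]
  simp only [JacTorsion.divQuot, Finsupp.mapRange_apply, FF.div_apply]
  refine congrArg (· / (p : ℤ)) ?_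
  have h := SemilinearAut.ord_smul g (g⁻¹ • v) (y.1.1 : FB (p * M))
  rw [smul_inv_smul] at h
  exact h

/-- The kernel of the map to the Jacobian is finite. -/
theorem Points.finite_ker [NeZero p] (hA : A.LiesOverPrime p) :
    ((P.clsQ.ker : AddSubgroup P.CoverGrp) : Set P.CoverGrp).Finite := by
  classical
  let ι : (Fin P.d → rootsOfUnity p QBar) → P.pairGrp := fun ζ =>
    ⟨(1, fun i => (ζ i : QBarˣ)), by
      refine ⟨one_mem _, one_mem _, fun i => ?_⟩
      rw [← Units.val_pow_eq_pow_val, (mem_rootsOfUnity p _).mp (ζ i).2, Units.val_one]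
      exact (map_one (P.ext i)).symm⟩
  refine (Set.finite_range fun ζ => P.cls (ι ζ)).subset fun x hx => ?_
  obtain ⟨y, rfl⟩ := P.cls_surjective x
  rw [SetLike.mem_coe, AddMonoidHom.mem_ker, P.clsQ_mk] at hx
  have hy := P.mem_pairGrp.mp y.2
  obtain ⟨g, hg⟩ := (JacTorsion.mem_powGrp (K := QBar) (F := FB (p * M))).mp
    ((JacTorsion.toTorsion_eq_zero_iff _).mp (Subtype.ext hx))
  have hgU : g ∈ unitGrp A M p hpM := mem_unitGrp_of_pow hA (hg ▸ hy.mem)
  have hroot : ∀ i, (y.1.2 i * ((P.changeHom ⟨g, hgU⟩).1.2 i)⁻¹) ∈ rootsOfUnity p QBar := by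
    intro i
    rw [mem_rootsOfUnity, mul_pow, inv_pow, mul_inv_eq_one]
    refine Units.ext ?_
    rw [Units.val_pow_eq_pow_val, Units.val_pow_eq_pow_val, hy.root i, P.changeHom_snd, ← map_pow]
    exact congrArg _ (Subtype.ext (by
      rw [SubmonoidClass.coe_pow, ← Units.val_pow_eq_pow_val]
      exact congrArg Units.val hg.symm))
  refine ⟨fun i => ⟨_, hroot i⟩, P.cls_eq_mk_iff.mpr ⟨⟨g, hgU⟩⁻¹, ?_⟩⟩
  rw [map_inv, ← div_eq_mul_inv, eq_div_iff_mul_eq']
  refine Subtype.ext (Prod.ext ?_ (funext fun i => ?_))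
  · show 1 * g ^ p = y.1.1
    rw [one_mul]
    exact hg
  · exact inv_mul_cancel_right _ _

/-- The value space of a class. -/
def Points.valQ (m : ℕ) (x : P.CoverGrp) : Submodule QBar (Fin P.d → QBar) :=
  P.valSpace m (P.cls_surjective x).choose.1.1
    fun i => ((P.cls_surjective x).choose.1.2 i : QBar)

theorem Points.valQ_mk (m : ℕ) (y : P.pairGrp) :
    P.valQ m (P.cls y) = P.valSpace m y.1.1 fun i => (y.1.2 i : QBar) := by
  unfold Points.valQ
  obtain ⟨a, ha⟩ := P.cls_eq_mk_iff.mp (P.cls_surjective (P.cls y)).choose_spec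
  rw [ha]
  show P.valSpace m (y.1.1 * (a : (FB (p * M))ˣ) ^ p)
    (fun i => (y.1.2 i : QBar) *
      P.ext i ⟨((a : (FB (p * M))ˣ) : FB (p * M)), a.2.1⟩) = _
  exact P.valSpace_change a.2

theorem Points.valQ_galQ (m : ℕ) (τ : A.inertiaSubgroupIn ℚ) (x : P.CoverGrp)
    {v : Fin P.d → QBar} (hv : v ∈ P.valQ m x) :
    (fun i => (τ : GQ) (v i)) ∈ P.valQ m (P.galQ τ x) := by
  obtain ⟨y, rfl⟩ := P.cls_surjective x
  rw [P.valQ_mk] at hv
  rw [P.galQ_mk, P.valQ_mk]
  exact P.galois_mem_valSpace τ hv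

theorem Points.mul_mem_valQ (m : ℕ) (x y : P.CoverGrp) {v w : Fin P.d → QBar}
    (hv : v ∈ P.valQ m x) (hw : w ∈ P.valQ m y) : v * w ∈ P.valQ (m + m) (x + y) := by
  obtain ⟨a, rfl⟩ := P.cls_surjective x
  obtain ⟨b, rfl⟩ := P.cls_surjective y
  rw [P.valQ_mk] at hv hw
  rw [← P.cls_mul, P.valQ_mk]
  exact P.mul_mem_valSpace hv hw

theorem Points.valQ_mono {m k : ℕ} (hmk : m ≤ k) (x : P.CoverGrp) :
    P.valQ m x ≤ P.valQ k x :=
  P.valSpace_mono hmk _ _

theorem Points.jpow_mem_valQ (m : ℕ) (x : P.CoverGrp) {v : Fin P.d → QBar}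
    (hv : v ∈ P.valQ m x) :
    (fun i => P.s i (upJ A M p hpM) ^ m) * v ∈ P.valQ (m + m) x :=
  P.jpow_mem_valSpace hv

end Defs

variable [FF.IsFunctionField (Res A) (KM A M)] {h : Setup A M p}
variable {n : ℕ} {P : Points A M p h.hqM n}

/-- A function with divisor divisible by `p` and unit reductions becomes regular away from the
cusps after multiplication by a `p`-th power with unit reductions. -/
theorem exists_normal {m : ℕ} (hm : IsDegree h m) {f : (FB (p * M))ˣ}
    (hdvd : f ∈ JacTorsion.divGrp QBar (FB (p * M)) p)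
    (hf : HasUnitRed A M p h.hqM (f : FB (p * M))) :
    ∃ a : (FB (p * M))ˣ, HasUnitRed A M p h.hqM (a : FB (p * M)) ∧
      f * a ^ p ∈ unitGrp A M p h.hqM ∧
      ((f * a ^ p : (FB (p * M))ˣ) : FB (p * M)) ∈ HN M p (p * m) := by
  have : NeZero p := ⟨hp.out.ne_zero⟩
  set D := JacTorsion.divQuot (⟨f, hdvd⟩ : JacTorsion.divGrp QBar (FB (p * M)) p) with hD
  have hord : ∀ v, v.ord (f : FB (p * M)) = (p : ℤ) * D v := fun v => by
    rw [← JacTorsion.div_apply, ← JacTorsion.smul_divQuot ⟨f, hdvd⟩, Finsupp.smul_apply,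
      smul_eq_mul]
  have h1 : (1 : Fin 2 → LaurentSeries (Res A)) ∈
      redSub A (iota2 M p h.hqM) (HD M p D m) := by
    rw [hm.twist _ D hord hf]
    exact h.one_mem_Bn m
  obtain ⟨x, hxD, hxr⟩ := mem_redSub.mp h1
  have hx0 : (x : FB (p * M)) ≠ 0 := fun h0 => by
    rw [show x = 0 from Subtype.ext h0, map_zero] at hxr
    exact zero_ne_one (congrFun hxr 0)
  have hxU : HasUnitRed A M p h.hqM (x : FB (p * M)) := ⟨x.2, hxr⟩
  have hU : HasUnitRed A M p h.hqM
      ((f * Units.mk0 _ hx0 ^ p : (FB (p * M))ˣ) : FB (p * M)) := by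
    rw [Units.val_mul, Units.val_pow_eq_pow_val, Units.val_mk0]
    exact hf.mul h.hqM (hxU.pow h.hqM p)
  have hN : ((f * Units.mk0 _ hx0 ^ p : (FB (p * M))ˣ) : FB (p * M)) ∈ HN M p (p * m) := by
    rw [Units.val_mul, Units.val_pow_eq_pow_val, Units.val_mk0]
    convert pow_mul_mem_HN hxD hord using 1
    exact mul_comm _ _
  exact ⟨Units.mk0 _ hx0, hxU, ⟨coe_mem_Bloc ⟨_, hU.1, p * m, hN⟩, hU⟩, hN⟩

/-- **The value spaces separate the classes.** -/
theorem Points.valQ_sep {m : ℕ} (hm : IsDegree h m) (hpm : IsDegree h (p * m))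
    (hpmn : p * m ≤ n) (x y : P.CoverGrp) (hxy : P.valQ m x = P.valQ m y) : x = y := by
  obtain ⟨b, rfl⟩ := P.cls_surjective y
  obtain ⟨c, rfl⟩ := P.cls_surjective x
  have hc := P.mem_pairGrp.mp c.2
  obtain ⟨a, ha, haU, haN⟩ := exists_normal hm hc.dvd hc.mem.2
  have haU' : a ∈ unitGrp A M p h.hqM := mem_unitGrp_of_pow h.hA (by
    have h1 : a ^ p = c.1.1⁻¹ * (c.1.1 * a ^ p) := by rw [inv_mul_cancel_left]
    rw [h1]
    exact mul_mem (inv_mem hc.mem) haU)
  have e : P.cls c = P.cls (c * P.changeHom ⟨a, haU'⟩) :=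
    (P.cls_eq_mk_iff.mpr ⟨⟨a, haU'⟩, rfl⟩).symm
  rw [e] at hxy ⊢
  rw [P.valQ_mk, P.valQ_mk] at hxy
  obtain ⟨a', ha', e1, e2⟩ := (P.mem_pairGrp.mp (c * P.changeHom ⟨a, haU'⟩).2).exists_change
    hm hpm hpmn (P.mem_pairGrp.mp b.2) haN hxy
  exact P.cls_eq_mk_iff.mpr
    ⟨⟨a', ha'⟩, Subtype.ext (Prod.ext e1 (funext fun i => Units.ext (congrFun e2 i)))⟩

end Fermat.Agent.OrdinaryAtP

end
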