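import Fermat.Agent.OrdinaryAtP.Ring

/-!
# Generation of the integral ring in bounded degree

Its graded pieces are eventually generated by the preceding one and `j`; twisting by a function
with trivial reductions does not change the reductions.
-/

set_option autoImplicit false
set_option synthInstance.maxHeartbeats 400000
set_option maxHeartbeats 1000000
set_option linter.unusedSectionVars false

noncomputable section

namespace Fermat.Agent.OrdinaryAtP

open ModularCurve AlgebraicCurve Polynomial Semistable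
open Arith (QBar GQ)
open scoped Pointwise

variable {A : ValuationSubring QBar} {M p : ℕ} [NeZero M] [hp : Fact p.Prime] [CharP (Res A) p]

variable [FF.IsFunctionField (Res A) (KM A M)] (h : Setup A M p)
include h

theorem jvec_mem_Bn : jvec A p ∈ Bn A M p h.hqM 1 := by
  rw [← rho_upJ (hpM := h.hqM), rho_apply]
  exact mem_redSub.mpr ⟨⟨(upJ A M p h.hqM : FB (p * M)), (upJ A M p h.hqM).2.1⟩,
    upF_mem_HN M p jM_mem_HM, rfl⟩

/-- A pair with bounded poles is corrected to a reduction in lower degree. -/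
theorem exists_glue_fix : ∃ n₀ : ℕ, ∀ m, n₀ ≤ m → ∀ a0 ∈ Hk A M (m + 1),
    ∀ a1 ∈ Hk A M (p * (m + 1)), ∃ x0 ∈ Hk A M m, ∃ x1 ∈ Hk A M (p * m),
      ![((a0 + x0 : KM A M) : LaurentSeries (Res A)),
        ((a1 + x1 : KM A M) : LaurentSeries (Res A))] ∈ Bn A M p h.hqM (m + 1) := by
  obtain ⟨n₂, -, hn₂⟩ := h.exists_gap
  obtain ⟨n₃, hn₃⟩ := h.exists_mem_Bn_iff_IZ
  refine ⟨n₂ + n₃, fun m hm a0 ha0 a1 ha1 => ?_⟩
  obtain ⟨x, hx⟩ := (hn₂ m (by omega)).1 (-gapMap h (m + 1) (⟨a0, ha0⟩, ⟨a1, ha1⟩))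
  obtain ⟨⟨x0, hx0⟩, x1, hx1⟩ := x
  refine ⟨x0, hx0, x1, hx1, ?_⟩
  have hb0 : a0 + x0 ∈ Hk A M (m + 1) :=
    add_mem ha0 (RedTorsion.polesSpace_mono (by omega) hx0)
  have hb1 : a1 + x1 ∈ Hk A M (p * (m + 1)) :=
    add_mem ha1 (RedTorsion.polesSpace_mono (Nat.mul_le_mul_left p (by omega)) hx1)
  refine (hn₃ (m + 1) (by omega) (toR A M (m + 1) ⟨_, hb0⟩) (toR A M (p * (m + 1)) ⟨_, hb1⟩)
    hb0 hb1).mpr ?_
  rw [h.gapMap_eq, h.gapMap_eq] at hx
  rw [← Ideal.Quotient.eq_zero_iff_mem]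
  have e : toR A M (p * (m + 1)) ⟨a1 + x1, hb1⟩ - qR A M p (toR A M (m + 1) ⟨a0 + x0, hb0⟩) =
      (toR A M (p * (m + 1)) ⟨a1, ha1⟩ - qR A M p (toR A M (m + 1) ⟨a0, ha0⟩)) +
      (toR A M (p * m) ⟨x1, hx1⟩ - qR A M p (toR A M m ⟨x0, hx0⟩)) := by
    have e0 : toR A M (m + 1) ⟨a0 + x0, hb0⟩ =
        toR A M (m + 1) ⟨a0, ha0⟩ + toR A M m ⟨x0, hx0⟩ := Subtype.ext rfl
    have e1 : toR A M (p * (m + 1)) ⟨a1 + x1, hb1⟩ =
        toR A M (p * (m + 1)) ⟨a1, ha1⟩ + toR A M (p * m) ⟨x1, hx1⟩ := Subtype.ext rfl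
    rw [e0, e1, map_add]
    abel
  rw [e, map_add, hx, add_neg_cancel]

/-- Multiplication by a power of `j` and pole bounds. -/
theorem jK_pow_mul_mem (e b : ℕ) {φ : KM A M} (hφ : φ ∈ Hk A M b) :
    jK A M ^ e * φ ∈ Hk A M (e + b) := by
  refine mul_mem_polesSpace (RedTorsion.mem_polesSpace.mpr fun v =>
    FF.mem_ordGe_of_le v ?_) hφ
  rw [FF.ord_pow, FF.poles_apply]
  nlinarith [Int.natCast_nonneg e, le_max_right (0 : ℤ) (-v.ord (jK A M))]

/-- **The reductions are generated in bounded degree.** -/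
theorem exists_Bn_succ : ∃ n₀ : ℕ, ∀ n, n₀ ≤ n → ∀ r ∈ Bn A M p h.hqM (n + 1),
    ∃ u ∈ Bn A M p h.hqM n, ∃ v ∈ Bn A M p h.hqM n, r = u + jvec A p * v := by
  obtain ⟨n₁, hn₁⟩ := h.exists_layer
  obtain ⟨n₂, hn₂⟩ := exists_glue_fix h
  obtain ⟨n₄, hn₄⟩ := h.exists_descend
  refine ⟨n₁ + n₂ + n₄ + 1, fun n hn r hr => ?_⟩
  obtain ⟨m, rfl⟩ : ∃ m, n = m + 1 := ⟨n - 1, by omega⟩
  obtain ⟨hr0, hr1⟩ := (mem_Pk A M).mp (Bn_le_Pk M p h.hqM h.hA h.hM _ hr)
  obtain ⟨z0, e0, hz0⟩ := exists_serR hr0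
  obtain ⟨z1, e1, hz1⟩ := exists_serR hr1
  have hj0 : jK A M ≠ 0 := fun h0 =>
    jqModC_ne_zero_of_nontrivial (Res A) (congrArg Subtype.val h0)
  have hqd : ∀ k, p * (k + 1) = p + p * k := fun k => by ring
  have hmm : m ≤ p * m := Nat.le_mul_of_pos_left m hp.out.pos
  obtain ⟨a0, ha0, hl0⟩ := hn₁ 1 (m + 1) m (m + 1 + 1) (m + 1) (jK A M ^ 1) (by omega) (by omega)
    (by omega) (by omega) (pow_ne_zero _ hj0) (fun v _ => FF.ord_pow v _ _)
    (fun φ hφ => by have := jK_pow_mul_mem h 1 _ hφ; rwa [add_comm 1 (m + 1)] at this) _ hz0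
  obtain ⟨a1, ha1, hl1⟩ := hn₁ p (p * (m + 1)) (p * m) (p * (m + 1 + 1)) (p * (m + 1))
    (jK A M ^ p) (by omega) (Nat.mul_le_mul_left p (by omega)) (hqd _) (hqd _) (pow_ne_zero _ hj0)
    (fun v _ => FF.ord_pow v _ _) (fun φ hφ => by rw [hqd]; exact jK_pow_mul_mem h p _ hφ) _ hz1
  obtain ⟨x0, hx0, x1, hx1, hv⟩ := hn₂ m (by omega) a0 ha0 a1 ha1
  refine ⟨r - jvec A p * ![((a0 + x0 : KM A M) : LaurentSeries (Res A)),
      ((a1 + x1 : KM A M) : LaurentSeries (Res A))], ?_, _, hv, (sub_add_cancel _ _).symm⟩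
  refine hn₄ (m + 1) (by omega) (m + 1 + 1) (by omega) _ (sub_mem hr ?_)
    ((mem_Pk A M).mpr ⟨?_, ?_⟩)
  · have := h.mul_mem_Bn (jvec_mem_Bn h) hv
    rwa [add_comm 1 (m + 1)] at this
  · have hmem : z0 - jK A M ^ 1 * a0 - jK A M ^ 1 * x0 ∈ Hk A M (m + 1) := by
      refine sub_mem hl0 ?_
      have := jK_pow_mul_mem h 1 _ hx0
      rwa [add_comm 1 m] at this
    convert coe_mem_HkS.mpr hmem using 1
    rw [Pi.sub_apply, Pi.mul_apply, ← e0]
    simp [serR, jvec, coe_jK]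
    ring
  · have hmem : (z1 : KM A M) - jK A M ^ p * a1 - jK A M ^ p * x1 ∈ Hk A M (p * (m + 1)) := by
      refine sub_mem hl1 ?_
      rw [hqd]
      exact jK_pow_mul_mem h p _ hx1
    convert coe_mem_HkS.mpr hmem using 1
    rw [Pi.sub_apply, Pi.mul_apply, ← e1]
    simp [serR, jvec, coe_jK]
    ring

/-- Large degrees are spanned by products. -/
theorem exists_Bn_le_mul : ∃ n₀ : ℕ, ∀ n, n₀ ≤ n → ∀ i, ∀ r ∈ Bn A M p h.hqM (n + i),
    r ∈ Submodule.span (Res A) {z : Fin 2 → LaurentSeries (Res A) |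
      ∃ a ∈ Bn A M p h.hqM n, ∃ b ∈ Bn A M p h.hqM i, z = a * b} := by
  obtain ⟨n₀, hn₀⟩ := exists_Bn_succ h
  refine ⟨n₀, fun n hn i => ?_⟩
  induction i with
  | zero =>
    intro r hr
    exact Submodule.subset_span ⟨r, hr, 1, h.one_mem_Bn 0, (mul_one r).symm⟩
  | succ i ih =>
    intro r hr
    obtain ⟨u, hu, v, hv, rfl⟩ := hn₀ (n + i) (by omega) r hr
    refine add_mem (Submodule.span_mono ?_ (ih u hu)) ?_
    · rintro z ⟨a, ha, b, hb, rfl⟩
      exact ⟨a, ha, b, h.Bn_mono (Nat.le_succ i) hb, rfl⟩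
    · have hv' := ih v hv
      clear hv hr
      induction hv' using Submodule.span_induction with
      | mem z hz =>
        obtain ⟨a, ha, b, hb, rfl⟩ := hz
        refine Submodule.subset_span ⟨a, ha, jvec A p * b, ?_, mul_left_comm _ _ _⟩
        rw [add_comm i 1]
        exact h.mul_mem_Bn (jvec_mem_Bn h) hb
      | zero => rw [mul_zero]; exact zero_mem _
      | add z w _ _ hz hw => rw [mul_add]; exact add_mem hz hw
      | smul c z _ hz =>
        have e : jvec A p * (c • z) = c • (jvec A p * z) := funext fun s => by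
          simp only [Pi.mul_apply, Pi.smul_apply, Igusa.hsmul_eq]
          exact mul_left_comm _ _ _
        rw [e]
        exact Submodule.smul_mem _ c hz

/-- Colon by a power of `j`. -/
theorem exists_colon : ∃ n₀ : ℕ, ∀ m, n₀ ≤ m → ∀ r ∈ Bn A M p h.hqM (2 * m),
    jvec A p ^ m * r ∈ Bn A M p h.hqM (2 * m) → r ∈ Bn A M p h.hqM m := by
  obtain ⟨n₁, hn₁⟩ := h.exists_descend
  refine ⟨n₁, fun m hm r hr hjr => hn₁ m hm (2 * m) (by omega) r hr ?_⟩
  obtain ⟨hr0, hr1⟩ := (mem_Pk A M).mp (Bn_le_Pk M p h.hqM h.hA h.hM _ hr)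
  obtain ⟨hjr0, hjr1⟩ := (mem_Pk A M).mp (Bn_le_Pk M p h.hqM h.hA h.hM _ hjr)
  obtain ⟨z0, e0, hz0⟩ := exists_serR hr0
  obtain ⟨z1, e1, hz1⟩ := exists_serR hr1
  have hord : ∀ e : ℕ, ∀ v : Place (Res A) (KM A M), v.ord (jK A M) < 0 →
      jK A M ^ e ≠ 0 ∧ v.ord (jK A M ^ e) = e * v.ord (jK A M) := fun e v hv =>
    ⟨pow_ne_zero _ fun h0 => by simp [h0] at hv, FF.ord_pow v _ _⟩
  refine (mem_Pk A M).mpr ⟨?_, ?_⟩
  · rw [← e0]
    refine coe_mem_HkS.mpr (cancel_poles (hord m) (b' := 2 * m) (by omega) hz0 ?_)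
    refine coe_mem_HkS.mp ?_
    convert hjr0 using 1
    rw [Pi.mul_apply, Pi.pow_apply, ← e0]
    simp [serR, jvec, coe_jK]
  · rw [← e1]
    refine coe_mem_HkS.mpr (cancel_poles (hord (p * m)) (b' := p * (2 * m))
      (le_of_eq (by ring)) hz1 ?_)
    refine coe_mem_HkS.mp ?_
    convert hjr1 using 1
    rw [Pi.mul_apply, Pi.pow_apply, ← e1]
    simp [serR, jvec, coe_jK, pow_mul]

/-- **Twisting by a function with unit reductions keeps the reductions.** -/
theorem exists_twist : ∃ n₀ : ℕ, ∀ (f : FB (p * M)) (D : Divisor QBar (FB (p * M))),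
    (∀ v, v.ord f = (p : ℤ) * D v) → HasUnitRed A M p h.hqM f → ∀ n, n₀ ≤ n →
      redSub A (iota2 M p h.hqM) (HD M p D n) = Bn A M p h.hqM n := by
  obtain ⟨n₁, hn₁⟩ := exists_finrank_HD (M := M) (q := p)
  obtain ⟨n₂, hn₂⟩ := h.exists_glued
  refine ⟨n₁ + n₂, fun f D hord hf n hn => ?_⟩
  obtain ⟨hfm, hfr⟩ := hf
  have hdeg := degree_eq_zero_of_kummer hp.out.ne_zero hord
  obtain ⟨hfd, hrk⟩ := finrank_redSub p h.hA (iota2 M p h.hqM) (iota2_fracS M p h.hqM) (HD M p D n)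
  obtain ⟨hfd', hrk'⟩ := finrank_Bn M p h.hqM h.hA n
  refine Submodule.eq_of_le_of_finrank_le (fun r hr => ?_)
    (le_of_eq (by rw [hrk, hrk', hn₁ D hdeg n (by omega)]))
  obtain ⟨x, hx, rfl⟩ := mem_redSub.mp hr
  have hnn : n ≤ p * n := Nat.le_mul_of_pos_left n hp.out.pos
  have hpow : red2 A (iota2 M p h.hqM) x ^ p ∈ Bn A M p h.hqM (p * n) := by
    refine mem_redSub.mpr ⟨x ^ p * ⟨f, hfm⟩, ?_, by rw [map_mul, map_pow, hfr, mul_one]⟩
    push_cast
    exact pow_mul_mem_HN hx hord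
  have hcomp : ∀ s, ∃ z : Rk A M, serR A M z = red2 A (iota2 M p h.hqM) x s ∧
      (z : KM A M) ∈ Hk A M (sideDeg p s * n) := by
    intro s
    have hmem := red2_mem_KM M p h.hqM h.hM x s
    have h1 : red2 A (iota2 M p h.hqM) x s ^ p ∈ HkS A M (sideDeg p s * (p * n)) := by
      have hP := (mem_Pk A M).mp (Bn_le_Pk M p h.hqM h.hA h.hM _ hpow)
      fin_cases s
      · simpa [sideDeg] using hP.1
      · simpa [sideDeg] using hP.2
    refine exists_serR (coe_mem_HkS (x := (⟨_, hmem⟩ : KM A M)).mpr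
      (root_mem_polesSpace hp.out.ne_zero ?_))
    refine coe_mem_HkS.mp ?_
    rw [show p * (sideDeg p s * n) = sideDeg p s * (p * n) by ring]
    exact h1
  obtain ⟨a, ea, ha⟩ := hcomp 0
  obtain ⟨b, eb, hb⟩ := hcomp 1
  rw [← (hn₂ n (by omega)).2]
  refine h.mem_glued.mpr ⟨a, b, by simpa [sideDeg] using ha, by simpa [sideDeg] using hb, ?_, ?_⟩
  · rw [ea, eb]
    funext s
    fin_cases s <;> rfl
  · intro χ
    rw [← (hn₂ (p * n) (by omega)).2] at hpow
    have e : red2 A (iota2 M p h.hqM) x ^ p = ![serR A M (a ^ p), serR A M (b ^ p)] := by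
      funext s
      fin_cases s <;> simp [ea, eb]
    rw [e] at hpow
    have h2 := h.rel_of_glued hpow χ
    simp only [Pi.one_apply, one_mul, map_pow] at h2 ⊢
    exact frobenius_inj (Res A) p (by simpa [frobenius_def] using h2)

theorem exists_lift_rho (n : ℕ) {r : Fin 2 → LaurentSeries (Res A)}
    (hr : r ∈ Bn A M p h.hqM n) : ∃ u : Bint A M p h.hqM,
      (u : FB (p * M)) ∈ HN M p n ∧ rho A M p h.hqM u = r := by
  obtain ⟨x, hx, rfl⟩ := mem_redSub.mp hr
  exact ⟨⟨x, x.2, n, hx⟩, hx, rfl⟩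

/-- A set of lattice elements whose reductions span has a basis of the lattice in it. -/
theorem exists_lattice_basis (n : ℕ) (S : Set (Bint A M p h.hqM))
    (hS : ∀ u ∈ S, (u : FB (p * M)) ∈ HN M p n)
    (hspan : Bn A M p h.hqM n ≤ Submodule.span (Res A) (rho A M p h.hqM '' S)) :
    ∃ (d : ℕ) (g : Fin d → Bint A M p h.hqM), (∀ a, g a ∈ S) ∧
      ∀ x : Bint A M p h.hqM, (x : FB (p * M)) ∈ HN M p n →
        ∃ c : Fin d → A, x = ∑ a, constB A M p h.hqM (c a) * g a := by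
  classical
  obtain ⟨b, hb, hbs, hbi⟩ := exists_linearIndependent (Res A) (rho A M p h.hqM '' S)
  obtain ⟨hfd, hrk⟩ := finrank_Bn M p h.hqM h.hA n
  have hbB : ∀ r ∈ b, r ∈ Bn A M p h.hqM n := fun r hr => by
    obtain ⟨u, hu, rfl⟩ := hb hr
    exact mem_redSub.mpr ⟨⟨(u : FB (p * M)), u.2.1⟩, hS u hu, rfl⟩
  have hbiB : LinearIndependent (Res A)
      fun r : b => (⟨r.1, hbB r r.2⟩ : Bn A M p h.hqM n) :=
    LinearIndependent.of_comp (Bn A M p h.hqM n).subtype hbi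
  have : Finite b := hbiB.finite
  have := Fintype.ofFinite b
  choose u hu hur using fun r : b => hb r.2
  let e := Fintype.equivFin b
  refine ⟨_, fun a => u (e.symm a), fun a => hu _, fun x hx => ?_⟩
  let gl : Fin (Fintype.card b) → loc2 A (iota2 M p h.hqM) :=
    fun a => ⟨(u (e.symm a) : FB (p * M)), (u (e.symm a)).2.1⟩
  have hgi : LinearIndependent (Res A) fun a => red2 A (iota2 M p h.hqM) (gl a) := by
    have hred : (fun a => red2 A (iota2 M p h.hqM) (gl a)) = fun a => (e.symm a : b).1 :=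
      funext fun a => hur _
    rw [hred]
    exact hbi.comp _ e.symm.injective
  have hli : LinearIndependent QBar (fun a => embLin (iota2 M p h.hqM) (gl a).1) :=
    linearIndependent_of_red (h := fun a s => (mem_loc2 _).mp (gl a).2 s) hgi
  have hliF : LinearIndependent QBar (fun a => (gl a).1) :=
    LinearIndependent.of_comp (embLin (iota2 M p h.hqM)) hli
  have hcard : Module.finrank QBar (HN M p n) ≤ Fintype.card b := by
    have hle : Bn A M p h.hqM n ≤
        Submodule.span (Res A) (Set.range fun r : b => (r : Fin 2 → LaurentSeries (Res A))) := by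
      rw [Subtype.range_coe, hbs]
      exact hspan
    have : Module.Finite (Res A)
        (Submodule.span (Res A) (Set.range fun r : b => (r : Fin 2 → LaurentSeries (Res A)))) :=
      FiniteDimensional.span_of_finite _ (Set.finite_range _)
    have h1 := Submodule.finrank_mono hle
    rw [hrk, finrank_span_eq_card hbi] at h1
    exact h1
  have htop : (x : FB (p * M)) ∈ Submodule.span QBar (Set.range fun a => (gl a).1) := by
    have hle : Submodule.span QBar (Set.range fun a => (gl a).1) ≤ HN M p n :=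
      Submodule.span_le.mpr (by rintro _ ⟨a, rfl⟩; exact hS _ (hu _))
    have hrk' := finrank_span_eq_card hliF
    rw [Fintype.card_fin] at hrk'
    rw [Submodule.eq_of_le_of_finrank_le hle (hrk'.symm ▸ hcard)]
    exact hx
  obtain ⟨c, hc⟩ := exists_int_coords gl hgi ⟨x, x.2.1⟩ htop
  refine ⟨c, Subtype.ext ?_⟩
  have h1 := congrArg Subtype.val hc
  rw [AddSubmonoidClass.coe_finsetSum] at h1 ⊢
  exact h1

/-- **Generators**: every element is a combination of finitely many with coefficients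
polynomials in `j`. -/
theorem exists_generators : ∃ (d : ℕ) (g : Fin d → Bint A M p h.hqM),
    ∀ x : Bint A M p h.hqM, ∃ P : Fin d → (A : Type)[X],
      x = ∑ l, polyJ A M p h.hqM (P l) * g l := by
  classical
  obtain ⟨n₀, hn₀⟩ := exists_Bn_succ h
  obtain ⟨d, g, hg, hgen⟩ := exists_lattice_basis h n₀ {u | (u : FB (p * M)) ∈ HN M p n₀}
    (fun u hu => hu) (fun r hr => by
      obtain ⟨u, hu, rfl⟩ := exists_lift_rho h n₀ hr
      exact Submodule.subset_span ⟨u, hu, rfl⟩)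
  have hC : ∀ c : A, polyJ A M p h.hqM (C c) = constB A M p h.hqM c := fun c => eval₂_C _ _
  have hX : polyJ A M p h.hqM X = upJ A M p h.hqM := eval₂_X _ _
  refine ⟨d, g, fun x => ?_⟩
  have key : ∀ i, ∀ y : Bint A M p h.hqM, (y : FB (p * M)) ∈ HN M p (n₀ + i) →
      ∃ P : Fin d → (A : Type)[X], y = ∑ l, polyJ A M p h.hqM (P l) * g l := by
    intro i
    induction i with
    | zero =>
      intro y hy
      obtain ⟨c, hc⟩ := hgen y hy
      exact ⟨fun l => C (c l), hc.trans (Finset.sum_congr rfl fun l _ => by rw [hC])⟩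
    | succ i ih =>
      intro y hy
      obtain ⟨d', g', hg', hgen'⟩ := exists_lattice_basis h (n₀ + (i + 1))
        {u | (u : FB (p * M)) ∈ HN M p (n₀ + i) ∨
          ∃ w : Bint A M p h.hqM, (w : FB (p * M)) ∈ HN M p (n₀ + i) ∧
            u = upJ A M p h.hqM * w} (by
        rintro u (hu | ⟨w, hw, rfl⟩)
        · exact RedTorsion.polesSpace_mono (by omega) hu
        · rw [show n₀ + (i + 1) = 1 + (n₀ + i) by omega]
          exact mul_mem_polesSpace (upF_mem_HN M p (jM_mem_HM (M := M))) hw) (fun r hr => by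
        obtain ⟨u, hu, v, hv, rfl⟩ := hn₀ (n₀ + i) (by omega) r hr
        obtain ⟨u', hu', rfl⟩ := exists_lift_rho h _ hu
        obtain ⟨v', hv', rfl⟩ := exists_lift_rho h _ hv
        refine add_mem (Submodule.subset_span ⟨u', Or.inl hu', rfl⟩)
          (Submodule.subset_span ⟨_, Or.inr ⟨v', hv', rfl⟩, ?_⟩)
        rw [map_mul, rho_upJ])
      have hmem : ∀ a, ∃ P : Fin d → (A : Type)[X],
          g' a = ∑ l, polyJ A M p h.hqM (P l) * g l := by
        intro a
        rcases hg' a with hu | ⟨w, hw, e⟩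
        · exact ih _ hu
        · obtain ⟨P, hP⟩ := ih _ hw
          refine ⟨fun l => X * P l, ?_⟩
          rw [e, hP, Finset.mul_sum]
          refine Finset.sum_congr rfl fun l _ => ?_
          rw [map_mul, hX, mul_assoc]
      choose P hP using hmem
      obtain ⟨c, hc⟩ := hgen' y hy
      refine ⟨fun l => ∑ a, C (c a) * P a l, ?_⟩
      rw [hc]
      simp only [hP, Finset.mul_sum, map_sum, Finset.sum_mul, map_mul, hC, mul_assoc]
      exact Finset.sum_comm
  obtain ⟨n, hn⟩ := x.2.2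
  exact key n x (RedTorsion.polesSpace_mono (Nat.le_add_left n n₀) hn)

end Fermat.Agent.OrdinaryAtP

end
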