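import Fermat.Agent.OrdinaryAtP.Fixed
import Fermat.Agent.OrdinaryAtP.Collapse
import Mathlib.LinearAlgebra.Matrix.NonsingularInverse
import Mathlib.LinearAlgebra.Dimension.Finrank
import Mathlib.RingTheory.IntegralClosure.IsIntegralClosure.Basic

/-!
# The congruent algebra of coordinates of a family of lattices

A finite group with two families of lattices in `ℚ̄ ^ d`, compatible with inertia, multiplicative,
with constant reductions and with the smaller one cut out inside the larger, has an algebra of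
coordinates which is congruent in the sense of `CongruentAlgebra`.
-/

set_option autoImplicit false
set_option linter.style.haveILetI false
set_option linter.unusedSectionVars false

noncomputable section

namespace Fermat.Agent.OrdinaryAtP

open Fermat.Agent.Arith
open scoped Matrix

variable {A : ValuationSubring QBar}

/-- A vector with coordinates in `A`. -/
def castV {κ : Type*} (w : κ → A) : κ → QBar := fun s => (w s : QBar)

/-- Its residue. -/
def redV {κ : Type*} (w : κ → A) : κ → IsLocalRing.ResidueField A :=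
  fun s => IsLocalRing.residue A (w s)

/-! ### Coordinates -/

/-- Coordinates separating the elements of a subspace. -/
theorem exists_select {k κ : Type*} [Field k] [Finite κ] (Φ : Submodule k (κ → k)) {N : ℕ}
    (hN : Module.finrank k Φ = N) :
    ∃ sl : Fin N → κ, ∀ φ ∈ Φ, (∀ i, φ (sl i) = 0) → φ = 0 := by
  classical
  let f : κ → Module.Dual k Φ := fun s => (LinearMap.proj s).comp Φ.subtype
  obtain ⟨b, hb, hbs, hbi⟩ := exists_linearIndependent k (Set.range f)
  have : Finite b := hbi.finite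
  have := Fintype.ofFinite b
  choose sel hsel using fun x : b => hb x.2
  have hsep : ∀ φ ∈ Φ, (∀ x : b, φ (sel x) = 0) → φ = 0 := by
    intro φ hφ h0
    funext s
    have hs : f s ∈ Submodule.span k b := hbs ▸ Submodule.subset_span ⟨s, rfl⟩
    have hle : Submodule.span k b ≤ LinearMap.ker (Module.Dual.eval k Φ ⟨φ, hφ⟩) := by
      rw [Submodule.span_le]
      intro x hx
      rw [SetLike.mem_coe, LinearMap.mem_ker, Module.Dual.eval_apply]
      rw [← show f (sel ⟨x, hx⟩) = x from hsel ⟨x, hx⟩]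
      exact h0 ⟨x, hx⟩
    exact LinearMap.mem_ker.mp (hle hs)
  have hcard : Fintype.card b = N := by
    refine le_antisymm ?_ ?_
    · have := hbi.fintype_card_le_finrank
      rwa [Subspace.dual_finrank_eq, hN] at this
    · let g : Φ →ₗ[k] (b → k) :=
        (LinearMap.funLeft k k sel).comp Φ.subtype
      have hg : Function.Injective g := by
        rw [injective_iff_map_eq_zero]
        exact fun φ hφ => Subtype.ext (hsep φ φ.2 fun x => congrFun hφ x)
      have := LinearMap.finrank_le_finrank_of_injective hg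
      rwa [hN, Module.finrank_fintype_fun_eq_card] at this
  refine ⟨fun i => sel ((Fintype.equivFinOfCardEq hcard).symm i), fun φ hφ h0 => hsep φ hφ fun x => ?_⟩
  simpa using h0 (Fintype.equivFinOfCardEq hcard x)

theorem isUnit_of_residue_ne_zero {x : A} (hx : IsLocalRing.residue A x ≠ 0) : IsUnit x := by
  rwa [Ne, IsLocalRing.residue_eq_zero_iff, IsLocalRing.mem_maximalIdeal, mem_nonunits_iff,
    not_not] at hx

/-- Integral vectors of a lattice are determined by, and recovered from, separating coordinates. -/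
theorem exists_coord {κ : Type*} [Finite κ] {N : ℕ}
    {Φ : Submodule (IsLocalRing.ResidueField A) (κ → IsLocalRing.ResidueField A)}
    (hN : Module.finrank (IsLocalRing.ResidueField A) Φ = N) {sl : Fin N → κ}
    (hsl : ∀ φ ∈ Φ, (∀ i, φ (sl i) = 0) → φ = 0) {V : Submodule QBar (κ → QBar)}
    (hV : Module.finrank QBar V ≤ N) (hlift : ∀ φ ∈ Φ, ∃ w : κ → A, castV w ∈ V ∧ redV w = φ) :
    (∀ t : Fin N → A, ∃ w : κ → A, castV w ∈ V ∧ (∀ i, w (sl i) = t i) ∧ redV w ∈ Φ) ∧
      ∀ v ∈ V, (∀ i, v (sl i) = 0) → v = 0 := by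
  classical
  have := Fintype.ofFinite κ
  set k := IsLocalRing.ResidueField A
  let b : Module.Basis (Fin N) k Φ := Module.finBasisOfFinrankEq k Φ hN
  choose w hwV hwr using fun l => hlift (b l : κ → k) (b l).2
  let Mx : Matrix (Fin N) (Fin N) A := fun i l => w l (sl i)
  have hR : (Mx.map (IsLocalRing.residue A)).det ≠ 0 := by
    intro hdet
    obtain ⟨x, hx0, hx⟩ := Matrix.exists_mulVec_eq_zero_iff.mpr hdet
    have h1 : ((∑ l, x l • b l : Φ) : κ → k) = 0 :=
      hsl _ (∑ l, x l • b l).2 fun i => by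
        rw [AddSubmonoidClass.coe_finsetSum, Finset.sum_apply]
        refine Eq.trans (Finset.sum_congr rfl fun l _ => ?_) (congrFun hx i)
        rw [Submodule.coe_smul, Pi.smul_apply, smul_eq_mul, ← hwr l, mul_comm]
        rfl
    refine hx0 (funext fun l => ?_)
    exact Fintype.linearIndependent_iff.mp b.linearIndependent x (Subtype.ext h1) l
  have hdet : IsUnit Mx.det := isUnit_of_residue_ne_zero (by rwa [RingHom.map_det])
  let MQ : Matrix (Fin N) (Fin N) QBar := Mx.map A.subtype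
  have hdetQ : MQ.det ≠ 0 := by
    rw [show MQ = A.subtype.mapMatrix Mx from rfl, ← RingHom.map_det]
    exact (hdet.map A.subtype).ne_zero
  have hcomb : ∀ x : Fin N → QBar, ∀ i,
      (∑ l, x l • castV (w l)) (sl i) = (MQ *ᵥ x) i := fun x i => by
    rw [Finset.sum_apply]
    exact Finset.sum_congr rfl fun l _ => mul_comm _ _
  have hinj : ∀ x : Fin N → QBar, (∀ i, (∑ l, x l • castV (w l)) (sl i) = 0) → x = 0 := by
    intro x hx
    refine Matrix.eq_zero_of_mulVec_eq_zero hdetQ ?_
    funext i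
    rw [← hcomb]
    exact hx i
  have hli : LinearIndependent QBar fun l => castV (w l) :=
    Fintype.linearIndependent_iff.mpr fun x hx l => congrFun (hinj x fun i => by rw [hx]; rfl) l
  have hspan : Submodule.span QBar (Set.range fun l => castV (w l)) = V := by
    refine Submodule.eq_of_le_of_finrank_le (Submodule.span_le.mpr ?_) ?_
    · rintro _ ⟨l, rfl⟩
      exact hwV l
    · rw [finrank_span_eq_card hli, Fintype.card_fin]
      exact hV
  refine ⟨fun t => ?_, fun v hv h0 => ?_⟩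
  · set x : Fin N → A := Mx⁻¹ *ᵥ t with hx
    refine ⟨fun s => ∑ l, x l * w l s, ?_, fun i => ?_, ?_⟩
    · have e : castV (fun s => ∑ l, x l * w l s) = ∑ l, (x l : QBar) • castV (w l) := by
        funext s
        simp [castV, Finset.sum_apply]
      rw [e]
      exact Submodule.sum_mem _ fun l _ => V.smul_mem _ (hwV l)
    · have h2 : Mx *ᵥ x = t := by
        rw [hx, Matrix.mulVec_mulVec, Matrix.mul_nonsing_inv _ hdet, Matrix.one_mulVec]
      refine Eq.trans (Finset.sum_congr rfl fun l _ => mul_comm _ _) (congrFun h2 i)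
    · have e : redV (fun s => ∑ l, x l * w l s) =
          ((∑ l, IsLocalRing.residue A (x l) • b l : Φ) : κ → k) := by
        funext s
        rw [AddSubmonoidClass.coe_finsetSum, Finset.sum_apply, redV, map_sum]
        refine Finset.sum_congr rfl fun l _ => ?_
        rw [map_mul, Submodule.coe_smul, Pi.smul_apply, smul_eq_mul, ← hwr l]
        rfl
      rw [e]
      exact SetLike.coe_mem _
  · rw [← hspan, Submodule.mem_span_range_iff_exists_fun] at hv
    obtain ⟨x, rfl⟩ := hv
    rw [hinj x h0]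
    simp

/-- Equivariant members with unit values are units of a subalgebra. -/
theorem isUnit_of_equivariant {p : ℕ} (hA : A.LiesOverPrime p) (hp : p.Prime) {G : Type*}
    [Finite G] {act : A.inertiaSubgroupIn ℚ → G ≃ G}
    {S : Subalgebra (fixRing A) (G → QBar)} (δ : S) (hδ : ∀ g, (δ : G → QBar) g ∈ A)
    (heq : ∀ τ g, (δ : G → QBar) (act τ g) = (τ : GQ) ((δ : G → QBar) g))
    (hu : ∀ g, IsLocalRing.residue A (⟨_, hδ g⟩ : A) ≠ 0) : IsUnit δ := by
  have hu' : ∀ g, (δ : G → QBar) g ∉ A.nonunits := fun g hn =>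
    hu g ((IsLocalRing.residue_eq_zero_iff _).mpr
      ((ValuationSubring.coe_mem_nonunits_iff (A := A) (a := ⟨_, hδ g⟩)).mp hn))
  refine IsUnit.of_mul_eq_one ⟨_, inv_mem_of_equivariant hA hp hδ heq hu' δ.2⟩ (Subtype.ext ?_)
  funext g
  refine mul_inv_cancel₀ (fun h0 => hu g ?_)
  rw [show (⟨(δ : G → QBar) g, hδ g⟩ : A) = 0 from Subtype.ext h0, map_zero]

/-! ### The data -/

variable (A) in
/-- Two families of lattices over a finite group. -/
structure LatticeData (G : Type*) [AddCommGroup G] (act : A.inertiaSubgroupIn ℚ → G ≃ G)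
    (d : ℕ) where
  /-- the small lattices -/
  V₁ : G → Submodule QBar (Fin d → QBar)
  /-- the large lattices -/
  V₂ : G → Submodule QBar (Fin d → QBar)
  /-- reductions of the small lattices -/
  Φ₁ : Submodule (IsLocalRing.ResidueField A) (Fin d → IsLocalRing.ResidueField A)
  /-- reductions of the large lattices -/
  Φ₂ : Submodule (IsLocalRing.ResidueField A) (Fin d → IsLocalRing.ResidueField A)
  /-- the multiplier -/
  c : Fin d → fixRing A
  finrank₁ : ∀ x, Module.finrank QBar (V₁ x) ≤ Module.finrank (IsLocalRing.ResidueField A) Φ₁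
  finrank₂ : ∀ x, Module.finrank QBar (V₂ x) ≤ Module.finrank (IsLocalRing.ResidueField A) Φ₂
  lift₁ : ∀ x, ∀ φ ∈ Φ₁, ∃ w : Fin d → A, castV w ∈ V₁ x ∧ redV w = φ
  lift₂ : ∀ x, ∀ φ ∈ Φ₂, ∃ w : Fin d → A, castV w ∈ V₂ x ∧ redV w = φ
  equiv₁ : ∀ (τ : A.inertiaSubgroupIn ℚ) (x : G), ∀ v ∈ V₁ x,
    (fun s => (τ : GQ) (v s)) ∈ V₁ (act τ x)
  mul₁ : ∀ x y, ∀ v ∈ V₁ x, ∀ w ∈ V₁ y, v * w ∈ V₂ (x + y)
  le₂ : ∀ x, V₁ x ≤ V₂ x
  smul₁ : ∀ x, ∀ v ∈ V₁ x, (fun s => (c s : QBar)) * v ∈ V₂ x
  span₂ : Φ₂ ≤ Submodule.span (IsLocalRing.ResidueField A)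
    {z | ∃ a ∈ Φ₁, ∃ b ∈ Φ₁, z = a * b}
  mul₂ : ∀ a ∈ Φ₁, ∀ b ∈ Φ₁, a * b ∈ Φ₂
  colon : ∀ φ ∈ Φ₂, (fun s => resW A (c s)) * φ ∈ Φ₂ → φ ∈ Φ₁
  sep : ∀ x y, V₁ x = V₁ y → x = y

namespace LatticeData

variable {G : Type*} [AddCommGroup G] [Finite G] {act : A.inertiaSubgroupIn ℚ → G ≃ G} {d : ℕ}
  (D : LatticeData A G act d)

include D in
/-- **The congruent algebra of coordinates.** -/
theorem exists_congruentAlgebra {p : ℕ} (hA : A.LiesOverPrime p) (hp : p.Prime) :
    Nonempty (CongruentAlgebra (fixRing A)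
      (fun τ : A.inertiaSubgroupIn ℚ => ((τ : GQ) : QBar ≃+* QBar)) act p) := by
  classical
  set k := IsLocalRing.ResidueField A with hk
  set N₁ := Module.finrank k D.Φ₁ with hN₁
  set N₂ := Module.finrank k D.Φ₂ with hN₂
  obtain ⟨sl₁, hsl₁⟩ := exists_select D.Φ₁ (N := N₁) rfl
  obtain ⟨sl₂, hsl₂⟩ := exists_select D.Φ₂ (N := N₂) rfl
  -- the coordinates
  have hex := fun (x : G) (i : Fin N₁) =>
    (exists_coord rfl hsl₁ (D.finrank₁ x) (D.lift₁ x)).1 (Pi.single i 1)
  choose C hCV hCsl hCΦ using hex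
  have huniq₁ : ∀ x, ∀ v ∈ D.V₁ x, (∀ i, v (sl₁ i) = 0) → v = 0 := fun x =>
    (exists_coord rfl hsl₁ (D.finrank₁ x) (D.lift₁ x)).2
  have huniq₂ : ∀ x, ∀ v ∈ D.V₂ x, (∀ i, v (sl₂ i) = 0) → v = 0 := fun x =>
    (exists_coord rfl hsl₂ (D.finrank₂ x) (D.lift₂ x)).2
  have hCred : ∀ x i, redV (C x i) = redV (C 0 i) := fun x i => sub_eq_zero.mp
    (hsl₁ _ (sub_mem (hCΦ x i) (hCΦ 0 i)) fun l => by
      rw [Pi.sub_apply, sub_eq_zero]
      simp only [redV, hCsl])
  have hCexp : ∀ x, ∀ v ∈ D.V₁ x, v = ∑ i, v (sl₁ i) • castV (C x i) := fun x v hv =>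
    sub_eq_zero.mp (huniq₁ x _ (sub_mem hv (Submodule.sum_mem _ fun i _ =>
      Submodule.smul_mem _ _ (hCV x i))) fun l => by
        simp [Finset.sum_apply, castV, hCsl, Pi.single_apply, apply_ite])
  have hCeq : ∀ (τ : A.inertiaSubgroupIn ℚ) x i s,
      (C (act τ x) i s : QBar) = (τ : GQ) (C x i s : QBar) := fun τ x i s => by
    refine congrFun (sub_eq_zero.mp (huniq₁ (act τ x)
      (castV (C (act τ x) i) - fun s => (τ : GQ) (C x i s : QBar))
      (sub_mem (hCV _ i) (D.equiv₁ τ x _ (hCV x i))) fun l => ?_)) s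
    simp only [Pi.sub_apply, castV, hCsl, Pi.single_apply]
    split_ifs <;> simp
  -- the algebra
  let gen : Fin N₁ × Fin d → G → QBar := fun q x => (C x q.1 q.2 : QBar)
  let H : Subalgebra (fixRing A) (G → QBar) := Algebra.adjoin (fixRing A) (Set.range gen)
  have hgen : ∀ q, gen q ∈ H := fun q => Algebra.subset_adjoin ⟨q, rfl⟩
  have hHA : ∀ f ∈ H, ∀ x, f x ∈ A := by
    intro f hf
    induction hf using Algebra.adjoin_induction with
    | mem f hf => obtain ⟨q, rfl⟩ := hf; exact fun x => (C x q.1 q.2).2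
    | algebraMap w => exact fun x => w.2.1
    | add f g _ _ hf hg => exact fun x => add_mem (hf x) (hg x)
    | mul f g _ _ hf hg => exact fun x => mul_mem (hf x) (hg x)
  have hHeq : ∀ f ∈ H, ∀ (τ : A.inertiaSubgroupIn ℚ) (x : G),
      f (act τ x) = (τ : GQ) (f x) := by
    intro f hf
    induction hf using Algebra.adjoin_induction with
    | mem f hf => obtain ⟨q, rfl⟩ := hf; exact fun τ x => hCeq τ x q.1 q.2
    | algebraMap w => exact fun τ x => (fixed_apply w τ.2).symm
    | add f g _ _ hf hg => exact fun τ x => by rw [Pi.add_apply, Pi.add_apply, map_add, hf, hg]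
    | mul f g _ _ hf hg => exact fun τ x => by rw [Pi.mul_apply, Pi.mul_apply, map_mul, hf, hg]
  have hHcong : ∀ f, ∀ (hf : f ∈ H) x, IsLocalRing.residue A (⟨f x, hHA f hf x⟩ : A) =
      IsLocalRing.residue A ⟨f 0, hHA f hf 0⟩ := by
    intro f hf
    induction hf using Algebra.adjoin_induction with
    | mem f hf => obtain ⟨q, rfl⟩ := hf; exact fun x => congrFun (hCred x q.1) q.2
    | algebraMap w => exact fun x => rfl
    | add f g hf' hg' hf hg =>
      intro x
      have e : ∀ y, IsLocalRing.residue A (⟨(f + g) y, hHA _ (add_mem hf' hg') y⟩ : A) =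
          IsLocalRing.residue A ⟨f y, hHA f hf' y⟩ + IsLocalRing.residue A ⟨g y, hHA g hg' y⟩ :=
        fun y => by rw [← map_add]; rfl
      rw [e, e, hf, hg]
    | mul f g hf' hg' hf hg =>
      intro x
      have e : ∀ y, IsLocalRing.residue A (⟨(f * g) y, hHA _ (mul_mem hf' hg') y⟩ : A) =
          IsLocalRing.residue A ⟨f y, hHA f hf' y⟩ * IsLocalRing.residue A ⟨g y, hHA g hg' y⟩ :=
        fun y => by rw [← map_mul]; rfl
      rw [e, e, hf, hg]
  -- sums of products
  let T : Subalgebra (fixRing A) (G × G → QBar) := Algebra.adjoin (fixRing A)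
    ({F | ∃ f ∈ H, F = fun z => f z.1} ∪ {F | ∃ f ∈ H, F = fun z => f z.2})
  have hTsum : ∀ F ∈ T, ∃ (κ : Type) (_ : Fintype κ) (a b : κ → G → QBar),
      (∀ l, a l ∈ H) ∧ (∀ l, b l ∈ H) ∧ ∀ x y, F (x, y) = ∑ l, a l x * b l y := by
    intro F hF
    induction hF using Algebra.adjoin_induction with
    | mem F hF =>
      rcases hF with ⟨f, hf, rfl⟩ | ⟨f, hf, rfl⟩
      · exact ⟨Unit, inferInstance, fun _ => f, fun _ => 1, fun _ => hf, fun _ => one_mem H,
          by simp⟩
      · exact ⟨Unit, inferInstance, fun _ => 1, fun _ => f, fun _ => one_mem H, fun _ => hf,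
          by simp⟩
    | algebraMap w =>
      exact ⟨Unit, inferInstance, fun _ => algebraMap _ _ w, fun _ => 1,
        fun _ => H.algebraMap_mem w, fun _ => one_mem H, fun x y => by simp⟩
    | add F F' _ _ hF hF' =>
      obtain ⟨κ, _, a, b, ha, hb, e⟩ := hF
      obtain ⟨κ', _, a', b', ha', hb', e'⟩ := hF'
      exact ⟨κ ⊕ κ', inferInstance, Sum.elim a a', Sum.elim b b', Sum.rec ha ha',
        Sum.rec hb hb', fun x y => by simp [e, e', Fintype.sum_sum_type]⟩
    | mul F F' _ _ hF hF' =>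
      obtain ⟨κ, _, a, b, ha, hb, e⟩ := hF
      obtain ⟨κ', _, a', b', ha', hb', e'⟩ := hF'
      refine ⟨κ × κ', inferInstance, fun l => a l.1 * a' l.2, fun l => b l.1 * b' l.2,
        fun l => mul_mem (ha _) (ha' _), fun l => mul_mem (hb _) (hb' _), fun x y => ?_⟩
      rw [Pi.mul_apply, e, e', Finset.sum_mul_sum, Fintype.sum_prod_type]
      exact Finset.sum_congr rfl fun i _ => Finset.sum_congr rfl fun j _ => by
        simp only [Pi.mul_apply]; ring
  have hTA : ∀ F ∈ T, ∀ z, F z ∈ A := fun F hF ⟨x, y⟩ => by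
    obtain ⟨κ, _, a, b, ha, hb, e⟩ := hTsum F hF
    rw [e]
    exact sum_mem fun l _ => mul_mem (hHA _ (ha l) x) (hHA _ (hb l) y)
  have hTeq : ∀ F ∈ T, ∀ (τ : A.inertiaSubgroupIn ℚ) z,
      F ((act τ).prodCongr (act τ) z) = (τ : GQ) (F z) := fun F hF τ ⟨x, y⟩ => by
    obtain ⟨κ, _, a, b, ha, hb, e⟩ := hTsum F hF
    rw [Equiv.prodCongr_apply, Prod.map_apply, e, e, map_sum]
    simp only [map_mul, hHeq _ (ha _), hHeq _ (hb _)]
  let evA : ∀ _ : G × G, T →+* A := fun z =>
    ((Pi.evalRingHom (fun _ : G × G => QBar) z).comp T.val.toRingHom).codRestrict A.toSubring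
      fun F => hTA _ F.2 z
  have hTcong : ∀ (F : T) z, IsLocalRing.residue A (evA z F) =
      IsLocalRing.residue A (evA (0, 0) F) := by
    intro F
    obtain ⟨κ, _, a, b, ha, hb, e⟩ := hTsum _ F.2
    have key : ∀ x y, IsLocalRing.residue A (evA (x, y) F) = ∑ l,
        IsLocalRing.residue A ⟨a l x, hHA _ (ha l) x⟩ *
          IsLocalRing.residue A ⟨b l y, hHA _ (hb l) y⟩ := fun x y => by
      simp only [← map_mul, ← map_sum]
      congr 1
      refine Subtype.ext ((e x y).trans ?_)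
      push_cast
      rfl
    rintro ⟨x, y⟩
    rw [key, key]
    exact Finset.sum_congr rfl fun l _ => by rw [hHcong _ (ha l), hHcong _ (hb l)]
  let red0 : T →+* k := (IsLocalRing.residue A).comp (evA (0, 0))
  have hTunit : ∀ F : T, red0 F ≠ 0 → IsUnit F := fun F hF =>
    isUnit_of_equivariant hA hp (act := fun τ => (act τ).prodCongr (act τ)) F (hTA _ F.2)
      (hTeq _ F.2) fun z => (hTcong F z).trans_ne hF
  let tfst : H → T := fun f => ⟨fun z => (f : G → QBar) z.1,
    Algebra.subset_adjoin (Or.inl ⟨_, f.2, rfl⟩)⟩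
  let tsnd : H → T := fun f => ⟨fun z => (f : G → QBar) z.2,
    Algebra.subset_adjoin (Or.inr ⟨_, f.2, rfl⟩)⟩
  let evT : G × G → T →+* QBar := fun z => A.subtype.comp (evA z)
  -- a basis of the large lattice from products
  let P : Set (Fin d → k) := Set.range fun q : Fin N₁ × Fin N₁ =>
    redV (C 0 q.1) * redV (C 0 q.2)
  have hΦ₁span : ∀ a ∈ D.Φ₁, a = ∑ i, a (sl₁ i) • redV (C 0 i) := fun a ha =>
    sub_eq_zero.mp (hsl₁ _ (sub_mem ha (Submodule.sum_mem _ fun i _ =>
      Submodule.smul_mem _ _ (hCΦ 0 i))) fun l => by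
        simp [Finset.sum_apply, redV, hCsl, Pi.single_apply, apply_ite])
  have hPspan : D.Φ₂ ≤ Submodule.span k P := by
    refine D.span₂.trans (Submodule.span_le.mpr ?_)
    rintro _ ⟨a, ha, b, hb, rfl⟩
    rw [hΦ₁span a ha, hΦ₁span b hb, Finset.sum_mul_sum]
    refine Submodule.sum_mem _ fun i _ => Submodule.sum_mem _ fun j _ => ?_
    rw [smul_mul_smul_comm]
    exact Submodule.smul_mem _ _ (Submodule.subset_span ⟨(i, j), rfl⟩)
  have hPeq : Submodule.span k P = D.Φ₂ := le_antisymm (Submodule.span_le.mpr (by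
    rintro _ ⟨q, rfl⟩
    exact D.mul₂ _ (hCΦ 0 _) _ (hCΦ 0 _))) hPspan
  obtain ⟨bs, hbs, hbsp, hbsi⟩ := exists_linearIndependent k P
  rw [hPeq] at hbsp
  have : Finite bs := hbsi.finite
  have := Fintype.ofFinite bs
  have hbcard : Fintype.card bs = N₂ := by
    have h1 := finrank_span_eq_card hbsi
    rw [Subtype.range_coe, hbsp] at h1
    exact h1.symm
  choose pr hpr using fun z : bs => hbs z.2
  let e₂ := (Fintype.equivFinOfCardEq hbcard).symm
  let W₂ : Fin N₂ → Fin d → T := fun L s =>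
    tfst ⟨_, hgen ((pr (e₂ L)).1, s)⟩ * tsnd ⟨_, hgen ((pr (e₂ L)).2, s)⟩
  have hW₂V : ∀ L x y, (fun s => evT (x, y) (W₂ L s)) ∈ D.V₂ (x + y) := fun L x y =>
    D.mul₁ x y _ (hCV x _) _ (hCV y _)
  have hW₂red : ∀ L s, red0 (W₂ L s) = (e₂ L).1 s := fun L s => by
    rw [map_mul]
    exact congrFun (hpr (e₂ L)) s
  let Mx : Matrix (Fin N₂) (Fin N₂) T := fun l L => W₂ L (sl₂ l)
  have hMx : IsUnit Mx.det := hTunit _ (by
    rw [RingHom.map_det]
    intro hdet
    obtain ⟨x, hx0, hx⟩ := Matrix.exists_mulVec_eq_zero_iff.mpr hdet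
    have hmem : ∑ L, x L • ((e₂ L).1 : Fin d → k) ∈ D.Φ₂ := Submodule.sum_mem _ fun L _ =>
      Submodule.smul_mem _ _ (hbsp ▸ Submodule.subset_span (e₂ L).2)
    have h1 : ∑ L, x L • ((e₂ L).1 : Fin d → k) = 0 := hsl₂ _ hmem fun l => by
      rw [Finset.sum_apply]
      refine Eq.trans (Finset.sum_congr rfl fun L _ => ?_) (congrFun hx l)
      rw [Pi.smul_apply, smul_eq_mul, mul_comm, ← hW₂red]
      rfl
    exact hx0 (funext fun L => Fintype.linearIndependent_iff.mp
      (hbsi.comp e₂ e₂.injective) x h1 L))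
  -- the dual basis
  let Dl : Fin N₂ → Fin d → T := fun l s => ∑ L, Mx⁻¹ L l * W₂ L s
  have hDsl : ∀ l l', Dl l (sl₂ l') = (1 : Matrix (Fin N₂) (Fin N₂) T) l' l := fun l l' => by
    rw [← Matrix.mul_nonsing_inv Mx hMx, Matrix.mul_apply]
    exact Finset.sum_congr rfl fun L _ => mul_comm _ _
  have hDslev : ∀ (g : T →+* QBar) l l', g (Dl l (sl₂ l')) = if l' = l then 1 else 0 :=
    fun g l l' => by rw [hDsl, Matrix.one_apply]; split_ifs <;> simp
  have hDV : ∀ l x y, (fun s => evT (x, y) (Dl l s)) ∈ D.V₂ (x + y) := fun l x y => by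
    have e : (fun s => evT (x, y) (Dl l s)) =
        ∑ L, evT (x, y) (Mx⁻¹ L l) • fun s => evT (x, y) (W₂ L s) := by
      funext s
      simp only [Dl, map_sum, map_mul, Finset.sum_apply, Pi.smul_apply, smul_eq_mul]
    rw [e]
    exact Submodule.sum_mem _ fun L _ => Submodule.smul_mem _ _ (hW₂V L x y)
  have hDΦ : ∀ l, (fun s => red0 (Dl l s)) ∈ D.Φ₂ := fun l => by
    have e : (fun s => red0 (Dl l s)) = ∑ L, red0 (Mx⁻¹ L l) • ((e₂ L).1 : Fin d → k) := by
      funext s
      simp only [Dl, map_sum, map_mul, hW₂red, Finset.sum_apply, Pi.smul_apply, smul_eq_mul]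
    rw [e]
    exact Submodule.sum_mem _ fun L _ =>
      Submodule.smul_mem _ _ (hbsp ▸ Submodule.subset_span (e₂ L).2)
  -- the overdetermined system
  let R : Matrix (Fin d ⊕ Fin N₁) (Fin N₂) T := fun row l => Sum.elim
    (fun s => algebraMap (fixRing A) T (D.c s - D.c (sl₂ l)) * Dl l s)
    (fun i => Dl l (sl₁ i)) row
  have hred0 : ∀ w : fixRing A, red0 (algebraMap (fixRing A) T w) = resW A w := fun w => rfl
  have hevT : ∀ z (w : fixRing A), evT z (algebraMap (fixRing A) T w) = (w : QBar) :=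
    fun z w => rfl
  have hRinj : ∀ u : Fin N₂ → k, (R.map red0) *ᵥ u = 0 → u = 0 := by
    intro u hu
    set φ : Fin d → k := fun s => ∑ l, u l * red0 (Dl l s) with hφ
    have hφsl : ∀ l, φ (sl₂ l) = u l := fun l => by
      simp only [hφ, hDsl, Matrix.one_apply, apply_ite, map_one, map_zero, mul_one,
        mul_zero, Finset.sum_ite_eq, Finset.mem_univ, if_true]
    have hmem : ∀ v : Fin N₂ → k, (fun s => ∑ l, v l * red0 (Dl l s)) ∈ D.Φ₂ := fun v => by
      have e : (fun s => ∑ l, v l * red0 (Dl l s)) = ∑ l, v l • fun s => red0 (Dl l s) := by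
        funext s; simp [Finset.sum_apply]
      rw [e]
      exact Submodule.sum_mem _ fun l _ => Submodule.smul_mem _ _ (hDΦ l)
    have hc : (fun s => resW A (D.c s)) * φ =
        fun s => ∑ l, resW A (D.c (sl₂ l)) * u l * red0 (Dl l s) := by
      funext s
      have h1 : ∑ l, red0 (R (Sum.inl s) l) * u l = 0 := congrFun hu (Sum.inl s)
      rw [Pi.mul_apply, hφ, Finset.mul_sum, ← sub_eq_zero, ← h1, ← Finset.sum_sub_distrib]
      refine Finset.sum_congr rfl fun l _ => ?_
      simp only [R, Sum.elim_inl, map_mul, hred0, map_sub]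
      ring
    have hφ₁ := D.colon φ (hmem u) (hc ▸ hmem fun l => resW A (D.c (sl₂ l)) * u l)
    have hφ0 : φ = 0 := hsl₁ φ hφ₁ fun i => by
      have h1 : ∑ l, red0 (Dl l (sl₁ i)) * u l = 0 := congrFun hu (Sum.inr i)
      rw [← h1]
      exact Finset.sum_congr rfl fun l _ => mul_comm _ _
    funext l
    rw [← hφsl, hφ0]
    rfl
  obtain ⟨rows, hrows⟩ := exists_select (LinearMap.range (Matrix.mulVecLin (R.map red0)))
    (N := N₂) (by
      rw [LinearMap.finrank_range_of_inj (fun u v huv => sub_eq_zero.mp (hRinj _ (by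
        rw [Matrix.mulVec_sub]; exact sub_eq_zero.mpr huv))), Module.finrank_fin_fun])
  let Rs : Matrix (Fin N₂) (Fin N₂) T := fun a l => R (rows a) l
  have hRs : IsUnit Rs.det := hTunit _ (by
    rw [RingHom.map_det]
    intro hdet
    obtain ⟨u, hu0, hu⟩ := Matrix.exists_mulVec_eq_zero_iff.mpr hdet
    refine hu0 (hRinj u ?_)
    exact hrows _ ⟨u, rfl⟩ fun a => congrFun hu a)
  have hcomul : ∀ i s, (fun z : G × G => (C (z.1 + z.2) i s : QBar)) ∈ T := by
    intro i s
    let rhs : Fin d ⊕ Fin N₁ → T := Sum.elim 0 (Pi.single i 1)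
    let sol : Fin N₂ → T := Rs⁻¹ *ᵥ fun a => rhs (rows a)
    have hsol : Rs *ᵥ sol = fun a => rhs (rows a) := by
      rw [Matrix.mulVec_mulVec, Matrix.mul_nonsing_inv _ hRs, Matrix.one_mulVec]
    suffices hval : (fun z : G × G => (C (z.1 + z.2) i s : QBar)) =
        ((∑ l, sol l * Dl l s : T) : G × G → QBar) by rw [hval]; exact SetLike.coe_mem _
    funext z
    obtain ⟨x, y⟩ := z
    show _ = evT (x, y) (∑ l, sol l * Dl l s)
    set v : Fin d → QBar := castV (C (x + y) i) with hv
    have hv₁ : v ∈ D.V₁ (x + y) := hCV _ i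
    have hexp : ∀ v' ∈ D.V₂ (x + y), v' = fun s => ∑ l, v' (sl₂ l) * evT (x, y) (Dl l s) := by
      intro v' hv'
      have hsum : (fun s => ∑ l, v' (sl₂ l) * evT (x, y) (Dl l s)) ∈ D.V₂ (x + y) := by
        have e : (fun s => ∑ l, v' (sl₂ l) * evT (x, y) (Dl l s)) =
            ∑ l, v' (sl₂ l) • fun s => evT (x, y) (Dl l s) := by
          funext s; simp [Finset.sum_apply]
        rw [e]
        exact Submodule.sum_mem _ fun l _ => Submodule.smul_mem _ _ (hDV l x y)
      refine sub_eq_zero.mp (huniq₂ _ _ (sub_mem hv' hsum) fun l => ?_)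
      simp [hDslev]
    have hve := hexp v (D.le₂ _ hv₁)
    have hce := hexp _ (D.smul₁ _ _ hv₁)
    have hkey : ∀ row, ∑ l, evT (x, y) (R row l) * v (sl₂ l) = evT (x, y) (rhs row) := by
      intro row
      rcases row with t | t
      · simp only [R, rhs, Sum.elim_inl, Pi.zero_apply, map_zero, map_mul, hevT,
          AddSubgroupClass.coe_sub, sub_mul, Finset.sum_sub_distrib, sub_eq_zero]
        refine Eq.trans ?_ ((congrFun hce t).trans (Finset.sum_congr rfl fun l _ => ?_))
        · rw [Pi.mul_apply, congrFun hve t, Finset.mul_sum]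
          exact Finset.sum_congr rfl fun l _ => by ring
        · rw [Pi.mul_apply]
          ring
      · simp only [R, rhs, Sum.elim_inr]
        refine Eq.trans (Eq.trans (Finset.sum_congr rfl fun l _ => mul_comm _ _)
          (congrFun hve (sl₁ t)).symm) ?_
        simp [hv, castV, hCsl, Pi.single_apply, apply_ite]
    have hsol' : ∀ a, ∑ l, evT (x, y) (R (rows a) l) * evT (x, y) (sol l) =
        evT (x, y) (rhs (rows a)) := fun a => by
      rw [← congrFun hsol a]
      simp only [Matrix.mulVec, dotProduct, map_sum, map_mul, Rs]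
    have hd0 : (Rs.map (evT (x, y))).det ≠ 0 := by
      rw [show Rs.map (evT (x, y)) = (evT (x, y)).mapMatrix Rs from rfl, ← RingHom.map_det]
      exact (hRs.map _).ne_zero
    have hdiff : (fun l => v (sl₂ l) - evT (x, y) (sol l)) = 0 := by
      refine Matrix.eq_zero_of_mulVec_eq_zero hd0 ?_
      funext a
      show ∑ l, evT (x, y) (R (rows a) l) * (v (sl₂ l) - evT (x, y) (sol l)) = 0
      simp only [mul_sub, Finset.sum_sub_distrib, hkey, hsol', sub_self]
    rw [map_sum, show (C ((x, y).1 + (x, y).2) i s : QBar) = v s from rfl, congrFun hve s]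
    refine Finset.sum_congr rfl fun l _ => ?_
    rw [map_mul, sub_eq_zero.mp (congrFun hdiff l)]
  -- conclusion
  refine ⟨⟨H, ?_, fun x hx => exists_mul_mem_fixRing hA hp fun τ hτ => hx ⟨τ, hτ⟩,
    fun w τ => fixed_apply w τ.2, fun f hf τ x => hHeq f hf τ x, fun x y hxy => ?_,
    fun f hf x hx => ⟨hHA f hf x, fun τ hτ => hx ⟨τ, hτ⟩⟩, fun f hf x a b ha hb => ?_,
    fun f hf => ?_⟩⟩
  · refine Module.Finite.iff_fg.mpr (fg_adjoin_of_finite (Set.finite_range _) ?_)
    rintro _ ⟨q, rfl⟩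
    exact isIntegral_equivariant (fun x => (C x q.1 q.2).2) fun τ x => hCeq τ x q.1 q.2
  · refine D.sep x y ?_
    have hC : ∀ i, castV (C x i) = castV (C y i) := fun i =>
      funext fun s => hxy _ (hgen (i, s))
    refine le_antisymm (fun v hv => ?_) fun v hv => ?_
    · rw [hCexp x v hv]
      exact Submodule.sum_mem _ fun i _ => Submodule.smul_mem _ _ (hC i ▸ hCV y i)
    · rw [hCexp y v hv]
      exact Submodule.sum_mem _ fun i _ => Submodule.smul_mem _ _ ((hC i).symm ▸ hCV x i)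
  · refine natCast_dvd_of_resW_eq_zero hA hp ?_
    rw [map_sub, sub_eq_zero, resW_apply, resW_apply]
    exact Eq.trans (by congr 1; exact Subtype.ext ha.symm)
      ((hHcong f hf x).trans (by congr 1; exact Subtype.ext hb))
  · suffices h : (fun z : G × G => f (z.1 + z.2)) ∈ T by
      obtain ⟨κ, i, a, b, ha, hb, e⟩ := hTsum _ h
      exact ⟨κ, i, a, b, ha, hb, e⟩
    induction hf using Algebra.adjoin_induction with
    | mem f hf => obtain ⟨q, rfl⟩ := hf; exact hcomul q.1 q.2
    | algebraMap w => exact T.algebraMap_mem w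
    | add f g _ _ hf hg => exact add_mem hf hg
    | mul f g _ _ hf hg => exact mul_mem hf hg

end LatticeData

end Fermat.Agent.OrdinaryAtP

end
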