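import Fermat.Agent.GaloisReps.Relations
import Mathlib.LinearAlgebra.Charpoly.BaseChange

/-!
# Determinant, residual ordinarity and residual commutators

The determinant of a representation matched by the model is congruent to the cyclotomic character;
on inertia at `p` a residually ordinary representation has trace congruent to one plus determinant.
-/

set_option autoImplicit false

noncomputable section

open Module IsLocalRing
open Fermat.Agent.GaloisReps

namespace Fermat.Agent.OrdinaryAtP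

section Matrices

variable {T : Type} [CommRing T]

theorem trace_mul_self_fin_two (M : Matrix (Fin 2) (Fin 2) T) :
    Matrix.trace (M * M) = Matrix.trace M ^ 2 - 2 * M.det := by
  simp only [Matrix.trace_fin_two, Matrix.det_fin_two, Matrix.mul_apply, Fin.sum_univ_two]
  ring

variable [IsLocalRing T] (ρ : GaloisRepAdic T)

theorem trace_mul_self_eq (g : AbsGal) :
    LinearMap.trace T ρ.V (ρ.ρ (g * g)) =
      LinearMap.trace T ρ.V (ρ.ρ g) ^ 2 - 2 * LinearMap.det (ρ.ρ g) := by
  let b := Module.finBasisOfFinrankEq T ρ.V ρ.finrank_eq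
  rw [LinearMap.trace_eq_matrix_trace T b, LinearMap.trace_eq_matrix_trace T b, map_mul,
    LinearMap.toMatrix_mul, trace_mul_self_fin_two, LinearMap.det_toMatrix]

/-- An element with distinct residual eigenvalues has a unit commutator trace. -/
theorem exists_isUnit_trace_commutator_left (habs : ρ.residual.IsAbsolutelyIrreducible) (k : AbsGal)
    (hk : IsUnit (LinearMap.trace T ρ.V (ρ.ρ k) ^ 2 - 4 * LinearMap.det (ρ.ρ k))) :
    ∃ g h : AbsGal, IsUnit (LinearMap.trace T ρ.V (ρ.ρ (k * g * h)) -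
      LinearMap.trace T ρ.V (ρ.ρ (g * k * h))) := by
  by_contra hall
  push Not at hall
  set m := IsLocalRing.maximalIdeal T
  let b := Module.finBasisOfFinrankEq T ρ.V ρ.finrank_eq
  set K := Deform.matOf ρ b k with hK
  have h1 : ∀ g v, (ρ.ρ k * ρ.ρ g - ρ.ρ g * ρ.ρ k) v ∈ m • (⊤ : Submodule T ρ.V) :=
    fun g => mem_smul_of_forall_trace_comp ρ habs m _ fun h => by
      rw [LinearMap.trace_mul_comm, sub_mul, ← map_mul, ← map_mul, ← map_mul, ← map_mul, map_sub]
      exact hall g h
  let C : Submodule T (Matrix (Fin 2) (Fin 2) T) :=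
    { carrier := {Y | ∀ i j, (K * Y - Y * K) i j ∈ m}
      add_mem' := fun {X Y} hX hY i j => by
        rw [add_mul, mul_add, add_sub_add_comm]; exact m.add_mem (hX i j) (hY i j)
      zero_mem' := fun i j => by simp
      smul_mem' := fun c Y hY i j => by
        rw [smul_mul_assoc, mul_smul_comm, ← smul_sub]; exact m.mul_mem_left _ (hY i j) }
  have hC : C = ⊤ := by
    rw [← top_le_iff, ← Arith.span_matOf_eq_top ρ habs b, Submodule.span_le]
    rintro _ ⟨g, rfl⟩ i j
    have e : K * Deform.matOf ρ b g - Deform.matOf ρ b g * K =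
        LinearMap.toMatrixAlgEquiv b (ρ.ρ k * ρ.ρ g - ρ.ρ g * ρ.ρ k) := by
      rw [map_sub, map_mul, map_mul]; rfl
    show (K * Deform.matOf ρ b g - Deform.matOf ρ b g * K) i j ∈ m
    rw [e, LinearMap.toMatrixAlgEquiv_apply]
    refine Submodule.smul_induction_on (p := fun y => b.repr y i ∈ m) (h1 g (b j)) ?_ ?_
    · intro a ha y _
      rw [map_smul, Finsupp.smul_apply, smul_eq_mul]
      exact m.mul_mem_right _ ha
    · intro x y hx hy
      rw [map_add, Finsupp.add_apply]
      exact m.add_mem hx hy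
  have hE : ∀ r s : Fin 2, (Matrix.single r s (1 : T) : Matrix (Fin 2) (Fin 2) T) ∈ C := fun r s =>
    hC.symm ▸ Submodule.mem_top
  have h01 : K 0 0 - K 1 1 ∈ m := by
    have := hE 0 1 0 1
    simpa [Matrix.single, Matrix.mul_apply, Fin.sum_univ_two] using this
  have h10 : K 0 1 ∈ m := by
    have := hE 1 0 0 0
    simpa [Matrix.single, Matrix.mul_apply, Fin.sum_univ_two] using this
  refine (IsLocalRing.mem_maximalIdeal _).mp ?_ hk
  have e : LinearMap.trace T ρ.V (ρ.ρ k) ^ 2 - 4 * LinearMap.det (ρ.ρ k) =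
      (K 0 0 - K 1 1) * (K 0 0 - K 1 1) + 4 * K 0 1 * K 1 0 := by
    rw [LinearMap.trace_eq_matrix_trace T b, ← LinearMap.det_toMatrix b]
    change Matrix.trace K ^ 2 - 4 * K.det = _
    rw [Matrix.trace_fin_two, Matrix.det_fin_two]
    ring
  rw [e]
  exact m.add_mem (m.mul_mem_left _ h01) (m.mul_mem_right _ (m.mul_mem_left _ h10))

/-- On inertia at `p`, a residually ordinary representation has trace congruent to one plus the
determinant. -/
theorem trace_sub_det_sub_one_mem {p : ℕ}
    (hres : (GaloisRepAdic.ofResidualGaloisRep ρ.residual).IsOrdinaryAt p)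
    {P : ValuationSubring (AlgebraicClosure ℚ)} (hP : P.LiesOverPrime p) {t : AbsGal}
    (ht : t ∈ P.inertiaSubgroupIn ℚ) :
    LinearMap.trace T ρ.V (ρ.ρ t) - LinearMap.det (ρ.ρ t) - 1 ∈ IsLocalRing.maximalIdeal T := by
  obtain ⟨L, ⟨b, rfl⟩, hD, hI⟩ := hres P hP
  have htD : t ∈ P.decompositionSubgroup ℚ := by
    obtain ⟨⟨t', ht'⟩, -, rfl⟩ := ht
    exact ht'
  set f := (GaloisRepAdic.ofResidualGaloisRep ρ.residual).ρ t with hf
  obtain ⟨x, hx⟩ := Submodule.mem_span_singleton.mp
    (hD t htD _ (Submodule.mem_span_singleton_self _))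
  obtain ⟨c, hc⟩ := Submodule.mem_span_singleton.mp (hI t ht (b 1))
  rw [← hf] at hx hc
  have h1 : f (b 1) = c • b 0 + b 1 := by rw [hc]; abel
  have e : LinearMap.trace (ResidueField T) _ f - LinearMap.det f - 1 = 0 := by
    rw [LinearMap.trace_eq_matrix_trace _ b, ← LinearMap.det_toMatrix b, Matrix.trace_fin_two,
      Matrix.det_fin_two]
    simp [LinearMap.toMatrix_apply, ← hx, h1]
  rw [← residue_eq_zero_iff, map_sub, map_sub, map_one, ← ResidueField.algebraMap_eq, ← e]
  congr 2
  · exact (LinearMap.trace_baseChange (ρ.ρ t) (ResidueField T)).symm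
  · exact (LinearMap.det_baseChange (ρ.ρ t)).symm

end Matrices

variable {p : ℕ} [Fact p.Prime] {N : ℕ} [NeZero N] {S : Finset ℕ}
  {T : Type} [CommRing T] [IsLocalRing T]

/-- The determinant is the cyclotomic character modulo powers of the maximal ideal. -/
theorem exists_det_congr (D : HeckeGaloisModel N p) (ρ : GaloisRepAdic T) (hp2 : p ≠ 2)
    (hpT : (p : T) ∈ IsLocalRing.maximalIdeal T)
    (π : CuspForm.heckeAlgebra N 2 (↑S : Set ℕ) →+* T) (hfrob : FrobCharpoly ρ π) :
    ∃ k : ℕ, ∀ (n : ℕ) (M : ℕ) (ζ : AlgebraicClosure ℚ) (g : AbsGal) (a : ℕ),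
      n + k ≤ M → IsPrimitiveRoot ζ (p ^ M) → g ζ = ζ ^ a →
        LinearMap.det (ρ.ρ g) - (a : T) ∈ IsLocalRing.maximalIdeal T ^ n := by
  obtain ⟨k, hsat⟩ := exists_saturation_of D hpT π
  refine ⟨k, fun n M ζ g a hM hζ hga => ?_⟩
  have : NeZero (p ^ M) := ⟨pow_ne_zero _ (Fact.out : p.Prime).ne_zero⟩
  obtain ⟨t, ht, htr⟩ := exists_heckeLevel_eq D ρ π hfrob hζ g
  obtain ⟨u, hu, hur⟩ := exists_heckeLevel_eq D ρ π hfrob hζ (g * g)
  set χ := hζ.autToPow ℚ
  have hchi : (χ g : ZMod (p ^ M)) = (a : ZMod (p ^ M)) := by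
    have h2 := (hζ.autToPow_spec ℚ g).trans hga
    have := (hζ.isOfFinOrder (NeZero.ne _)).pow_eq_pow_iff_modEq.mp h2
    rw [← hζ.eq_orderOf, ← ZMod.natCast_eq_natCast_iff] at this
    rwa [ZMod.natCast_val, ZMod.cast_id', id_eq] at this
  have h2 : galLevel D M g⁻¹ * galLevel D M g = 1 := by
    rw [← map_mul, inv_mul_cancel, map_one]
  have hz : heckeLevel D M (u - (t * t -
      ((a : CuspForm.heckeAlgebra N 2 (↑S : Set ℕ)) + (a : CuspForm.heckeAlgebra N 2 (↑S : Set ℕ))))) = 0 := by
    have e : (a : Matrix (Fin D.d) (Fin D.d) (ZMod (p ^ M))) = (a : ZMod (p ^ M)) • 1 := by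
      rw [← map_natCast (algebraMap (ZMod (p ^ M)) _), Algebra.algebraMap_eq_smul_one]
    simp only [map_sub, map_mul, map_add, map_natCast, hu, ht, map_mul χ, Units.val_mul, hchi,
      mul_inv_rev, e, add_mul, mul_add, smul_mul_assoc, mul_smul_comm, galLevel_mul_inv, h2,
      smul_add, smul_smul]
    abel
  have hπ := hsat (M - k) _
    (by rw [Nat.sub_add_cancel ((Nat.le_add_left k n).trans hM)]; exact hz)
  have hπ := Ideal.pow_le_pow_right (Nat.le_sub_of_add_le hM) hπ
  have hle : IsLocalRing.maximalIdeal T ^ M ≤ IsLocalRing.maximalIdeal T ^ n :=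
    Ideal.pow_le_pow_right ((Nat.le_add_right n k).trans hM)
  simp only [map_sub, map_mul, map_add, map_natCast] at hπ
  set t₁ := LinearMap.trace T ρ.V (ρ.ρ g)
  have h4 : 2 * (LinearMap.det (ρ.ρ g) - (a : T)) ∈ IsLocalRing.maximalIdeal T ^ n := by
    have h5 := (IsLocalRing.maximalIdeal T ^ n).sub_mem
      ((IsLocalRing.maximalIdeal T ^ n).mul_mem_left (t₁ + π t) (hle htr))
      ((IsLocalRing.maximalIdeal T ^ n).add_mem (hle hur) hπ)
    convert h5 using 1
    rw [trace_mul_self_eq]
    ring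
  have h2u : IsUnit (2 : T) := by
    by_contra h
    have h2m : (2 : T) ∈ IsLocalRing.maximalIdeal T := (IsLocalRing.mem_maximalIdeal _).mpr h
    obtain ⟨j, hj⟩ := (Fact.out : p.Prime).odd_of_ne_two hp2
    refine (IsLocalRing.maximalIdeal.isMaximal T).ne_top ((Ideal.eq_top_iff_one _).mpr ?_)
    have := (IsLocalRing.maximalIdeal T).sub_mem hpT
      ((IsLocalRing.maximalIdeal T).mul_mem_right (j : T) h2m)
    rw [hj] at this
    push_cast at this
    simp at this
  exact (Ideal.unit_mul_mem_iff_mem _ h2u).mp h4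

end Fermat.Agent.OrdinaryAtP

end
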