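import Fermat.Agent.RedTorsion.LinePlaces
import Fermat.Agent.RedTorsion.ReducedBasis
import Mathlib.FieldTheory.PrimitiveElement
import Mathlib.Algebra.Polynomial.Bivariate

/-!
# Unramified places over the line

If a function field is separable over `K(x)`, then for almost all constants `a` the function
`x - a` has simple zeros, and at such a zero every regular function vanishing there is, up to a
regular factor not vanishing there, a multiple of `x - a`.
-/

set_option autoImplicit false
set_option linter.unusedSectionVars false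

noncomputable section

namespace Fermat.Agent.OrdinaryAtP

open AlgebraicCurve Polynomial IntermediateField
open Fermat.Agent.FF

variable {K F : Type*} [Field K] [IsAlgClosed K] [Field F] [Algebra K F] [IsFunctionField K F]

/-! ### Values at a place -/

/-- The value at a place of a function regular there. -/
def placeVal (v : Place K F) : v.toValuationSubring →+* K :=
  haveI := finite_residueField v
  (RingEquiv.ofBijective (algebraMap K v.ResidueField)
    IsAlgClosed.algebraMap_bijective_of_isIntegral).symm.toRingHom.comp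
      (IsLocalRing.residue v.toValuationSubring)

theorem algebraMap_placeVal (v : Place K F) (z : v.toValuationSubring) :
    algebraMap K v.ResidueField (placeVal v z) = IsLocalRing.residue v.toValuationSubring z :=
  haveI := finite_residueField v
  (RingEquiv.ofBijective (algebraMap K v.ResidueField)
    IsAlgClosed.algebraMap_bijective_of_isIntegral).apply_symm_apply _

theorem placeVal_algebraMap (v : Place K F) (c : K) :
    placeVal v (algebraMap K v.toValuationSubring c) = c := by
  have := finite_residueField v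
  refine (algebraMap K v.ResidueField).injective ?_
  rw [algebraMap_placeVal]
  rfl

theorem placeVal_eq_iff (v : Place K F) (z : v.toValuationSubring) (c : K) :
    placeVal v z = c ↔ (z : F) - algebraMap K F c ∈ ordGe v 1 := by
  rw [← sub_eq_zero]
  conv_lhs => rw [← placeVal_algebraMap v c, ← map_sub,
    ← (algebraMap K v.ResidueField).injective.eq_iff, map_zero, algebraMap_placeVal,
    residue_eq_zero_iff]
  rfl

theorem placeVal_eq_zero_iff (v : Place K F) (z : v.toValuationSubring) :
    placeVal v z = 0 ↔ (z : F) ∈ ordGe v 1 := by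
  rw [placeVal_eq_iff, map_zero, sub_zero]

/-- A function with bounded poles vanishing at too many places is zero. -/
theorem eq_zero_of_vanish {x z : F} {n : ℕ} (hx : Transcendental K x)
    (hz : z ∈ riemannRochSpace (n • poles K x)) (S : Finset (Place K F))
    (hS : ∀ v ∈ S, 0 ≤ v.ord x ∧ z ∈ ordGe v 1)
    (hcard : n * Module.finrank K⟮x⟯ F < S.card) : z = 0 := by
  classical
  by_contra hne
  have hzE : z ∈ riemannRochSpace (n • poles K x - ∑ v ∈ S, Finsupp.single v (1 : ℤ)) := by
    rw [mem_riemannRochSpace']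
    intro w
    simp only [Finsupp.sub_apply, Finsupp.finsetSum_apply, Finsupp.single_apply,
      Finset.sum_ite_eq', RedTorsion.nsmul_poles_apply]
    split_ifs with hw
    · obtain ⟨h0, h1⟩ := hS w hw
      rw [poles_apply, max_eq_left (by omega), mul_zero]
      simpa using h1
    · simpa using RedTorsion.mem_polesSpace.mp hz w
  have hdeg : Divisor.degree (n • poles K x - ∑ v ∈ S, Finsupp.single v (1 : ℤ)) < 0 := by
    rw [map_sub, map_sum, map_nsmul, degree_poles hx]
    simp only [Divisor.degree_single, deg_eq_one, mul_one, Nat.cast_one, Finset.sum_const,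
      nsmul_eq_mul]
    have : ((n * Module.finrank K⟮x⟯ F : ℕ) : ℤ) < S.card := by exact_mod_cast hcard
    push_cast at this
    linarith
  have h0 := ell_eq_zero_of_degree_neg hdeg
  have hbot : riemannRochSpace (n • poles K x - ∑ v ∈ S, Finsupp.single v (1 : ℤ)) = ⊥ := by
    by_contra hb
    obtain ⟨b, hb, hb0⟩ := Submodule.exists_mem_ne_zero_of_ne_bot hb
    have := ell_mono (K := K) (le_refl (n • poles K x - ∑ v ∈ S, Finsupp.single v (1 : ℤ)))
    rw [ell] at h0
    have hpos : Module.finrank K
        (riemannRochSpace (n • poles K x - ∑ v ∈ S, Finsupp.single v (1 : ℤ))) = 0 := by omega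
    rw [Submodule.finrank_eq_zero] at hpos
    exact hb0 (by simpa [hpos] using hb)
  rw [hbot, Submodule.mem_bot] at hzE
  exact hne hzE

/-! ### Simple zeros -/

/-- Regular away from the poles of `x`. -/
def RegOff (x z : F) : Prop := ∀ w : Place K F, 0 ≤ w.ord x → z ∈ ordGe w 0

/-- For all but finitely many `a` there is a simple zero of `x - a` at which regular functions
clear. -/
theorem exists_simple_zero {x : F} (hx : Transcendental K x) [FiniteDimensional K⟮x⟯ F]
    [Algebra.IsSeparable K⟮x⟯ F] :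
    ∃ bad : Finset K, ∀ a ∉ bad, ∃ v : Place K F, 0 < v.ord (x - algebraMap K F a) ∧
      0 ≤ v.ord x ∧ ∀ z, RegOff (K := K) x z → z ∈ ordGe v 1 →
        ∃ t u : F, RegOff (K := K) x t ∧ RegOff (K := K) x u ∧ t ∉ ordGe v 1 ∧
          t * z = (x - algebraMap K F a) * u := by
  classical
  set E := K⟮x⟯ with hE
  obtain ⟨θ₀, hθ₀⟩ := Field.exists_primitive_element E F
  have hint₀ : IsIntegral E θ₀ := Algebra.IsIntegral.isIntegral θ₀
  set d := Module.finrank E F with hd
  have hd₀ : (minpoly E θ₀).natDegree = d :=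
    (Field.primitive_element_iff_minpoly_natDegree_eq E θ₀).mp hθ₀
  obtain ⟨Q, P, hQ, hQP⟩ := RedTorsion.exists_common_den hx
    fun i : Fin d => (minpoly E θ₀).coeff i
  -- an integral generator
  set θ : F := aeval x Q * θ₀ with hθ
  have hQ0 : aeval x Q ≠ 0 := aeval_ne_zero hx hQ
  let Φ : K[X][X] := X ^ d + ∑ i : Fin d, C (P i * Q ^ (d - 1 - (i : ℕ))) * X ^ (i : ℕ)
  have hΦm : Φ.Monic := (monic_X_pow d).add_of_left (by
    rw [degree_X_pow]; exact degree_sum_fin_lt _)
  have hΦd : Φ.natDegree = d := by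
    refine natDegree_eq_of_degree_eq_some ?_
    rw [degree_add_eq_left_of_degree_lt (by rw [degree_X_pow]; exact degree_sum_fin_lt _),
      degree_X_pow]
  let Ψ : K[X][X] →+* F := eval₂RingHom (aeval x : K[X] →ₐ[K] F).toRingHom θ
  have hΦθ : Ψ Φ = 0 := by
    have h0 : aeval θ₀ (minpoly E θ₀) = 0 := minpoly.aeval _ _
    rw [aeval_eq_sum_range, hd₀, Finset.sum_range_succ, ← hd₀,
      (minpoly.monic hint₀).coeff_natDegree, one_smul, hd₀, ← Fin.sum_univ_eq_sum_range
        (fun i => (minpoly E θ₀).coeff i • θ₀ ^ i)] at h0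
    have h1 : Ψ Φ = aeval x Q ^ d *
        (∑ i : Fin d, (minpoly E θ₀).coeff (i : ℕ) • θ₀ ^ (i : ℕ) + θ₀ ^ d) := by
      simp only [Ψ, Φ, coe_eval₂RingHom, eval₂_add, eval₂_finsetSum, eval₂_mul,
        eval₂_pow, eval₂_C, eval₂_X, AlgHom.toRingHom_eq_coe, RingHom.coe_coe, map_mul, map_pow, hθ,
        mul_pow]
      rw [mul_add, Finset.mul_sum, add_comm]
      congr 1
      refine Finset.sum_congr rfl fun i _ => ?_
      rw [← hQP, IntermediateField.smul_def, smul_eq_mul]
      rw [show aeval x Q ^ d = aeval x Q ^ (d - 1 - (i : ℕ)) * aeval x Q * aeval x Q ^ (i : ℕ) by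
        rw [← pow_succ, ← pow_add]; congr 1; omega]
      ring
    rw [h1, h0, mul_zero]
  set φE : K[X] →+* E := (aeval (RedTorsion.gen (K := K) x) : K[X] →ₐ[K] E).toRingHom with hφE
  have hΨE : ∀ f : K[X][X], Ψ f = aeval θ (f.map φE) := by
    intro f
    simp only [Ψ, coe_eval₂RingHom, aeval_def, eval₂_map]
    congr 1
    refine RingHom.ext fun q => ?_
    exact (RedTorsion.coe_aeval_gen q).symm
  have hgen : E⟮θ⟯ = ⊤ := by
    rw [eq_top_iff, ← hθ₀, adjoin_simple_le_iff]
    have hc : aeval x Q ∈ E⟮θ⟯ := by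
      have : aeval x Q = algebraMap E F (aeval (RedTorsion.gen (K := K) x) Q) :=
        (RedTorsion.coe_aeval_gen Q).symm
      rw [this]
      exact IntermediateField.algebraMap_mem _ _
    have := mul_mem (inv_mem hc) (mem_adjoin_simple_self E θ)
    rwa [hθ, inv_mul_cancel_left₀ hQ0] at this
  have hmin : Φ.map φE = minpoly E θ := by
    have hdθ : (minpoly E θ).natDegree = d :=
      (Field.primitive_element_iff_minpoly_natDegree_eq E θ).mp hgen
    refine eq_of_monic_of_dvd_of_natDegree_le (minpoly.monic (Algebra.IsIntegral.isIntegral θ))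
      (hΦm.map _) (minpoly.dvd E θ (by rw [← hΨE]; exact hΦθ)) ?_
    rw [hΦm.natDegree_map, hΦd, hdθ]
  have hker : ∀ f : K[X][X], Ψ f = 0 → Φ ∣ f := by
    intro f hf
    have h1 : minpoly E θ ∣ f.map φE := minpoly.dvd E θ (by rw [← hΨE]; exact hf)
    rw [← hmin] at h1
    have hinj : Function.Injective φE :=
      transcendental_iff_injective.mp (RedTorsion.transcendental_gen hx)
    rw [← modByMonic_eq_zero_iff_dvd (hΦm.map _), ← map_modByMonic _ hΦm,
      Polynomial.map_eq_zero_iff hinj] at h1
    exact (modByMonic_eq_zero_iff_dvd hΦm).mp h1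
  -- separability
  obtain ⟨Ha, Hb, H, hH, hH0⟩ : ∃ Ha Hb : K[X][X], ∃ H : K[X],
      Ha * Φ + Hb * derivative Φ = C H ∧ H ≠ 0 := by
    obtain ⟨a, b, hab⟩ : (Φ.map φE).Separable := by
      rw [hmin]; exact Algebra.IsSeparable.isSeparable E θ
    obtain ⟨D, Pc, hD, hDP⟩ := RedTorsion.exists_common_den hx
      (Sum.elim (fun i : Fin (a.natDegree + 1) => a.coeff i)
        fun i : Fin (b.natDegree + 1) => b.coeff i)
    let up : ∀ {n : ℕ}, (Fin n → K[X]) → K[X][X] := fun {n} c => ∑ i, C (c i) * X ^ (i : ℕ)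
    have hup : ∀ (a : E[X]) (c : Fin (a.natDegree + 1) → K[X]),
        (∀ i : Fin (a.natDegree + 1), aeval x D * (a.coeff i : F) = aeval x (c i)) →
        (up c).map φE = C (φE D) * a := by
      intro a c hc
      conv_rhs => rw [a.as_sum_range_C_mul_X_pow, Finset.mul_sum,
        ← Fin.sum_univ_eq_sum_range (fun i => C (φE D) * (C (a.coeff i) * X ^ i))]
      simp only [up, Polynomial.map_sum, Polynomial.map_mul, map_C, Polynomial.map_pow, map_X]
      refine Finset.sum_congr rfl fun i _ => ?_
      rw [← mul_assoc, ← C_mul]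
      congr 2
      refine Subtype.ext ?_
      show _ = ((φE D : E) : F) * (a.coeff i : F)
      rw [hφE]
      simp only [AlgHom.toRingHom_eq_coe, RingHom.coe_coe]
      rw [RedTorsion.coe_aeval_gen, RedTorsion.coe_aeval_gen]
      exact (hc i).symm
    refine ⟨up fun i => Pc (Sum.inl i), up fun i => Pc (Sum.inr i), D, ?_, hD⟩
    have hinj : Function.Injective φE :=
      transcendental_iff_injective.mp (RedTorsion.transcendental_gen hx)
    refine map_injective φE hinj ?_
    rw [Polynomial.map_add, Polynomial.map_mul, Polynomial.map_mul, map_C, ← derivative_map,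
      hup a _ fun i => hDP (Sum.inl i), hup b _ fun i => hDP (Sum.inr i), mul_assoc, mul_assoc,
      ← mul_add, hab, mul_one]
  refine ⟨H.roots.toFinset, fun a ha => ?_⟩
  rw [Multiset.mem_toFinset, mem_roots hH0, IsRoot] at ha
  set Φa : K[X] := Φ.map (evalRingHom a) with hΦa
  have hsep : Φa.Separable := by
    refine ⟨C (H.eval a)⁻¹ * Ha.map (evalRingHom a), C (H.eval a)⁻¹ * Hb.map (evalRingHom a), ?_⟩
    rw [mul_assoc, mul_assoc, ← mul_add, hΦa, derivative_map, ← Polynomial.map_mul,
      ← Polynomial.map_mul, ← Polynomial.map_add, hH, map_C, ← C_mul, coe_evalRingHom,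
      inv_mul_cancel₀ ha, C_1]
  have hcard : Φa.roots.toFinset.card = d := by
    rw [Multiset.toFinset_card_of_nodup (nodup_roots hsep),
      IsAlgClosed.card_roots_eq_natDegree, hΦa, hΦm.natDegree_map, hΦd]
  -- the places
  have hplace : ∀ r ∈ Φa.roots.toFinset, ∃ v : Place K F, 0 ≤ v.ord x ∧
      x - algebraMap K F a ∈ ordGe v 1 ∧ θ - algebraMap K F r ∈ ordGe v 1 := by
    intro r hr
    rw [Multiset.mem_toFinset, mem_roots (hΦm.map _).ne_zero, IsRoot] at hr
    let R : Subalgebra K F :=
      { Ψ.range.toSubsemiring with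
        algebraMap_mem' := fun c => ⟨C (C c), by simp [Ψ]⟩ }
    let φ : K[X][X] →+* K := (evalRingHom r).comp (mapRingHom (evalRingHom a))
    let ΨR : K[X][X] →+* R := Ψ.codRestrict R fun f => ⟨f, rfl⟩
    have hsurj : Function.Surjective ΨR := fun ⟨y, f, hf⟩ => ⟨f, Subtype.ext hf⟩
    have hI : (RingHom.ker φ).map ΨR ≠ ⊤ := by
      intro htop
      have h1 := (Ideal.eq_top_iff_one _).mp htop
      obtain ⟨f, hf, hf1⟩ := (Ideal.mem_map_iff_of_surjective ΨR hsurj).mp h1
      have h2 : Ψ (f - 1) = 0 := by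
        rw [map_sub, map_one, sub_eq_zero]
        exact congrArg Subtype.val hf1
      obtain ⟨g, hg⟩ := hker _ h2
      have h3 := congrArg φ hg
      rw [map_sub, map_one, RingHom.mem_ker.mp hf, map_mul,
        show φ Φ = 0 from hr, zero_mul] at h3
      simp at h3
    have hxa : C (X - C a) ∈ RingHom.ker φ := by simp [φ, RingHom.mem_ker]
    have hθr : X - C (C r) ∈ RingHom.ker φ := by simp [φ, RingHom.mem_ker]
    obtain ⟨v, hvR, hvI⟩ := exists_place_of_ideal R _ hI (fun hbot => by
      have h1 := Ideal.mem_map_of_mem ΨR hxa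
      rw [hbot, Ideal.mem_bot] at h1
      refine hx ?_
      have h2 : Ψ (C (X - C a)) = 0 := congrArg Subtype.val h1
      simp only [Ψ, coe_eval₂RingHom, eval₂_C, AlgHom.toRingHom_eq_coe, RingHom.coe_coe, map_sub,
        aeval_X, aeval_C, sub_eq_zero] at h2
      rw [h2]
      exact isAlgebraic_algebraMap a)
    have hxR : x ∈ R := ⟨C X, by simp [Ψ]⟩
    refine ⟨v, ord_nonneg v (hvR x hxR), ?_, ?_⟩
    · have := hvI _ (Ideal.mem_map_of_mem ΨR hxa)
      simpa [ΨR, Ψ] using this
    · have := hvI _ (Ideal.mem_map_of_mem ΨR hθr)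
      simpa [ΨR, Ψ] using this
  choose v hv0 hvx hvθ using hplace
  set w : Φa.roots.toFinset → Place K F := fun r => v r.1 r.2 with hw
  have hwinj : Function.Injective w := by
    rintro ⟨r, hr⟩ ⟨r', hr'⟩ he
    simp only [hw] at he
    refine Subtype.ext (by_contra fun hne : r ≠ r' => ?_)
    have h2 := sub_mem (hvθ r' hr') (he ▸ hvθ r hr)
    rw [sub_sub_sub_cancel_left, ← map_sub] at h2
    have h3 := le_ord_of_mem_ordGe (v r' hr')
      ((_root_.map_ne_zero _).mpr (sub_ne_zero.mpr hne)) h2
    rw [ord_algebraMap] at h3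
    omega
  set y : F := x - algebraMap K F a with hy
  have hy0 : y ≠ 0 := fun h => hx (by rw [sub_eq_zero.mp h]; exact isAlgebraic_algebraMap a)
  have hyt : Transcendental K y := fun h => hx (by
    have := h.add (isAlgebraic_algebraMap (A := F) a)
    rwa [hy, sub_add_cancel] at this)
  have hEy : K⟮y⟯ = E := by
    apply le_antisymm <;> rw [adjoin_simple_le_iff]
    · exact sub_mem (mem_adjoin_simple_self K x) (IntermediateField.algebraMap_mem _ _)
    · have := add_mem (mem_adjoin_simple_self K y) (IntermediateField.algebraMap_mem K⟮y⟯ a)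
      rwa [hy, sub_add_cancel] at this
  have hpos : ∀ r, 0 < (w r).ord y := fun r => by
    have := le_ord_of_mem_ordGe (w r) hy0 (hvx r.1 r.2)
    omega
  -- exactly these zeros, all simple
  have hzero : ∀ u : Place K F, 0 < u.ord y → (∃ r, w r = u) ∧ u.ord y = 1 := by
    intro u hu
    have hsum : ∀ S : Finset (Place K F), (∀ v ∈ S, 0 < v.ord y) →
        ∑ v ∈ S, (v.ord y).toNat ≤ d := by
      intro S hS
      have := sum_ord_mul_deg_le hyt S hS
      simp only [deg_eq_one, mul_one] at this
      rw [hd, ← hEy]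
      exact this
    let S₀ : Finset (Place K F) := Finset.univ.image w
    have hS₀ : S₀.card = d := by
      rw [Finset.card_image_of_injective _ hwinj, Finset.card_univ, Fintype.card_coe, hcard]
    have hS₀pos : ∀ v ∈ S₀, 0 < v.ord y := by
      intro v hv
      obtain ⟨r, -, rfl⟩ := Finset.mem_image.mp hv
      exact hpos r
    have h1 : ∀ v ∈ S₀, 1 ≤ (v.ord y).toNat := fun v hv => by have := hS₀pos v hv; omega
    have hmem : u ∈ S₀ := by
      by_contra hnot
      have h2 := hsum (insert u S₀) (fun v hv => by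
        rcases Finset.mem_insert.mp hv with rfl | hv
        · exact hu
        · exact hS₀pos v hv)
      rw [Finset.sum_insert hnot] at h2
      have h3 := Finset.card_nsmul_le_sum S₀ _ 1 h1
      rw [smul_eq_mul, mul_one, hS₀] at h3
      omega
    obtain ⟨r, -, rfl⟩ := Finset.mem_image.mp hmem
    refine ⟨⟨r, rfl⟩, ?_⟩
    have h2 := hsum S₀ hS₀pos
    rw [← Finset.add_sum_erase _ _ hmem] at h2
    have h3 := Finset.card_nsmul_le_sum (S₀.erase (w r)) _ 1
      fun v hv => h1 v (Finset.mem_of_mem_erase hv)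
    rw [smul_eq_mul, mul_one, Finset.card_erase_of_mem hmem, hS₀] at h3
    omega
  obtain ⟨r₀, hr₀⟩ : Φa.roots.toFinset.Nonempty := by
    rw [← Finset.card_pos, hcard, hd]
    exact Module.finrank_pos
  refine ⟨w ⟨r₀, hr₀⟩, hpos _, hv0 r₀ hr₀, fun z hz hzv => ?_⟩
  set t : F := ∏ r ∈ (Φa.roots.toFinset).erase r₀, (θ - algebraMap K F r) with ht
  have hθreg : RegOff (K := K) x θ := fun u hu => by
    refine RedTorsion.mem_ordGe_zero_of_monic_rel u (d := d)
      (a := fun i => aeval x (Φ.coeff i)) (fun i => ?_) ?_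
    · rw [mem_ordGe_zero]
      exact aeval_mem_valuationSubring u ((mem_iff u).mpr (Or.inr hu)) _
    · simp only [Ψ, coe_eval₂RingHom] at hΦθ
      rw [eval₂_eq_sum_range, hΦd, Finset.sum_range_succ, ← hΦd, hΦm.coeff_natDegree, map_one,
        one_mul, hΦd, add_comm] at hΦθ
      exact hΦθ
  have htreg : RegOff (K := K) x t := fun u hu => (mem_ordGe_zero u).mpr
    (prod_mem fun r _ => sub_mem ((mem_ordGe_zero u).mp (hθreg u hu)) (u.algebraMap_mem' r))
  refine ⟨t, t * z / y, htreg, fun u hu => ?_, fun htv => ?_, by rw [mul_div_cancel₀ _ hy0]⟩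
  · have hyu : y ∈ ordGe u 0 := sub_mem (mem_ordGe_of_le u hu)
      ((mem_ordGe_zero u).mpr (u.algebraMap_mem' a))
    have htz := mul_mem_ordGe u (htreg u hu) (hz u hu)
    rw [add_zero] at htz
    rcases (le_ord_of_mem_ordGe u hy0 hyu).eq_or_lt with h0 | hlt
    · have := mul_mem_ordGe u htz (mem_ordGe_of_le u (le_refl (u.ord y⁻¹)))
      rwa [u.ord_inv, ← h0, neg_zero, add_zero, ← div_eq_mul_inv] at this
    · obtain ⟨⟨r, hr⟩, h1⟩ := hzero u hlt
      have hnum : t * z ∈ ordGe u 1 := by
        by_cases hrr : r.1 = r₀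
        · obtain rfl : r = ⟨r₀, hr₀⟩ := Subtype.ext hrr
          have := mul_mem_ordGe u (htreg u hu) (hr ▸ hzv)
          simpa using this
        · have hmem : t ∈ ordGe u 1 := by
            rw [ht, ← Finset.mul_prod_erase _ _ (Finset.mem_erase.mpr ⟨hrr, r.2⟩)]
            have h2 : (∏ s ∈ ((Φa.roots.toFinset).erase r₀).erase r.1, (θ - algebraMap K F s)) ∈
                ordGe u 0 := (mem_ordGe_zero u).mpr (prod_mem fun s _ =>
              sub_mem ((mem_ordGe_zero u).mp (hθreg u hu)) (u.algebraMap_mem' s))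
            have hθu : θ - algebraMap K F r.1 ∈ ordGe u 1 := by rw [← hr]; exact hvθ r.1 r.2
            have := mul_mem_ordGe u hθu h2
            simpa using this
          have := mul_mem_ordGe u hmem (hz u hu)
          simpa using this
      have := mul_mem_ordGe u hnum (mem_ordGe_of_le u (le_refl (u.ord y⁻¹)))
      rw [u.ord_inv, h1, ← div_eq_mul_inv] at this
      simpa using this
  · set u := w ⟨r₀, hr₀⟩ with hu'
    have hu0 : 0 ≤ u.ord x := hv0 r₀ hr₀
    let tt : u.toValuationSubring := ⟨t, (mem_ordGe_zero u).mp (htreg u hu0)⟩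
    let θu : u.toValuationSubring := ⟨θ, (mem_ordGe_zero u).mp (hθreg u hu0)⟩
    have hval : placeVal u θu = r₀ := (placeVal_eq_iff u θu r₀).mpr (hvθ r₀ hr₀)
    have htt : tt = ∏ r ∈ (Φa.roots.toFinset).erase r₀, (θu - algebraMap K _ r) :=
      Subtype.ext (by
        rw [show ((tt : u.toValuationSubring) : F) = t from rfl, ht,
          show ((∏ r ∈ (Φa.roots.toFinset).erase r₀, (θu - algebraMap K _ r) :
            u.toValuationSubring) : F) = u.toValuationSubring.subtype _ from rfl, map_prod]
        rfl)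
    have := (placeVal_eq_zero_iff u tt).mpr htv
    rw [htt, map_prod, Finset.prod_eq_zero_iff] at this
    obtain ⟨r, hr, hr0⟩ := this
    rw [map_sub, hval, placeVal_algebraMap, sub_eq_zero] at hr0
    exact (Finset.mem_erase.mp hr).1 hr0.symm

end Fermat.Agent.OrdinaryAtP

end
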