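import Fermat.Agent.OrdinaryAtP.Symmetry
import Fermat.Agent.OrdinaryAtP.Fixed
import Fermat.Agent.OrdinaryAtP.Places
import Mathlib.RingTheory.IntegralClosure.GoingDown
import Mathlib.RingTheory.Ideal.GoingUp
import Mathlib.RingTheory.Polynomial.IsIntegral

/-!
# Lifting a residual point of the first component to the integral ring

At a simple zero of `j - a` on the first component there is exactly one point of the integral ring
over a given lift of `a`: existence by going down, uniqueness because a function vanishing at one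
such point is `j - c` times a function up to the maximal ideal.
-/

set_option autoImplicit false
set_option linter.unusedSectionVars false
set_option linter.style.haveILetI false

noncomputable section

namespace Fermat.Agent.OrdinaryAtP

open ModularCurve AlgebraicCurve Polynomial Semistable
open Arith (QBar GQ)
open scoped Pointwise

variable {A : ValuationSubring QBar} {M p : ℕ} [NeZero M] [hp : Fact p.Prime] [CharP (Res A) p]
  [FF.IsFunctionField (Res A) (KM A M)] (h : Setup A M p)

/-- Regular functions are regular at places away from the cusps. -/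
theorem Rk_mem_ordGe (z : Rk A M) (v : Place (Res A) (KM A M)) (hv : 0 ≤ v.ord (jK A M)) :
    (z : KM A M) ∈ FF.ordGe v 0 := by
  obtain ⟨n, hn⟩ := z.2
  have := RedTorsion.mem_polesSpace.mp hn v
  rwa [FF.poles_apply, max_eq_left (by omega), mul_zero, neg_zero] at this

theorem regOff_Rk (z : Rk A M) : RegOff (K := Res A) (jK A M) (z : KM A M) :=
  fun v hv => Rk_mem_ordGe z v hv

/-- A function regular away from the cusps has bounded poles. -/
theorem mem_Rk_of_regOff {z : KM A M} (hz : RegOff (K := Res A) (jK A M) z) : z ∈ Rk A M := by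
  classical
  rcases eq_or_ne z 0 with rfl | hz0
  · exact zero_mem _
  refine ⟨((FF.div (Res A) z).support.sup fun v => (-v.ord z).toNat),
    RedTorsion.mem_polesSpace.mpr fun v => ?_⟩
  by_cases hv : 0 ≤ v.ord (jK A M)
  · refine FF.ordGe_anti v ?_ (hz v hv)
    rw [FF.poles_apply, max_eq_left (by omega), mul_zero, neg_zero]
  · refine FF.mem_ordGe_of_le v ?_
    rw [FF.poles_apply, max_eq_right (by omega)]
    set b := (FF.div (Res A) z).support.sup fun v => (-v.ord z).toNat
    have h2 : -v.ord z ≤ (b : ℤ) := by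
      by_cases hmem : v ∈ (FF.div (Res A) z).support
      · have h1 : (-v.ord z).toNat ≤ b :=
          Finset.le_sup (f := fun v => (-v.ord z).toNat) hmem
        omega
      · rw [Finsupp.notMem_support_iff, FF.div_apply] at hmem
        omega
    nlinarith

/-- The value at a place away from the cusps. -/
def valAt [IsAlgClosed (Res A)] (v : Place (Res A) (KM A M)) (hv : 0 ≤ v.ord (jK A M)) :
    Rk A M →+* Res A :=
  (placeVal v).comp ((Rk A M).val.toRingHom.codRestrict v.toValuationSubring fun z =>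
    (FF.mem_ordGe_zero v).mp (Rk_mem_ordGe z v hv))

theorem valAt_eq_iff [IsAlgClosed (Res A)] {v : Place (Res A) (KM A M)}
    {hv : 0 ≤ v.ord (jK A M)} (z : Rk A M) (c : Res A) :
    valAt v hv z = c ↔ (z : KM A M) - algebraMap (Res A) (KM A M) c ∈ FF.ordGe v 1 :=
  placeVal_eq_iff v _ c

theorem valAt_algebraMap [IsAlgClosed (Res A)] {v : Place (Res A) (KM A M)}
    {hv : 0 ≤ v.ord (jK A M)} (c : Res A) :
    valAt v hv (algebraMap (Res A) (Rk A M) c) = c :=
  (valAt_eq_iff _ _).mpr (by
    rw [show ((algebraMap (Res A) (Rk A M) c : Rk A M) : KM A M) = algebraMap (Res A) _ c from rfl,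
      sub_self]
    exact zero_mem _)

/-! ### Points of extensions of `A[X]` -/

section Points

private theorem eq_inv_smul {K F : Type*} [Field K] [Semiring F] [Algebra K F] {a : K} {w y : F}
    (ha : a ≠ 0) (h : w = algebraMap K F a * y) : y = a⁻¹ • w := by
  rw [h, Algebra.smul_def, ← mul_assoc, ← map_mul, inv_mul_cancel₀ ha, map_one, one_mul]

/-- Going down along a finite torsion-free extension of `A[X]`: a residual point lifts to a
point with values in `A` over any lift of the value of `J`. -/
private theorem exists_point {B : Type*} [CommRing B] [IsDomain B] (cB : A →+* B) (J : B)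
    (hinj : Function.Injective (eval₂RingHom cB J)) {d : ℕ} (g : Fin d → B)
    (hg : ∀ x, ∃ P : Fin d → (A : Type)[X], x = ∑ l, eval₂RingHom cB J (P l) * g l)
    (χ : B →+* Res A) (c : A) (hχc : ∀ b, χ (cB b) = IsLocalRing.residue A b)
    (hχJ : χ J = IsLocalRing.residue A c) :
    ∃ (s : B →+* QBar) (hs : ∀ x, s x ∈ A), (∀ b : A, s (cB b) = b) ∧ s J = c ∧
      ∀ x, IsLocalRing.residue A ⟨s x, hs x⟩ = χ x := by
  classical
  letI algB : Algebra (A : Type)[X] B := (eval₂RingHom cB J).toAlgebra
  haveI : FaithfulSMul (A : Type)[X] B :=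
    (faithfulSMul_iff_algebraMap_injective _ _).mpr hinj
  haveI : Module.Finite (A : Type)[X] B := ⟨⟨Finset.univ.image g, by
    rw [eq_top_iff, Finset.coe_image, Finset.coe_univ, Set.image_univ]
    intro x _
    obtain ⟨P, hP⟩ := hg x
    exact (Submodule.mem_span_range_iff_exists_fun _).mpr ⟨P, hP.symm⟩⟩⟩
  haveI : Algebra.IsIntegral (A : Type)[X] B := Algebra.IsIntegral.of_finite _ _
  -- the two primes of the base
  let ev : (A : Type)[X] →+* A := evalRingHom c
  have hcomp : χ.comp (algebraMap (A : Type)[X] B) = (IsLocalRing.residue A).comp ev := by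
    refine Polynomial.ringHom_ext (fun b => ?_) ?_
    · show χ (eval₂RingHom cB J (C b)) = IsLocalRing.residue A ((C b).eval c)
      rw [eval_C, coe_eval₂RingHom, eval₂_C, hχc]
    · show χ (eval₂RingHom cB J X) = IsLocalRing.residue A ((X : (A : Type)[X]).eval c)
      rw [eval_X, coe_eval₂RingHom, eval₂_X, hχJ]
  haveI : (RingHom.ker ev).IsPrime := RingHom.ker_isPrime _
  haveI : (RingHom.ker χ).IsPrime := RingHom.ker_isPrime _
  have hle : RingHom.ker ev ≤ (RingHom.ker χ).under (A : Type)[X] := fun P hP => by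
    rw [RingHom.mem_ker] at hP
    show χ (algebraMap _ B P) = 0
    rw [show χ (algebraMap _ B P) = IsLocalRing.residue A (ev P) from RingHom.congr_fun hcomp P,
      hP, map_zero]
  obtain ⟨P, hPle, hPprime, hPover⟩ := Ideal.exists_ideal_le_liesOver_of_le
    (p := RingHom.ker ev) (q := (RingHom.ker χ).under (A : Type)[X]) (RingHom.ker χ) hle
  set π : B →+* B ⧸ P := Ideal.Quotient.mk P
  haveI : IsDomain (B ⧸ P) := Ideal.Quotient.isDomain P
  letI algQ : Algebra A (B ⧸ P) := (π.comp (cB)).toAlgebra
  have hker : ∀ Q : (A : Type)[X],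
      algebraMap (A : Type)[X] B Q ∈ P ↔ Q.eval c = 0 := fun Q => by
    rw [← Ideal.mem_comap, ← Ideal.under, ← hPover.over]
    rfl
  have hinjQ : Function.Injective (algebraMap A (B ⧸ P)) := by
    rw [injective_iff_map_eq_zero]
    intro b hb
    have h1 : algebraMap (A : Type)[X] B (C b) ∈ P := by
      rw [show algebraMap (A : Type)[X] B (C b) = cB b from eval₂_C _ _]
      exact Ideal.Quotient.eq_zero_iff_mem.mp hb
    simpa using (hker _).mp h1
  have hJ : π.comp (algebraMap (A : Type)[X] B) = (algebraMap A (B ⧸ P)).comp ev := by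
    refine Polynomial.ringHom_ext (fun b => ?_) ?_
    · show π (eval₂RingHom cB J (C b)) = π (cB ((C b).eval c))
      rw [eval_C, coe_eval₂RingHom, eval₂_C]
    · show π (eval₂RingHom cB J X) = π (cB ((X : (A : Type)[X]).eval c))
      rw [eval_X, coe_eval₂RingHom, eval₂_X, Ideal.Quotient.eq]
      have h1 : algebraMap (A : Type)[X] B (X - C c) ∈ P := (hker _).mpr (by simp)
      rwa [show algebraMap (A : Type)[X] B (X - C c) = J - cB c by
        rw [map_sub]
        exact congrArg₂ (· - ·) (eval₂_X _ _) (eval₂_C _ _)] at h1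
  haveI : Algebra.IsIntegral A (B ⧸ P) := ⟨fun y => by
    obtain ⟨x, rfl⟩ := Ideal.Quotient.mk_surjective y
    obtain ⟨Q, hQ, hQx⟩ := Algebra.IsIntegral.isIntegral (R := (A : Type)[X]) x
    refine ⟨Q.map ev, hQ.map ev, ?_⟩
    rw [eval₂_map, ← hJ, ← hom_eval₂, hQx, map_zero]⟩
  haveI : FaithfulSMul A (B ⧸ P) := (faithfulSMul_iff_algebraMap_injective _ _).mpr hinjQ
  haveI : Algebra.IsAlgebraic A (B ⧸ P) := Algebra.IsIntegral.isAlgebraic
  set l : B ⧸ P →ₐ[A] QBar := IsAlgClosed.lift with hl
  have hmem : ∀ y, l y ∈ A := fun y => by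
    obtain ⟨z, hz⟩ := (IsIntegrallyClosed.isIntegral_iff (R := A) (K := QBar)).mp
      ((Algebra.IsIntegral.isIntegral (R := A) y).map l)
    exact hz ▸ z.2
  have hl0 : RingHom.ker l.toRingHom = ⊥ := by
    haveI : (RingHom.ker l.toRingHom).IsPrime := RingHom.ker_isPrime _
    refine Ideal.eq_bot_of_comap_eq_bot (R := A) ((Submodule.eq_bot_iff _).mpr fun b hb => ?_)
    rw [Ideal.mem_comap, RingHom.mem_ker] at hb
    exact Subtype.ext ((l.commutes b).symm.trans hb)
  refine ⟨l.toRingHom.comp π, fun x => hmem _, fun b => ?_, ?_, fun x => ?_⟩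
  · exact l.commutes b
  · show l (π (J)) = _
    have h1 := RingHom.congr_fun hJ X
    simp only [RingHom.comp_apply, coe_evalRingHom, eval_X, ev] at h1
    rw [show algebraMap (A : Type)[X] B X = J from eval₂_X _ _] at h1
    rw [h1]
    exact l.commutes c
  · set b : A := ⟨l (π x), hmem _⟩
    have h1 : x - cB b ∈ P := by
      rw [← Ideal.Quotient.eq_zero_iff_mem, ← Ideal.mem_bot, ← hl0, RingHom.mem_ker, map_sub,
        map_sub, sub_eq_zero]
      exact (l.commutes b).symm
    have h2 := hPle h1
    rw [RingHom.mem_ker, map_sub, hχc, sub_eq_zero] at h2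
    exact h2.symm

/-- The algebra of the contraction. -/
private theorem valuation_sub_eq {B : Type*} [CommRing B] {s s' : B →+* QBar} (cB : A →+* B)
    {J T U x y : B} {π c b : A} (hs : ∀ a : A, s (cB a) = a) (hs' : ∀ a : A, s' (cB a) = a)
    (hJ : s J = c) (hJ' : s' J = c) (hx : s x = b) (hT : A.valuation (s' T) = 1)
    (hw : T * (x - cB b) - (J - cB c) * U = cB π * y) :
    A.valuation (s' x - s x) = A.valuation (π : QBar) * A.valuation (s' y - s y) := by
  have e1 := congrArg s hw
  have e2 := congrArg s' hw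
  simp only [map_sub, map_mul, hs, hs', hJ, hJ', hx, sub_self, mul_zero, zero_mul, sub_zero]
    at e1 e2
  have e3 : s' T * (s' x - s x) = (π : QBar) * (s' y - s y) := by
    rw [hx, mul_sub (π : QBar), ← e1, sub_zero, e2]
  simpa [hT] using congrArg A.valuation e3

/-- Two points on a finitely generated extension of `A[X]` agreeing at the base agree as soon as
their difference contracts. -/
private theorem eq_of_contraction {B : Type*} [CommRing B] (cB : A →+* B) (J : B) {d : ℕ}
    (g : Fin d → B)
    (hg : ∀ x, ∃ P : Fin d → (A : Type)[X], x = ∑ l, eval₂RingHom cB J (P l) * g l)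
    {s s' : B →+* QBar} (hsA : ∀ x, s x ∈ A) (hcB : ∀ b, s (cB b) = s' (cB b))
    (hJ : s J = s' J)
    (key : ∀ x, ∃ π : A, (π : QBar) ∈ A.nonunits ∧ ∃ y,
      A.valuation (s' x - s x) = A.valuation (π : QBar) * A.valuation (s' y - s y)) : s = s' := by
  classical
  have hpoly : ∀ P : (A : Type)[X], s (eval₂RingHom cB J P) = s' (eval₂RingHom cB J P) :=
    fun P => RingHom.congr_fun (f := s.comp (eval₂RingHom cB J))
      (g := s'.comp (eval₂RingHom cB J))
      (Polynomial.ringHom_ext (fun b => by simpa using hcB b) (by simpa using hJ)) P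
  have hlin : ∀ x, ∃ P : Fin d → QBar, (∀ l, P l ∈ A) ∧
      s' x - s x = ∑ l, P l * (s' (g l) - s (g l)) := by
    intro x
    obtain ⟨P, rfl⟩ := hg x
    refine ⟨fun l => s (eval₂RingHom cB J (P l)), fun l => hsA _, ?_⟩
    simp only [map_sum, map_mul, ← hpoly, mul_sub, Finset.sum_sub_distrib]
  suffices hzero : ∀ l, (s' (g l) - s (g l)) = 0 by
    refine RingHom.ext fun x => ?_
    obtain ⟨P, -, hP⟩ := hlin x
    simp only [hzero, mul_zero, Finset.sum_const_zero] at hP
    exact (sub_eq_zero.mp hP).symm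
  rcases isEmpty_or_nonempty (Fin d) with hd | hd
  · exact fun l => hd.elim l
  obtain ⟨l₀, -, hmax⟩ := Finset.univ.exists_max_image
    (fun l => A.valuation (s' (g l) - s (g l)))
    Finset.univ_nonempty
  have hbound : ∀ x, A.valuation (s' x - s x) ≤ A.valuation (s' (g l₀) - s (g l₀)) := by
    intro x
    obtain ⟨P, hP, e⟩ := hlin x
    rw [e]
    refine A.valuation.map_sum_le fun l _ => ?_
    rw [map_mul]
    exact (mul_le_of_le_one_left' ((A.valuation_le_one_iff _).mpr (hP l))).trans
      (hmax l (Finset.mem_univ l))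
  have h0 : (s' (g l₀) - s (g l₀)) = 0 := by
    by_contra hne
    obtain ⟨π, hπ, y, hy⟩ := key (g l₀)
    have hlt : A.valuation (π : QBar) * A.valuation (s' y - s y) <
        A.valuation (s' (g l₀) - s (g l₀)) := by
      calc A.valuation (π : QBar) * A.valuation (s' y - s y)
          ≤ A.valuation (π : QBar) * A.valuation (s' (g l₀) - s (g l₀)) :=
            mul_le_mul_right (hbound y) _
        _ < 1 * A.valuation (s' (g l₀) - s (g l₀)) := mul_lt_mul_of_pos_right
            ((ValuationSubring.mem_nonunits_iff A).mp hπ)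
            (zero_lt_iff.mpr ((Valuation.ne_zero_iff _).mpr hne))
        _ = _ := one_mul _
    exact hlt.ne hy.symm
  intro l
  have := hmax l (Finset.mem_univ l)
  rw [h0, map_zero, le_zero_iff, map_eq_zero] at this
  exact this


end Points

include h

variable {χ : Bint A M p h.hqM →+* Res A}

/-- A point of the integral ring over `j = c` with residual character `χ`. -/
structure IsLift (χ : Bint A M p h.hqM →+* Res A) (c : QBar)
    (s : Bint A M p h.hqM →+* QBar) : Prop where
  mem : ∀ x, s x ∈ A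
  const : ∀ b : A, s (constB A M p h.hqM b) = b
  at_j : s (upJ A M p h.hqM) = c
  res : ∀ x, IsLocalRing.residue A ⟨s x, mem x⟩ = χ x

/-- **Existence**, by going down. -/
theorem exists_isLift (c : A)
    (hχc : ∀ b, χ (constB A M p h.hqM b) = IsLocalRing.residue A b)
    (hχJ : χ (upJ A M p h.hqM) = IsLocalRing.residue A c) :
    ∃ s, IsLift h χ c s := by
  obtain ⟨d, g, hg⟩ := exists_generators h
  obtain ⟨s, hmem, hconst, hj, hres⟩ :=
    exists_point (constB A M p h.hqM) (upJ A M p h.hqM) polyJ_injective g hg χ c hχc hχJ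
  exact ⟨s, hmem, hconst, hj, hres⟩

/-- Multiples of `j - j ^ (p ^ 2)` occur as first reductions with second reduction zero. -/
theorem exists_side_lift (φ : Rk A M) :
    ∃ T : Bint A M p h.hqM, rho A M p h.hqM T =
      ![serR A M ((comp0 h (upJ A M p h.hqM) - comp0 h (upJ A M p h.hqM) ^ (p * p)) * φ), 0] := by
  set jR := comp0 h (upJ A M p h.hqM) with hjR
  have hq : qR A M p (qR A M p jR) = jR ^ (p * p) := by
    have h1 : qR A M p jR = jR ^ p := Subtype.ext (by
      rw [coe_qR, SubmonoidClass.coe_pow, hjR, comp0_upJ]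
      exact qK_jK)
    rw [h1, map_pow, h1, ← pow_mul]
  have hI : (jR - jR ^ (p * p)) * φ ∈ IZ h := by
    rw [← hq]
    exact Ideal.mul_mem_right _ _ (h.sub_qR_qR_mem_IZ jR)
  obtain ⟨m, hm⟩ := h.mem_IZ.mp hI
  obtain ⟨T, -, hT⟩ := exists_lift_rho h _ (h.swap_mem_Bn hm)
  exact ⟨T, hT.trans rfl⟩

variable [IsAlgClosed (Res A)]

/-- **Uniqueness** at a simple zero. -/
theorem isLift_unique (v : Place (Res A) (KM A M)) (hv : 0 ≤ v.ord (jK A M)) {a : Res A}
    (hva : 0 < v.ord (jK A M - algebraMap (Res A) (KM A M) a)) (hna : a ^ (p * p) ≠ a)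
    (hclear : ∀ z, RegOff (K := Res A) (jK A M) z → z ∈ FF.ordGe v 1 →
      ∃ t u : KM A M, RegOff (K := Res A) (jK A M) t ∧ RegOff (K := Res A) (jK A M) u ∧
        t ∉ FF.ordGe v 1 ∧ t * z = (jK A M - algebraMap (Res A) (KM A M) a) * u)
    (c : A) (hc : IsLocalRing.residue A c = a) {s s' : Bint A M p h.hqM →+* QBar}
    (hs : IsLift h ((valAt v hv).comp (comp0 h)) c s)
    (hs' : IsLift h ((valAt v hv).comp (comp0 h)) c s') : s = s' := by
  classical
  set jR := comp0 h (upJ A M p h.hqM) with hjR
  have hjv : valAt v hv jR = a := by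
    rw [valAt_eq_iff, hjR, comp0_upJ]
    refine FF.mem_ordGe_of_le v ?_
    show (1 : ℤ) ≤ v.ord (jK A M - algebraMap (Res A) (KM A M) a)
    omega
  obtain ⟨d, g, hg⟩ := exists_generators h
  refine eq_of_contraction (constB A M p h.hqM) (upJ A M p h.hqM) g hg hs.mem
    (fun b => (hs.const b).trans (hs'.const b).symm) (hs.at_j.trans hs'.at_j.symm) fun x => ?_
  -- the contraction
  set x' := x - constB A M p h.hqM ⟨s x, hs.mem x⟩ with hx'
  have hz : (comp0 h x' : KM A M) ∈ FF.ordGe v 1 := by
    have h1 : valAt v hv (comp0 h x') = 0 := by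
      rw [hx', (comp0 h).map_sub, (valAt v hv).map_sub, comp0_constB, valAt_algebraMap, sub_eq_zero]
      exact (hs.res x).symm
    simpa using (valAt_eq_iff _ _).mp h1
  obtain ⟨t, u, ht, hu, htv, htu⟩ := hclear _ (regOff_Rk _) hz
  set tR : Rk A M := ⟨t, mem_Rk_of_regOff ht⟩ with htR
  set uR : Rk A M := ⟨u, mem_Rk_of_regOff hu⟩ with huR
  obtain ⟨T, hT⟩ := exists_side_lift h tR
  obtain ⟨U, hU⟩ := exists_side_lift h uR
  set ε := jR - jR ^ (p * p) with hε
  set w := T * x' - (upJ A M p h.hqM - constB A M p h.hqM c) * U with hw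
  have hrel : tR * comp0 h x' = (jR - algebraMap (Res A) (Rk A M) a) * uR := Subtype.ext (by
    rw [hjR, comp0_upJ]
    exact htu)
  have hcT : comp0 h T = ε * tR := serR_injective (by rw [serR_comp0, hT]; rfl)
  have hcU : comp0 h U = ε * uR := serR_injective (by rw [serR_comp0, hU]; rfl)
  have hw0 : rho A M p h.hqM w = 0 := by
    funext i
    fin_cases i
    · show rho A M p h.hqM w 0 = 0
      rw [← serR_comp0 h, hw, (comp0 h).map_sub, (comp0 h).map_mul, (comp0 h).map_mul,
        (comp0 h).map_sub (upJ A M p h.hqM) (constB A M p h.hqM c), comp0_constB h c, hc, hcT,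
        hcU, ← hjR, mul_assoc, hrel, mul_left_comm, sub_self, RingHom.map_zero]
    · show rho A M p h.hqM w 1 = 0
      rw [hw, (rho A M p h.hqM).map_sub, (rho A M p h.hqM).map_mul, (rho A M p h.hqM).map_mul,
        Pi.sub_apply, Pi.mul_apply, Pi.mul_apply, hT, hU]
      simp only [Matrix.cons_val_one, Matrix.cons_val_fin_one, zero_mul, mul_zero, sub_zero]
  obtain ⟨π, hπ, y, hy⟩ := exists_eq_const_mul h.hA (iota2_fracS M p h.hqM) _ hw0
  obtain ⟨yB, hyB⟩ : ∃ yB : Bint A M p h.hqM, w = constB A M p h.hqM π * yB := by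
    obtain ⟨n, hn⟩ := w.2.2
    have hyw : (w : FB (p * M)) = algebraMap QBar _ (π : QBar) * (y : FB (p * M)) :=
      congrArg Subtype.val hy
    by_cases hπ0 : (π : QBar) = 0
    · refine ⟨0, Subtype.ext ?_⟩
      rw [hyw, hπ0, map_zero, zero_mul, mul_zero]
      rfl
    · refine ⟨⟨y, y.2, n, ?_⟩, Subtype.ext hyw⟩
      rw [eq_inv_smul hπ0 hyw]
      exact Submodule.smul_mem _ _ hn
  have hunit : A.valuation (s' T) = 1 := by
    have h1 : IsLocalRing.residue A ⟨s' T, hs'.mem T⟩ ≠ 0 := by
      rw [hs'.res, RingHom.comp_apply, hcT, (valAt v hv).map_mul, mul_ne_zero_iff, hε,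
        (valAt v hv).map_sub, (valAt v hv).map_pow, hjv]
      refine ⟨sub_ne_zero.mpr (Ne.symm hna), fun h0 => htv ?_⟩
      simpa using (valAt_eq_iff _ _).mp h0
    refine le_antisymm ((A.valuation_le_one_iff _).mpr (hs'.mem T)) (not_lt.mp fun hlt => ?_)
    exact h1 ((Semistable.residue_eq_zero_iff (hs'.mem T)).mpr
      ((ValuationSubring.mem_nonunits_iff A).mpr hlt))
  exact ⟨π, hπ, yB, valuation_sub_eq (constB A M p h.hqM) hs.const hs'.const hs.at_j hs'.at_j
    rfl hunit hyB⟩

end Fermat.Agent.OrdinaryAtP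

end
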