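import Fermat.Agent.OrdinaryAtP.Points

/-!
# Points of the ring localised at elements of reduction one

The functions `a / b` with `b` of reduction one form a ring to which every point extends.
-/

set_option autoImplicit false
set_option synthInstance.maxHeartbeats 400000
set_option maxHeartbeats 1000000
set_option linter.unusedSectionVars false

noncomputable section

namespace Fermat.Agent.OrdinaryAtP

open ModularCurve AlgebraicCurve Semistable
open Arith (QBar GQ)
open scoped Pointwise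

variable {A : ValuationSubring QBar} {M p : ℕ} [NeZero M] [hp : Fact p.Prime] {hpM : ¬ p ∣ M}

variable (A M p hpM) in
/-- The localised ring. -/
def Bloc : Subring (FB (p * M)) where
  carrier := {x | ∃ b a : Bint A M p hpM, rho A M p hpM b = 1 ∧ (b : FB (p * M)) * x = a}
  one_mem' := ⟨1, 1, map_one _, mul_one _⟩
  zero_mem' := ⟨1, 0, map_one _, mul_zero _⟩
  mul_mem' := by
    rintro x y ⟨b, a, hb, e⟩ ⟨b', a', hb', e'⟩
    refine ⟨b * b', a * a', by rw [map_mul, hb, hb', one_mul], ?_⟩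
    rw [Subring.coe_mul, Subring.coe_mul, ← e, ← e']
    ring
  add_mem' := by
    rintro x y ⟨b, a, hb, e⟩ ⟨b', a', hb', e'⟩
    refine ⟨b * b', a * b' + b * a', by rw [map_mul, hb, hb', one_mul], ?_⟩
    push_cast
    rw [← e, ← e']
    ring
  neg_mem' := by
    rintro x ⟨b, a, hb, e⟩
    exact ⟨b, -a, hb, by rw [mul_neg, e]; rfl⟩

theorem coe_mem_Bloc (x : Bint A M p hpM) : (x : FB (p * M)) ∈ Bloc A M p hpM :=
  ⟨1, x, map_one _, one_mul _⟩

/-- The inclusion. -/
def toBloc : Bint A M p hpM →+* Bloc A M p hpM :=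
  Subring.inclusion fun x hx => coe_mem_Bloc ⟨x, hx⟩

theorem galF_mem_Bloc [CharP (Res A) p] (τ : A.inertiaSubgroupIn ℚ) {x : FB (p * M)}
    (hx : x ∈ Bloc A M p hpM) : galF (p * M) (τ : GQ) x ∈ Bloc A M p hpM := by
  obtain ⟨b, a, hb, e⟩ := hx
  refine ⟨galB A M p hpM τ b, galB A M p hpM τ a, by rw [rho_galB, hb], ?_⟩
  rw [coe_galB, coe_galB, ← e, map_mul]

/-- Roots stay in the localised ring. -/
theorem mem_Bloc_of_pow {g : FB (p * M)} (hg : g ∈ loc2 A (iota2 M p hpM)) {k : ℕ} (hk : k ≠ 0)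
    (hgk : g ^ k ∈ Bloc A M p hpM) : g ∈ Bloc A M p hpM := by
  obtain ⟨b, a, hb, e⟩ := hgk
  have hN : 0 < p * M := Nat.mul_pos hp.out.pos (Nat.pos_of_ne_zero (NeZero.ne M))
  obtain ⟨j, rfl⟩ : ∃ j, k = j + 1 := ⟨k - 1, by omega⟩
  obtain ⟨n, hn⟩ := (b ^ j * a).2.2
  refine ⟨b, ⟨(b : FB (p * M)) * g, mul_mem b.2.1 hg, n,
    root_mem_polesSpace j.succ_ne_zero (RedTorsion.polesSpace_mono
      (Nat.le_mul_of_pos_left n j.succ_pos) ?_)⟩, hb, rfl⟩
  rw [mul_pow, pow_succ (b : FB (p * M)), mul_assoc, e]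
  push_cast at hn
  exact hn

variable [CharP (Res A) p]

/-- The units with both reductions one. -/
def unitGrp (A : ValuationSubring QBar) (M p : ℕ) [NeZero M] [Fact p.Prime] [CharP (Res A) p]
    (hpM : ¬ p ∣ M) : Subgroup (FB (p * M))ˣ where
  carrier := {f | (f : FB (p * M)) ∈ Bloc A M p hpM ∧ HasUnitRed A M p hpM (f : FB (p * M))}
  one_mem' := ⟨one_mem _, hasUnitRed_one hpM⟩
  mul_mem' := fun hf hg => ⟨mul_mem hf.1 hg.1, hf.2.mul hpM hg.2⟩
  inv_mem' := by
    rintro f ⟨⟨b, a, hb, e⟩, hf⟩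
    refine ⟨⟨a, b, ?_, ?_⟩, by rw [Units.val_inv_eq_inv_val]; exact hf.inv hpM⟩
    · have h1 : (⟨(a : FB (p * M)), a.2.1⟩ : loc2 A (iota2 M p hpM)) =
          ⟨(b : FB (p * M)), b.2.1⟩ * ⟨(f : FB (p * M)), hf.1⟩ := Subtype.ext e.symm
      rw [rho_apply, h1, map_mul, hf.2, mul_one, ← rho_apply]
      exact hb
    · rw [← e, mul_assoc, Units.mul_inv, mul_one]

theorem mem_unitGrp {f : (FB (p * M))ˣ} : f ∈ unitGrp A M p hpM ↔
    (f : FB (p * M)) ∈ Bloc A M p hpM ∧ HasUnitRed A M p hpM (f : FB (p * M)) := Iff.rfl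

theorem mem_unitGrp_of_pow (hA : A.LiesOverPrime p) {g : (FB (p * M))ˣ}
    (h : g ^ p ∈ unitGrp A M p hpM) : g ∈ unitGrp A M p hpM := by
  obtain ⟨h1, h2⟩ := mem_unitGrp.mp h
  rw [Units.val_pow_eq_pow_val] at h1 h2
  have hg : HasUnitRed A M p hpM (g : FB (p * M)) :=
    hasUnitRed_of_pow hA 1 (by rwa [pow_one])
  exact ⟨mem_Bloc_of_pow hg.1 hp.out.ne_zero h1, hg⟩

namespace Points

variable {n : ℕ} (P : Points A M p hpM n)

theorem residue_eq_of_rho {x y : Bint A M p hpM} (h : rho A M p hpM x = rho A M p hpM y)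
    (i : Fin P.d) : IsLocalRing.residue A (⟨P.s i x, P.mem i x⟩ : A) =
      IsLocalRing.residue A ⟨P.s i y, P.mem i y⟩ := by
  refine Arith.residue_eq_iff.mpr ?_
  show P.s i x - P.s i y ∈ A.nonunits
  rw [← map_sub]
  exact P.cong i _ (by rw [map_sub, h, sub_self])

theorem residue_of_rho_eq_one {b : Bint A M p hpM} (hb : rho A M p hpM b = 1) (i : Fin P.d) :
    IsLocalRing.residue A (⟨P.s i b, P.mem i b⟩ : A) = 1 := by
  rw [P.residue_eq_of_rho (y := 1) (hb.trans (map_one _).symm) i,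
    show (⟨P.s i 1, P.mem i 1⟩ : A) = 1 from Subtype.ext (map_one _), map_one]

theorem ne_zero_of_rho_eq_one {b : Bint A M p hpM} (hb : rho A M p hpM b = 1) (i : Fin P.d) :
    P.s i b ≠ 0 := fun h0 => by
  have := P.residue_of_rho_eq_one hb i
  rw [show (⟨P.s i b, P.mem i b⟩ : A) = 0 from Subtype.ext h0, map_zero] at this
  exact zero_ne_one this

theorem div_well_defined {x : FB (p * M)} {b a b' a' : Bint A M p hpM}
    (hb : rho A M p hpM b = 1) (e : (b : FB (p * M)) * x = a)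
    (hb' : rho A M p hpM b' = 1) (e' : (b' : FB (p * M)) * x = a') (i : Fin P.d) :
    P.s i a / P.s i b = P.s i a' / P.s i b' := by
  rw [div_eq_div_iff (P.ne_zero_of_rho_eq_one hb i) (P.ne_zero_of_rho_eq_one hb' i), ← map_mul,
    ← map_mul]
  refine congrArg (P.s i) (Subtype.ext ?_)
  push_cast
  rw [← e, ← e']
  ring

/-- The extension of a point. -/
def ext (i : Fin P.d) : Bloc A M p hpM →+* QBar where
  toFun x := P.s i x.2.choose_spec.choose / P.s i x.2.choose
  map_one' := by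
    obtain ⟨hb, e⟩ := (1 : Bloc A M p hpM).2.choose_spec.choose_spec
    rw [P.div_well_defined hb e (map_one (rho A M p hpM)) (one_mul _) i (a' := 1), map_one,
      div_one]
  map_zero' := by
    obtain ⟨hb, e⟩ := (0 : Bloc A M p hpM).2.choose_spec.choose_spec
    rw [P.div_well_defined hb e (map_one (rho A M p hpM)) (mul_zero _) i (a' := 0), map_zero,
      zero_div]
  map_mul' x y := by
    obtain ⟨hb, e⟩ := x.2.choose_spec.choose_spec
    obtain ⟨hb', e'⟩ := y.2.choose_spec.choose_spec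
    obtain ⟨hb'', e''⟩ := (x * y).2.choose_spec.choose_spec
    rw [P.div_well_defined hb'' e'' (b' := x.2.choose * y.2.choose)
      (a' := x.2.choose_spec.choose * y.2.choose_spec.choose) (by rw [map_mul, hb, hb', one_mul])
      (by push_cast; linear_combination (y.2.choose : FB (p * M)) * (y : FB (p * M)) * e +
        (x.2.choose_spec.choose : FB (p * M)) * e') i, map_mul, map_mul, div_mul_div_comm]
  map_add' x y := by
    obtain ⟨hb, e⟩ := x.2.choose_spec.choose_spec
    obtain ⟨hb', e'⟩ := y.2.choose_spec.choose_spec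
    obtain ⟨hb'', e''⟩ := (x + y).2.choose_spec.choose_spec
    rw [P.div_well_defined hb'' e'' (b' := x.2.choose * y.2.choose)
      (a' := x.2.choose_spec.choose * y.2.choose + x.2.choose * y.2.choose_spec.choose)
      (by rw [map_mul, hb, hb', one_mul])
      (by push_cast; linear_combination (y.2.choose : FB (p * M)) * e +
        (x.2.choose : FB (p * M)) * e') i, map_add, map_mul, map_mul, map_mul,
      div_add_div _ _ (P.ne_zero_of_rho_eq_one hb i) (P.ne_zero_of_rho_eq_one hb' i)]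

theorem ext_eq_div (i : Fin P.d) (x : Bloc A M p hpM) {b a : Bint A M p hpM}
    (hb : rho A M p hpM b = 1) (e : (b : FB (p * M)) * x = a) :
    P.ext i x = P.s i a / P.s i b :=
  P.div_well_defined x.2.choose_spec.choose_spec.1 x.2.choose_spec.choose_spec.2 hb e i

theorem ext_toBloc (i : Fin P.d) (x : Bint A M p hpM) : P.ext i (toBloc x) = P.s i x := by
  rw [P.ext_eq_div i (toBloc x) (map_one _) (one_mul _) (a := x), map_one, div_one]

theorem ext_const (i : Fin P.d) (c : A) :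
    P.ext i (toBloc (constB A M p hpM c)) = (c : QBar) := by rw [P.ext_toBloc, P.const]

theorem ext_mem (i : Fin P.d) (x : Bloc A M p hpM) : P.ext i x ∈ A := by
  obtain ⟨b, a, hb, e⟩ := x.2
  rw [P.ext_eq_div i x hb e]
  have hne : (⟨P.s i b, P.mem i b⟩ : A) ∉ IsLocalRing.maximalIdeal A := fun h => by
    have h1 := P.residue_of_rho_eq_one hb i
    rw [(IsLocalRing.residue_eq_zero_iff _).mpr h] at h1
    exact zero_ne_one h1
  obtain ⟨u, hu⟩ := IsLocalRing.notMem_maximalIdeal.mp hne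
  have : P.s i a / P.s i b = P.s i a * ((↑(u⁻¹) : A) : QBar) := by
    rw [div_eq_mul_inv]
    congr 1
    refine inv_eq_of_mul_eq_one_right ?_
    rw [show P.s i b = ((u : A) : QBar) from (congrArg Subtype.val hu).symm, ← MulMemClass.coe_mul,
      Units.mul_inv]
    rfl
  rw [this]
  exact mul_mem (P.mem i a) (SetLike.coe_mem _)

/-- The residue of the value is determined by the reductions. -/
theorem residue_ext (i : Fin P.d) (x : Bloc A M p hpM) (hx : (x : FB (p * M)) ∈
      loc2 A (iota2 M p hpM)) {u : Bint A M p hpM}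
    (hu : red2 A (iota2 M p hpM) ⟨(x : FB (p * M)), hx⟩ = rho A M p hpM u) :
    IsLocalRing.residue A (⟨P.ext i x, P.ext_mem i x⟩ : A) =
      IsLocalRing.residue A ⟨P.s i u, P.mem i u⟩ := by
  obtain ⟨b, a, hb, e⟩ := x.2
  have ha : rho A M p hpM a = rho A M p hpM u := by
    rw [← hu, rho_apply]
    have h1 : (⟨(a : FB (p * M)), a.2.1⟩ : loc2 A (iota2 M p hpM)) =
        ⟨(b : FB (p * M)), b.2.1⟩ * ⟨(x : FB (p * M)), hx⟩ := Subtype.ext e.symm
    rw [h1, map_mul, ← rho_apply, hb, one_mul]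
  have h2 : (⟨P.s i a, P.mem i a⟩ : A) =
      ⟨P.s i b, P.mem i b⟩ * ⟨P.ext i x, P.ext_mem i x⟩ := Subtype.ext (by
    show P.s i a = P.s i b * P.ext i x
    rw [P.ext_eq_div i x hb e, mul_div_cancel₀ _ (P.ne_zero_of_rho_eq_one hb i)])
  have h3 := congrArg (IsLocalRing.residue A) h2
  rwa [map_mul, P.residue_of_rho_eq_one hb, one_mul, P.residue_eq_of_rho ha, eq_comm] at h3

theorem ext_galois (i : Fin P.d) (τ : A.inertiaSubgroupIn ℚ) (x : Bloc A M p hpM) :
    P.ext i ⟨galF (p * M) (τ : GQ) x, galF_mem_Bloc τ x.2⟩ = (τ : GQ) (P.ext i x) := by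
  obtain ⟨b, a, hb, e⟩ := x.2
  rw [P.ext_eq_div i x hb e, P.ext_eq_div i _ (b := galB A M p hpM τ b)
    (a := galB A M p hpM τ a) (by rw [rho_galB, hb]) (by
      rw [coe_galB, coe_galB]
      exact (map_mul (galF (p * M) (τ : GQ)) (b : FB (p * M)) (x : FB (p * M))).symm.trans
        (congrArg (galF (p * M) (τ : GQ)) e)), P.galois, P.galois, map_div₀]

/-- The values on a unit. -/
theorem ext_ne_zero (i : Fin P.d) {f : (FB (p * M))ˣ} (hf : f ∈ unitGrp A M p hpM) :
    P.ext i ⟨f, hf.1⟩ ≠ 0 := by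
  intro h0
  have h1 := P.residue_ext i ⟨f, hf.1⟩ hf.2.1 (u := 1) (by rw [map_one]; exact hf.2.2)
  rw [show (⟨P.ext i ⟨f, hf.1⟩, P.ext_mem i _⟩ : A) = 0 from Subtype.ext h0, map_zero,
    show (⟨P.s i 1, P.mem i 1⟩ : A) = 1 from Subtype.ext (map_one _), map_one] at h1
  exact zero_ne_one h1

end Points

end Fermat.Agent.OrdinaryAtP

end
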