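import Fermat.Agent.OrdinaryAtP.Lifts
import Fermat.Agent.Arith.RootsOfUnity
import Fermat.Agent.RedTorsion.JLine

/-!
# Finitely many equivariant points separating reductions in bounded degree
-/

set_option autoImplicit false
set_option synthInstance.maxHeartbeats 400000
set_option maxHeartbeats 1000000
set_option linter.unusedSectionVars false
set_option linter.style.haveILetI false

noncomputable section

namespace Fermat.Agent.OrdinaryAtP

open ModularCurve AlgebraicCurve Polynomial Semistable
open Arith (QBar GQ)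
open scoped Pointwise IntermediateField

variable {A : ValuationSubring QBar} {M p : ℕ} [NeZero M] [hp : Fact p.Prime]

variable (A M p) in
/-- Inertia equivariant points of the integral ring separating reductions in degree `n`. -/
structure Points (hpM : ¬ p ∣ M) [CharP (Res A) p] (n : ℕ) where
  /-- The number of points. -/
  d : ℕ
  /-- The points. -/
  s : Fin d → Bint A M p hpM →+* QBar
  mem : ∀ i x, s i x ∈ A
  const : ∀ i (b : A), s i (constB A M p hpM b) = b
  galois : ∀ i (τ : A.inertiaSubgroupIn ℚ) x, s i (galB A M p hpM τ x) = (τ : GQ) (s i x)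
  cong : ∀ i x, rho A M p hpM x = 0 → s i x ∈ A.nonunits
  sep : ∀ x : Bint A M p hpM, (x : FB (p * M)) ∈ HN M p n → (∀ i, s i x ∈ A.nonunits) →
    rho A M p hpM x = 0

variable [CharP (Res A) p] [FF.IsFunctionField (Res A) (KM A M)] (h : Setup A M p)
include h

/-- The point moved by inertia. -/
theorem isLift_conj {χ : Bint A M p h.hqM →+* Res A}
    (hfac : ∀ x y, rho A M p h.hqM x = rho A M p h.hqM y → χ x = χ y) {c : fixRing A}
    {s : Bint A M p h.hqM →+* QBar} (hs : IsLift h χ c s) (τ : A.inertiaSubgroupIn ℚ) :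
    IsLift h χ c (((τ : GQ) : QBar →+* QBar).comp (s.comp (galB A M p h.hqM τ⁻¹))) := by
  have hτ := resLift_of_inertia τ.2
  refine ⟨fun x => hτ.mem _ (hs.mem _), fun b => ?_, ?_, fun x => ?_⟩
  · simp only [RingHom.comp_apply, galB_constB, hs.const, RingHom.coe_coe, Subgroup.coe_inv]
    exact AlgEquiv.apply_symm_apply (τ : GQ) (b : QBar)
  · simp only [RingHom.comp_apply, galB_upJ, hs.at_j, RingHom.coe_coe]
    exact fixed_apply c τ.2
  · simp only [RingHom.comp_apply, RingHom.coe_coe]
    rw [hτ.residue_eq _ (hs.mem _), RingHom.id_apply, hs.res]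
    exact hfac _ _ (rho_galB _ _)

theorem separable_jK :
    Algebra.IsSeparable (Res A)⟮jK A M⟯ (KM A M) ∧
      FiniteDimensional (Res A)⟮jK A M⟯ (KM A M) := by
  have := Arith.residueField_isAlgClosed A
  exact ⟨RedTorsion.isSeparable_jF (K := Res A) (N := M) (F := KM A M) rfl h.hM,
    RedTorsion.finiteDimensional_jF (K := Res A) (N := M) (F := KM A M) rfl h.hM⟩

/-- The exceptional values: at the others the point over a fixed lift exists and is unique. -/
theorem exists_good_lifts : ∃ bad : Finset (Res A), ∀ a ∉ bad,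
    ∃ (v : Place (Res A) (KM A M)) (s : Bint A M p h.hqM →+* QBar),
      0 < v.ord (jK A M - algebraMap (Res A) (KM A M) a) ∧ 0 ≤ v.ord (jK A M) ∧
      (∀ x, s x ∈ A) ∧ (∀ b : A, s (constB A M p h.hqM b) = b) ∧
      (∀ (τ : A.inertiaSubgroupIn ℚ) x, s (galB A M p h.hqM τ x) = (τ : GQ) (s x)) ∧
      (∀ x, s x ∈ A.nonunits ↔ (comp0 h x : KM A M) ∈ FF.ordGe v 1) := by
  classical
  have := Arith.residueField_isAlgClosed A
  obtain ⟨hsep, hfin⟩ := separable_jK h
  obtain ⟨bad, hbad⟩ := exists_simple_zero (K := Res A) (jK_transcendental A M)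
  have hne : (X ^ (p * p) - X : (Res A)[X]) ≠ 0 :=
    FiniteField.X_pow_card_sub_X_ne_zero (Res A) (Nat.one_lt_mul_iff.mpr
      ⟨hp.out.pos, hp.out.pos, Or.inl hp.out.one_lt⟩)
  refine ⟨bad ∪ (X ^ (p * p) - X : (Res A)[X]).roots.toFinset, fun a ha => ?_⟩
  rw [Finset.mem_union, not_or, Multiset.mem_toFinset, mem_roots hne, IsRoot, eval_sub, eval_pow,
    eval_X, sub_eq_zero] at ha
  obtain ⟨v, hva, hv, hclear⟩ := hbad a ha.1
  obtain ⟨c, rfl⟩ := resW_surjective h.hA hp.out a
  have hχJ : ((valAt v hv).comp (comp0 h)) (upJ A M p h.hqM) =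
      IsLocalRing.residue A (fixToPlace A c) := by
    rw [RingHom.comp_apply, valAt_eq_iff, comp0_upJ]
    refine FF.mem_ordGe_of_le v ?_
    show (1 : ℤ) ≤ v.ord (jK A M - algebraMap (Res A) (KM A M) (resW A c))
    omega
  obtain ⟨s, hs⟩ := exists_isLift h (fixToPlace A c)
    (fun b => by rw [RingHom.comp_apply, comp0_constB, valAt_algebraMap]) hχJ
  have hfac : ∀ x y, rho A M p h.hqM x = rho A M p h.hqM y →
      ((valAt v hv).comp (comp0 h)) x = ((valAt v hv).comp (comp0 h)) y := fun x y e => by
    rw [RingHom.comp_apply, RingHom.comp_apply,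
      serR_injective (a₁ := comp0 h x) (a₂ := comp0 h y) (by rw [serR_comp0, serR_comp0, e])]
  refine ⟨v, s, hva, hv, hs.mem, hs.const, fun τ x => ?_, fun x => ?_⟩
  · have huniq := isLift_unique h v hv hva ha.2 hclear (fixToPlace A c) rfl hs
      (isLift_conj h hfac (c := c) hs τ)
    have := RingHom.congr_fun huniq (galB A M p h.hqM τ x)
    rwa [RingHom.comp_apply, RingHom.comp_apply, galB_mul, inv_mul_cancel, galB_one] at this
  · rw [← Semistable.residue_eq_zero_iff (hs.mem x), hs.res, RingHom.comp_apply, valAt_eq_iff,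
      map_zero, sub_zero]

/-- **Points**: for every degree there are separating equivariant points. -/
theorem exists_points (n : ℕ) : Nonempty (Points A M p h.hqM n) := by
  classical
  have := Arith.residueField_isAlgClosed A
  obtain ⟨hsep, hfin⟩ := separable_jK h
  obtain ⟨bad, hbad⟩ := exists_good_lifts h
  have hinf : ((bad : Set (Res A))ᶜ).Infinite := bad.finite_toSet.infinite_compl
  set D := p * n * Module.finrank (Res A)⟮jK A M⟯ (KM A M) + 1
  obtain ⟨T, hT, hTcard⟩ := hinf.exists_subset_card_eq D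
  choose v s hva hv hmem hconst hgal hres using fun a : T => hbad a.1 (hT a.2)
  have hvinj : Function.Injective v := fun a b e => by
    refine Subtype.ext (by_contra fun hab => ?_)
    have h2 := sub_mem (FF.mem_ordGe_of_le (v a) (show (1 : ℤ) ≤ _ from hva a))
      (e ▸ FF.mem_ordGe_of_le (v b) (show (1 : ℤ) ≤ _ from hva b))
    rw [sub_sub_sub_cancel_left, ← map_sub] at h2
    have h3 := FF.le_ord_of_mem_ordGe (v a)
      ((_root_.map_ne_zero _).mpr (sub_ne_zero.mpr (Ne.symm hab))) h2
    rw [FF.ord_algebraMap] at h3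
    omega
  have hzero : ∀ z : Rk A M, (z : KM A M) ∈ Hk A M (p * n) →
      (∀ a, (z : KM A M) ∈ FF.ordGe (v a) 1) → z = 0 := fun z hz hv' =>
    Subtype.ext (eq_zero_of_vanish (jK_transcendental A M) hz (Finset.univ.image v)
      (fun w hw => by
        obtain ⟨a, -, rfl⟩ := Finset.mem_image.mp hw
        exact ⟨hv a, hv' a⟩)
      (by
        rw [Finset.card_image_of_injective _ hvinj, Finset.card_univ, Fintype.card_coe, hTcard]
        omega))
  have hcong : ∀ a x, rho A M p h.hqM x = 0 → s a x ∈ A.nonunits := fun a x hx => by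
    rw [hres, serR_injective (a₁ := comp0 h x) (a₂ := 0) (by rw [serR_comp0, hx, map_zero]; rfl)]
    exact zero_mem _
  let e := Fintype.equivFin (T ⊕ T)
  let pts : T ⊕ T → Bint A M p h.hqM →+* QBar := Sum.elim s fun a => (s a).comp (wB h)
  refine ⟨⟨_, fun i => pts (e.symm i), fun i x => ?_, fun i b => ?_, fun i τ x => ?_,
    fun i x hx => ?_, fun x hx hall => ?_⟩⟩
  · rcases hi : e.symm i with a | a <;> simp only [pts, Sum.elim_inl, Sum.elim_inr]
    · exact hmem a x
    · exact hmem a _
  · rcases hi : e.symm i with a | a <;> simp only [pts, Sum.elim_inl, Sum.elim_inr]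
    · exact hconst a b
    · rw [RingHom.comp_apply, wB_constB, hconst]
  · rcases hi : e.symm i with a | a <;> simp only [pts, Sum.elim_inl, Sum.elim_inr]
    · exact hgal a τ x
    · rw [RingHom.comp_apply, RingHom.comp_apply, wB_galB, hgal]
  · rcases hi : e.symm i with a | a <;> simp only [pts, Sum.elim_inl, Sum.elim_inr]
    · exact hcong a x hx
    · refine hcong a _ ?_
      rw [rho_wB, hx]
      funext j
      fin_cases j <;> rfl
  · have hall' : ∀ k, pts k x ∈ A.nonunits := fun k => by simpa using hall (e k)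
    have hwx : (wB h x : FB (p * M)) ∈ HN M p (p * n) := by
      rw [coe_wB]
      exact wEquiv_mem_HN M p h.hqM hx
    have hx' : (x : FB (p * M)) ∈ HN M p (p * n) :=
      RedTorsion.polesSpace_mono (Nat.le_mul_of_pos_left n hp.out.pos) hx
    have h0 := hzero _ (comp0_mem_Hk h hx') fun a => (hres a x).mp (hall' (Sum.inl a))
    have h1 : comp0 h (wB h x) = 0 := by
      obtain ⟨z, hz⟩ := exists_serR_rho h x 1
      obtain ⟨hb0, hb1⟩ :=
        (mem_Pk A M).mp (red2_mem_Pk M p h.hqM h.hA h.hM (x := ⟨x, x.2.1⟩) hx)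
      refine hzero _ (coe_mem_HkS.mp ?_) fun a => (hres a _).mp (hall' (Sum.inr a))
      rw [show ((comp0 h (wB h x) : KM A M) : LaurentSeries (Res A)) =
        serR A M (comp0 h (wB h x)) from rfl, serR_comp0, rho_wB]
      exact hb1
    funext j
    fin_cases j
    · show rho A M p h.hqM x 0 = 0
      rw [← serR_comp0 h, h0, map_zero]
    · show rho A M p h.hqM x 1 = 0
      have := serR_comp0 h (wB h x)
      rw [h1, map_zero, rho_wB] at this
      exact this.symm

end Fermat.Agent.OrdinaryAtP

end
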