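import Fermat.Agent.OrdinaryAtP.Basic
import Fermat.Agent.RT.Mazur.Scale
import Fermat.Agent.Semistable.Classes

/-!
# The integral ring of functions regular off the cusps at level `p M`

Functions integral at both Gauss valuations with poles only at the cusps, their reductions, and
the descent of unit reductions along `p`-power maps.
-/

set_option autoImplicit false
set_option synthInstance.maxHeartbeats 400000
set_option linter.unusedSectionVars false

noncomputable section

namespace Fermat.Agent.OrdinaryAtP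

open ModularCurve AlgebraicCurve Polynomial Semistable
open Arith (QBar GQ)
open scoped Pointwise

variable {A : ValuationSubring QBar} {M p : ℕ} [NeZero M] [hp : Fact p.Prime]

section Generic

variable {F : Type*} [Field F] [Algebra QBar F] {S : Type*} {ι : S → (F →ₐ[QBar] LSer)}

theorem red2_const_mul (c : A) (x : loc2 A ι) :
    red2 A ι (⟨_, algebraMap_mem_loc2 ι c.2⟩ * x) = IsLocalRing.residue A c • red2 A ι x := by
  funext s
  rw [map_mul, Pi.mul_apply, red2_const ι s, Pi.smul_apply, Igusa.hsmul_eq]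

/-- Coordinates with respect to lifts of independent reductions are integral. -/
theorem exists_int_coords {κ : Type*} [Fintype κ] (g : κ → loc2 A ι)
    (hg : LinearIndependent (Res A) fun a => red2 A ι (g a)) (x : loc2 A ι)
    (hx : (x : F) ∈ Submodule.span QBar (Set.range fun a => (g a : F))) :
    ∃ c : κ → A, x = ∑ a, ⟨_, algebraMap_mem_loc2 ι (c a).2⟩ * g a := by
  classical
  obtain ⟨c, hc⟩ := (Submodule.mem_span_range_iff_exists_fun QBar).mp hx
  suffices h : ∀ a, c a ∈ A by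
    refine ⟨fun a => ⟨c a, h a⟩, Subtype.ext ?_⟩
    push_cast
    rw [← hc]
    exact Finset.sum_congr rfl fun a _ => Algebra.smul_def _ _
  by_contra hbad
  rw [not_forall] at hbad
  obtain ⟨a₀, ha₀⟩ := hbad
  obtain ⟨a₁, -, hmax⟩ := Finset.univ.exists_max_image (fun a => A.valuation (c a))
    ⟨a₀, Finset.mem_univ _⟩
  have hlt : 1 < A.valuation (c a₁) :=
    (not_le.mp fun h => ha₀ ((A.valuation_le_one_iff _).mp h)).trans_le (hmax a₀ (Finset.mem_univ _))
  have hc1 : c a₁ ≠ 0 := fun h => by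
    rw [h, map_zero] at hlt
    exact absurd hlt (not_lt.mpr zero_le)
  have hd : ∀ a, c a / c a₁ ∈ A := fun a => by
    rw [← A.valuation_le_one_iff, map_div₀,
      div_le_one₀ (zero_lt_iff.mpr ((Valuation.ne_zero_iff _).mpr hc1))]
    exact hmax a (Finset.mem_univ a)
  have hinv : (c a₁)⁻¹ ∈ A.nonunits := by
    rw [ValuationSubring.mem_nonunits_iff, map_inv₀]
    exact inv_lt_one_of_one_lt₀ hlt
  have hinvA := Arith.mem_of_mem_nonunits hinv
  have e : (⟨_, algebraMap_mem_loc2 ι hinvA⟩ : loc2 A ι) * x =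
      ∑ a, ⟨_, algebraMap_mem_loc2 ι (hd a)⟩ * g a := Subtype.ext (by
    simp only [MulMemClass.coe_mul, AddSubmonoidClass.coe_finsetSum]
    rw [← hc, Finset.mul_sum]
    refine Finset.sum_congr rfl fun a _ => ?_
    rw [Algebra.smul_def, ← mul_assoc, ← map_mul, inv_mul_eq_div])
  have h1 := congrArg (red2 A ι) e
  rw [map_sum, red2_const_mul ⟨_, hinvA⟩, (Semistable.residue_eq_zero_iff hinvA).mpr hinv,
    zero_smul] at h1
  have h2 : ∑ a, IsLocalRing.residue A (⟨_, hd a⟩ : A) • red2 A ι (g a) = 0 := by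
    rw [h1]
    exact Finset.sum_congr rfl fun a _ => (red2_const_mul _ _).symm
  have h3 := Fintype.linearIndependent_iff.mp hg _ h2 a₁
  rw [show (⟨_, hd a₁⟩ : A) = 1 from Subtype.ext (div_self hc1), map_one] at h3
  exact one_ne_zero h3

/-- An integral element with zero reductions is divisible by a nonunit of `A`. -/
theorem exists_eq_const_mul (hA : A.LiesOverPrime p) [Finite S]
    (hfrac : ∀ s x, ι s x ∈ fracS A) (x : loc2 A ι) (hx : red2 A ι x = 0) :
    ∃ π : A, (π : QBar) ∈ A.nonunits ∧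
      ∃ y : loc2 A ι, x = ⟨_, algebraMap_mem_loc2 ι π.2⟩ * y := by
  classical
  rcases eq_or_ne (x : F) 0 with h0 | h0
  · refine ⟨0, ?_, 0, ?_⟩
    · rw [ZeroMemClass.coe_zero, ValuationSubring.mem_nonunits_iff, map_zero]
      exact zero_lt_one
    · rw [mul_zero]; exact Subtype.ext h0
  rcases isEmpty_or_nonempty S with hS | hS
  · refine ⟨(p : A), by rw [SubringClass.coe_natCast]; exact hA,
      ⟨(algebraMap QBar F (p : QBar))⁻¹ * x, (mem_loc2 ι).mpr fun s => hS.elim s⟩,
      Subtype.ext ?_⟩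
    show (x : F) = algebraMap QBar F ((p : A) : QBar) *
      ((algebraMap QBar F (p : QBar))⁻¹ * (x : F))
    rw [SubringClass.coe_natCast,
      mul_inv_cancel_left₀ ((_root_.map_ne_zero _).mpr (Nat.cast_ne_zero.mpr hp.out.ne_zero))]
  have hsc : ∀ s, ∃ c : QBar, c ≠ 0 ∧ ∃ h : algebraMap QBar LSer c * ι s (x : F) ∈ locS A,
      redL A ⟨_, h⟩ ≠ 0 := fun s =>
    exists_scale hA hp.out (hfrac s _) ((_root_.map_ne_zero (ι s)).mpr h0)
  choose c hc hcm hcr using hsc
  have := Fintype.ofFinite S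
  obtain ⟨s₁, -, hmin⟩ := Finset.univ.exists_min_image (fun s => A.valuation (c s))
    Finset.univ_nonempty
  have hcA : c s₁ ∉ A := fun h => hcr s₁ (by
    obtain ⟨h', e⟩ := redL_const_mul h ((mem_loc2 ι).mp x.2 s₁)
    rw [e, show redL A ⟨ι s₁ (x : F), (mem_loc2 ι).mp x.2 s₁⟩ = 0 from
      ((red2_apply ι x s₁).symm.trans (congrFun hx s₁)), mul_zero])
  have hinv : (c s₁)⁻¹ ∈ A.nonunits := by
    rcases Arith.eq_zero_or_mem_nonunits_or (A := A) (x := c s₁) with h | h
    · exact absurd h hcA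
    · exact h
  refine ⟨⟨_, Arith.mem_of_mem_nonunits hinv⟩, hinv,
    ⟨algebraMap QBar F (c s₁) * x, (mem_loc2 ι).mpr fun s => ?_⟩, Subtype.ext ?_⟩
  · rw [map_mul, AlgHom.commutes]
    have hr : c s₁ / c s ∈ A := by
      rw [← A.valuation_le_one_iff, map_div₀,
        div_le_one₀ (zero_lt_iff.mpr ((Valuation.ne_zero_iff _).mpr (hc s)))]
      exact hmin s (Finset.mem_univ s)
    have := mul_mem (algebraMap_mem_locS hr) (hcm s)
    rwa [← mul_assoc, ← map_mul, div_mul_cancel₀ _ (hc s)] at this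
  · show (x : F) = algebraMap QBar F (c s₁)⁻¹ * (algebraMap QBar F (c s₁) * (x : F))
    rw [← mul_assoc, ← map_mul, inv_mul_cancel₀ (hc s₁), map_one, one_mul]

end Generic

variable (A M p) in
/-- Functions integral at both Gauss valuations and regular away from the cusps. -/
def Bint (hpM : ¬ p ∣ M) : Subring (FB (p * M)) where
  carrier := {x | x ∈ loc2 A (iota2 M p hpM) ∧ ∃ n, x ∈ HN M p n}
  one_mem' := ⟨one_mem _, 0, one_mem_polesSpace _ _⟩
  mul_mem' := by
    rintro x y ⟨hx, a, ha⟩ ⟨hy, b, hb⟩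
    exact ⟨mul_mem hx hy, a + b, mul_mem_polesSpace ha hb⟩
  zero_mem' := ⟨zero_mem _, 0, zero_mem _⟩
  add_mem' := by
    rintro x y ⟨hx, a, ha⟩ ⟨hy, b, hb⟩
    exact ⟨add_mem hx hy, max a b, add_mem (RedTorsion.polesSpace_mono (le_max_left a b) ha)
      (RedTorsion.polesSpace_mono (le_max_right a b) hb)⟩
  neg_mem' := by
    rintro x ⟨hx, a, ha⟩
    exact ⟨neg_mem hx, a, neg_mem ha⟩

variable {hpM : ¬ p ∣ M}

variable (A M p hpM) in
/-- The reductions. -/
def rho : Bint A M p hpM →+* (Fin 2 → LaurentSeries (Res A)) :=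
  (red2 A (iota2 M p hpM)).comp (Subring.inclusion fun _ h => h.1)

theorem rho_apply (x : Bint A M p hpM) :
    rho A M p hpM x = red2 A (iota2 M p hpM) ⟨x, x.2.1⟩ := rfl

variable (A M p hpM) in
/-- The constants. -/
def constB : A →+* Bint A M p hpM :=
  ((algebraMap QBar (FB (p * M))).comp A.subtype).codRestrict _ fun c =>
    ⟨algebraMap_mem_loc2 _ c.2, 0, by
      show algebraMap QBar (FB (p * M)) c ∈ HN M p 0
      rw [Algebra.algebraMap_eq_smul_one]
      exact Submodule.smul_mem _ _ (one_mem_polesSpace _ _)⟩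

theorem coe_constB (c : A) :
    ((constB A M p hpM c : Bint A M p hpM) : FB (p * M)) = algebraMap QBar _ (c : QBar) := rfl

theorem rho_constB_mul (c : A) (x : Bint A M p hpM) :
    rho A M p hpM (constB A M p hpM c * x) = IsLocalRing.residue A c • rho A M p hpM x :=
  red2_const_mul c ⟨(x : FB (p * M)), x.2.1⟩

theorem jM_mem_HM : jM M ∈ HM M 1 :=
  RedTorsion.mem_polesSpace.mpr fun v => FF.mem_ordGe_of_le v (by
    rw [FF.poles_apply, Nat.cast_one, one_mul]
    omega)

variable (A M p hpM) in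
/-- `j` at level `p M`. -/
def upJ : Bint A M p hpM :=
  ⟨upF M p (jM M), upF_mem_loc2 M p hpM (jM_mem M), 1, upF_mem_HN M p jM_mem_HM⟩

variable (A M p hpM) in
/-- Polynomials in `j` with integral coefficients. -/
def polyJ : (A : Type)[X] →+* Bint A M p hpM := eval₂RingHom (constB A M p hpM) (upJ A M p hpM)

variable (A p) in
/-- The reductions of `j`. -/
def jvec : Fin 2 → LaurentSeries (Res A) := ![jqModC (Res A), jqModC (Res A) ^ p]

variable [CharP (Res A) p]

theorem rho_upJ : rho A M p hpM (upJ A M p hpM) = jvec A p := by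
  rw [rho_apply]
  refine (red2_upF M p hpM (⟨jM M, jM_mem M⟩ : loc2 A (iota1 M))).trans ?_
  rw [red1_jM, ← pow_eq_qExpand_gen_one]
  rfl

/-- A series with a `p`-power of reduction one has reduction one. -/
theorem redL_eq_one_of_pow (hA : A.LiesOverPrime p) (n : ℕ) {x : LSer} (hx : x ∈ fracS A)
    (hm : x ^ p ^ n ∈ locS A) (h1 : redL A ⟨x ^ p ^ n, hm⟩ = 1) :
    ∃ h : x ∈ locS A, redL A ⟨x, h⟩ = 1 := by
  have hpn : p ^ n ≠ 0 := pow_ne_zero _ hp.out.ne_zero
  rcases eq_or_ne x 0 with rfl | hx0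
  · exfalso
    have e : (⟨(0 : LSer) ^ p ^ n, hm⟩ : locS A) = 0 := Subtype.ext (zero_pow hpn)
    rw [e, map_zero] at h1
    exact zero_ne_one h1
  obtain ⟨c, hc, hcm, hcr⟩ := exists_scale hA hp.out hx hx0
  have hAL : ∀ a : QBar, a ∈ A → algebraMap QBar LSer a ∈ locS A := fun a => algebraMap_mem_locS
  have hsmall : ∀ (a : QBar) (ha : a ^ p ^ n ∈ A), a ∈ A.nonunits →
      redL A ⟨_, hAL _ ha⟩ = 0 := fun a ha han => by
    rw [redL_algebraMap ha, (Semistable.residue_eq_zero_iff ha).mpr, map_zero]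
    rw [ValuationSubring.mem_nonunits_iff, map_pow]
    exact pow_lt_one₀ zero_le ((ValuationSubring.mem_nonunits_iff A).mp han) hpn
  have hcA : c ∈ A := by
    by_contra hcA
    have hci : c⁻¹ ∈ A.nonunits :=
      (Arith.eq_zero_or_mem_nonunits_or (A := A) (x := c)).resolve_left hcA
    have hciA := pow_mem (Arith.mem_of_mem_nonunits hci) (p ^ n)
    have e : (⟨_, hAL _ hciA⟩ : locS A) * (⟨_, hcm⟩ : locS A) ^ p ^ n = ⟨x ^ p ^ n, hm⟩ :=
      Subtype.ext (by
        show algebraMap QBar LSer (c⁻¹ ^ p ^ n) * (algebraMap QBar LSer c * x) ^ p ^ n = _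
        rw [mul_pow, ← mul_assoc, ← map_pow, ← map_mul, ← mul_pow, inv_mul_cancel₀ hc, one_pow,
          map_one, one_mul])
    have e2 := congrArg (redL A) e
    rw [map_mul, h1, hsmall _ hciA hci, zero_mul] at e2
    exact zero_ne_one e2
  have hcu : c ∉ A.nonunits := fun hcn => by
    have e : (⟨_, hcm⟩ : locS A) ^ p ^ n =
        ⟨_, hAL _ (pow_mem hcA (p ^ n))⟩ * ⟨x ^ p ^ n, hm⟩ := Subtype.ext (by
      show (algebraMap QBar LSer c * x) ^ p ^ n = algebraMap QBar LSer (c ^ p ^ n) * x ^ p ^ n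
      rw [mul_pow, map_pow])
    have e2 := congrArg (redL A) e
    rw [map_pow, map_mul, hsmall _ (pow_mem hcA (p ^ n)) hcn, zero_mul] at e2
    exact hcr (eq_zero_of_pow_eq_zero e2)
  obtain ⟨-, hci⟩ := (Arith.notMem_nonunits_iff hcA).mp hcu
  have hgm : x ∈ locS A := by
    have := mul_mem (hAL _ hci) hcm
    rwa [← mul_assoc, ← map_mul, inv_mul_cancel₀ hc, map_one, one_mul] at this
  refine ⟨hgm, ?_⟩
  have e : (⟨x, hgm⟩ : locS A) ^ p ^ n = ⟨x ^ p ^ n, hm⟩ := Subtype.ext rfl
  have e2 := congrArg (redL A) e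
  rw [map_pow, h1] at e2
  have : CharP (LaurentSeries (Res A)) p :=
    charP_of_injective_algebraMap (algebraMap (Res A) _).injective p
  exact iterateFrobenius_inj (LaurentSeries (Res A)) p n (by
    simpa [iterateFrobenius_def] using e2)

/-- Powers preserve unit reductions. -/
theorem red2_eq_one_of_pow {F : Type*} [Field F] [Algebra QBar F] {S : Type*}
    {ι : S → (F →ₐ[QBar] LSer)} (hA : A.LiesOverPrime p) (hfrac : ∀ s x, ι s x ∈ fracS A)
    {g : F} (n : ℕ) (hm : g ^ p ^ n ∈ loc2 A ι) (e : red2 A ι ⟨_, hm⟩ = 1) :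
    ∃ hg : g ∈ loc2 A ι, red2 A ι ⟨g, hg⟩ = 1 := by
  have key : ∀ s, ∃ hs : ι s g ∈ locS A, redL A ⟨_, hs⟩ = 1 := fun s => by
    have hms : ι s (g ^ p ^ n) ∈ locS A := (mem_loc2 ι).mp hm s
    have hgs : redL A ⟨_, hms⟩ = 1 := (red2_apply ι ⟨_, hm⟩ s).symm.trans (congrFun e s)
    have hms' : ι s g ^ p ^ n ∈ locS A := map_pow (ι s) g (p ^ n) ▸ hms
    exact redL_eq_one_of_pow hA n (hfrac s g) hms'
      ((redL_congr hms' hms (map_pow (ι s) g (p ^ n)).symm).trans hgs)
  choose hk hkr using key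
  refine ⟨(mem_loc2 ι).mpr hk, funext fun s => ?_⟩
  rw [red2_apply, Pi.one_apply]
  exact hkr s

/-- Powers preserve classes of unit reduction. -/
theorem hasUnitRed_of_pow (hA : A.LiesOverPrime p) {g : FB (p * M)} (n : ℕ)
    (h : HasUnitRed A M p hpM (g ^ p ^ n)) : HasUnitRed A M p hpM g :=
  red2_eq_one_of_pow hA (iota2_fracS M p hpM) n h.1 h.2

end Fermat.Agent.OrdinaryAtP

end
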