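import Fermat.Agent.OrdinaryAtP.ValueSpaces

/-!
# Properties of the value spaces

Rank, lifts, products, Galois equivariance, independence of the representative and separation.
-/

set_option autoImplicit false
set_option synthInstance.maxHeartbeats 400000
set_option maxHeartbeats 1000000
set_option linter.unusedSectionVars false

noncomputable section

namespace Fermat.Agent.OrdinaryAtP

open ModularCurve AlgebraicCurve Semistable
open Arith (QBar GQ)
open scoped Pointwise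

attribute [local instance 2000] RingHom.instRingHomClass RingHomClass.toAddMonoidHomClass
  RingHomClass.toMonoidHomClass MonoidHomClass.toMulHomClass
attribute [local instance 1900] Subring.toCommRing
attribute [-instance] LieRinehartAlgebra.toIsScalarTower IsScalarTower.of_algHom
  RingHom.Finite.instFinite IntermediateField.instNontriviallyNormedFieldSubtypeMem

variable {A : ValuationSubring QBar} {M p : ℕ} [NeZero M] [hp : Fact p.Prime] [CharP (Res A) p]

theorem pow_mem_poles {x z : FB (p * M)} {a : ℕ}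
    (hz : z ∈ riemannRochSpace (a • FF.poles QBar x)) :
    ∀ k : ℕ, z ^ k ∈ riemannRochSpace ((k * a) • FF.poles QBar x)
  | 0 => by rw [pow_zero]; exact one_mem_polesSpace _ _
  | k + 1 => by
    rw [pow_succ, Nat.succ_mul]
    exact mul_mem_polesSpace (pow_mem_poles hz k) hz

section Main
attribute [local instance 2000] SubalgebraClass.toAlgebra

variable {hpM : ¬ p ∣ M}

/-! ### Sections -/

theorem IsLat.zero (m : ℕ) (f : FB (p * M)) : IsLat A hpM m f 0 :=
  ⟨zero_mem _, by rw [zero_pow hp.out.ne_zero, zero_mul]; exact zero_mem _⟩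

theorem IsLat.smul {m : ℕ} {f g : FB (p * M)} (hg : IsLat A hpM m f g) (c : A) :
    IsLat A hpM m f (algebraMap QBar (FB (p * M)) (c : QBar) * g) := by
  refine ⟨mul_mem (algebraMap_mem_loc2 _ c.2) hg.1, ?_⟩
  rw [mul_pow, ← map_pow, mul_assoc, ← Algebra.smul_def]
  exact Submodule.smul_mem _ _ hg.2

theorem IsLat.add {m : ℕ} {f g g' : FB (p * M)} (hg : IsLat A hpM m f g)
    (hg' : IsLat A hpM m f g') : IsLat A hpM m f (g + g') := by
  refine ⟨add_mem hg.1 hg'.1, ?_⟩
  rw [add_pow, Finset.sum_mul]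
  refine Submodule.sum_mem _ fun k hk => ?_
  have hk' : k ≤ p := Nat.lt_succ_iff.mp (Finset.mem_range.mp hk)
  have hz : g ^ k * g' ^ (p - k) * f ∈ HN M p (p * m) := by
    refine root_mem_polesSpace hp.out.ne_zero ?_
    have h1 := mul_mem_polesSpace (pow_mem_poles hg.2 k) (pow_mem_poles hg'.2 (p - k))
    have e : (g ^ p * f) ^ k * (g' ^ p * f) ^ (p - k) = (g ^ k * g' ^ (p - k) * f) ^ p := by
      rw [mul_pow, mul_pow, mul_pow, mul_pow, ← pow_mul, ← pow_mul, ← pow_mul, ← pow_mul]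
      calc g ^ (p * k) * f ^ k * (g' ^ (p * (p - k)) * f ^ (p - k))
          = g ^ (p * k) * g' ^ (p * (p - k)) * (f ^ k * f ^ (p - k)) := by ring
        _ = g ^ (k * p) * g' ^ ((p - k) * p) * f ^ p := by
            rw [← pow_add, Nat.add_sub_cancel' hk', mul_comm k p, mul_comm (p - k) p]
    rwa [e, ← add_mul, Nat.add_sub_cancel' hk'] at h1
  rw [show g ^ k * g' ^ (p - k) * (p.choose k : FB (p * M)) * f =
      (p.choose k : QBar) • (g ^ k * g' ^ (p - k) * f) by
    rw [Algebra.smul_def, map_natCast]; ring]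
  exact Submodule.smul_mem _ _ hz

theorem IsLat.sum {m : ℕ} {f : FB (p * M)} {κ : Type*} (s : Finset κ) (g : κ → FB (p * M))
    (hg : ∀ l ∈ s, IsLat A hpM m f (g l)) : IsLat A hpM m f (∑ l ∈ s, g l) :=
  Finset.sum_induction g _ (fun _ _ => IsLat.add) (IsLat.zero m f) hg

theorem IsLat.mul {m m' : ℕ} {f f' g g' : FB (p * M)} (hg : IsLat A hpM m f g)
    (hg' : IsLat A hpM m' f' g') : IsLat A hpM (m + m') (f * f') (g * g') := by
  refine ⟨mul_mem hg.1 hg'.1, ?_⟩
  rw [mul_pow, mul_mul_mul_comm, mul_add]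
  exact mul_mem_polesSpace hg.2 hg'.2

theorem IsLat.mono {m k : ℕ} (hmk : m ≤ k) {f g : FB (p * M)} (hg : IsLat A hpM m f g) :
    IsLat A hpM k f g :=
  ⟨hg.1, RedTorsion.polesSpace_mono (Nat.mul_le_mul_left p hmk) hg.2⟩

theorem IsLat.galF {m : ℕ} {f g : FB (p * M)} (hg : IsLat A hpM m f g)
    (τ : A.inertiaSubgroupIn ℚ) :
    IsLat A hpM m (galF (p * M) (τ : GQ) f) (galF (p * M) (τ : GQ) g) := by
  refine ⟨((resLift_of_inertia τ.2).galF_mem_loc2 M p hpM ⟨g, hg.1⟩).1, ?_⟩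
  rw [← map_pow, ← map_mul]
  exact galF_mem_HN _ hg.2

/-- The action of inertia on units. -/
def galU (τ : A.inertiaSubgroupIn ℚ) : (FB (p * M))ˣ →* (FB (p * M))ˣ :=
  Units.map ((galF (p * M) (τ : GQ)).toRingHom : FB (p * M) →* FB (p * M))

theorem coe_galU (τ : A.inertiaSubgroupIn ℚ) (f : (FB (p * M))ˣ) :
    (galU τ f : FB (p * M)) = galF (p * M) (τ : GQ) (f : FB (p * M)) := rfl

theorem galU_mem_unitGrp (τ : A.inertiaSubgroupIn ℚ) {f : (FB (p * M))ˣ}
    (hf : f ∈ unitGrp A M p hpM) : galU τ f ∈ unitGrp A M p hpM := by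
  obtain ⟨hm, e⟩ := (resLift_of_inertia τ.2).galF_mem_loc2 M p hpM ⟨_, hf.2.1⟩
  exact ⟨galF_mem_Bloc τ hf.1, hm, funext fun s => (e s).trans (by rw [coeffMap_id, hf.2.2])⟩

theorem galU_mem_divGrp (τ : A.inertiaSubgroupIn ℚ) {f : (FB (p * M))ˣ}
    (hf : f ∈ JacTorsion.divGrp QBar (FB (p * M)) p) :
    galU τ f ∈ JacTorsion.divGrp QBar (FB (p * M)) p := by
  intro v
  set g := arithmeticGalois (L := QBar) (modularFunctionFieldFull (p * M)) (τ : GQ)
  have h := SemilinearAut.ord_smul g (g⁻¹ • v) (f : FB (p * M))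
  rw [smul_inv_smul] at h
  show (p : ℤ) ∣ v.ord (g • (f : FB (p * M)))
  rw [h]
  exact hf _

variable {n : ℕ} {P : Points A M p hpM n}

theorem Points.IsRep.galU {f : (FB (p * M))ˣ} {r : Fin P.d → QBar} (hR : P.IsRep f r)
    (τ : A.inertiaSubgroupIn ℚ) : P.IsRep (galU τ f) fun i => (τ : GQ) (r i) :=
  ⟨galU_mem_unitGrp τ hR.mem, galU_mem_divGrp τ hR.dvd, fun i => by
    rw [← map_pow, hR.root, ← P.ext_galois i τ ⟨(f : FB (p * M)), hR.mem.1⟩]
    rfl⟩

theorem Points.IsRep.one : P.IsRep (1 : (FB (p * M))ˣ) 1 :=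
  ⟨one_mem _, one_mem _, fun i => by
    rw [Pi.one_apply, one_pow]
    exact (map_one (P.ext i)).symm⟩

theorem Points.ext_units_mul (i : Fin P.d) {f g : (FB (p * M))ˣ} (hf : f ∈ unitGrp A M p hpM)
    (hg : g ∈ unitGrp A M p hpM) (hfg : f * g ∈ unitGrp A M p hpM) :
    P.ext i ⟨((f * g : (FB (p * M))ˣ) : FB (p * M)), hfg.1⟩ =
      P.ext i ⟨(f : FB (p * M)), hf.1⟩ * P.ext i ⟨(g : FB (p * M)), hg.1⟩ := by
  rw [← map_mul]
  rfl

theorem Points.ext_units_inv (i : Fin P.d) {a : (FB (p * M))ˣ} (ha : a ∈ unitGrp A M p hpM) :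
    P.ext i ⟨(a : FB (p * M)), ha.1⟩ *
      P.ext i ⟨((a⁻¹ : (FB (p * M))ˣ) : FB (p * M)), ((unitGrp A M p hpM).inv_mem ha).1⟩ = 1 := by
  rw [← map_mul, ← map_one (P.ext i)]
  exact congrArg _ (Subtype.ext (Units.mul_inv a))

theorem Points.IsRep.mul {f f' : (FB (p * M))ˣ} {r r' : Fin P.d → QBar} (hR : P.IsRep f r)
    (hR' : P.IsRep f' r') : P.IsRep (f * f') (r * r') :=
  ⟨mul_mem hR.mem hR'.mem, mul_mem hR.dvd hR'.dvd, fun i => by
    rw [Pi.mul_apply, mul_pow, hR.root, hR'.root, P.ext_units_mul i hR.mem hR'.mem (mul_mem hR.mem hR'.mem)]⟩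

theorem pow_unit_mem_divGrp (a : (FB (p * M))ˣ) :
    a ^ p ∈ JacTorsion.divGrp QBar (FB (p * M)) p := fun v => by
  rw [Units.val_pow_eq_pow_val, FF.ord_pow]
  exact dvd_mul_right _ _

/-! ### Value spaces -/

theorem Points.valSpace_mono {m k : ℕ} (hmk : m ≤ k) (f : (FB (p * M))ˣ)
    (r : Fin P.d → QBar) : P.valSpace m f r ≤ P.valSpace k f r :=
  Submodule.span_mono fun _ ⟨g, hg, hgL, e⟩ => ⟨g, hg, hgL.mono hmk, e⟩

theorem Points.mul_mem_valSpace {m m' : ℕ} {f f' : (FB (p * M))ˣ} {r r' : Fin P.d → QBar}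
    {v w : Fin P.d → QBar} (hv : v ∈ P.valSpace m f r) (hw : w ∈ P.valSpace m' f' r') :
    v * w ∈ P.valSpace (m + m') (f * f') (r * r') := by
  induction hv using Submodule.span_induction with
  | mem v hv =>
    obtain ⟨g, hg, hgL, rfl⟩ := hv
    induction hw using Submodule.span_induction with
    | mem w hw =>
      obtain ⟨g', hg', hgL', rfl⟩ := hw
      refine Submodule.subset_span ⟨g * g', mul_mem hg hg', ?_, funext fun i => ?_⟩
      · rw [Units.val_mul]
        exact hgL.mul hgL'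
      · rw [Pi.mul_apply, Pi.mul_apply,
          show (⟨g * g', mul_mem hg hg'⟩ : Bloc A M p hpM) = ⟨g, hg⟩ * ⟨g', hg'⟩ from rfl, map_mul]
        ring
    | zero => rw [mul_zero]; exact zero_mem _
    | add a b _ _ ha hb => rw [mul_add]; exact add_mem ha hb
    | smul c a _ ha => rw [mul_smul_comm]; exact Submodule.smul_mem _ _ ha
  | zero => rw [zero_mul]; exact zero_mem _
  | add a b _ _ ha hb => rw [add_mul]; exact add_mem ha hb
  | smul c a _ ha => rw [smul_mul_assoc]; exact Submodule.smul_mem _ _ ha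

theorem Points.galois_mem_valSpace {m : ℕ} {f : (FB (p * M))ˣ} {r : Fin P.d → QBar}
    (τ : A.inertiaSubgroupIn ℚ) {v : Fin P.d → QBar} (hv : v ∈ P.valSpace m f r) :
    (fun i => (τ : GQ) (v i)) ∈
      P.valSpace m (OrdinaryAtP.galU τ f) fun i => (τ : GQ) (r i) := by
  induction hv using Submodule.span_induction with
  | mem v hv =>
    obtain ⟨g, hg, hgL, rfl⟩ := hv
    refine Submodule.subset_span ⟨_, galF_mem_Bloc τ hg, hgL.galF τ, funext fun i => ?_⟩
    rw [map_mul, ← P.ext_galois i τ ⟨g, hg⟩]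
  | zero => simp only [Pi.zero_apply, map_zero]; exact zero_mem _
  | add a b _ _ ha hb => simp only [Pi.add_apply, map_add]; exact add_mem ha hb
  | smul c a _ ha =>
    have e : (fun i => (τ : GQ) ((c • a) i)) = (τ : GQ) c • fun i => (τ : GQ) (a i) :=
      funext fun i => by simp
    rw [e]
    exact Submodule.smul_mem _ _ ha

theorem Points.valSpace_change_le {m : ℕ} (f : (FB (p * M))ˣ) (r : Fin P.d → QBar)
    {a : (FB (p * M))ˣ} (ha : a ∈ unitGrp A M p hpM) :
    P.valSpace m (f * a ^ p) (fun i => r i * P.ext i ⟨(a : FB (p * M)), ha.1⟩) ≤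
      P.valSpace m f r := by
  refine Submodule.span_le.mpr ?_
  rintro _ ⟨g, hg, hgL, rfl⟩
  refine Submodule.subset_span ⟨a * g, mul_mem ha.1 hg,
    ⟨mul_mem ha.2.1 hgL.1, ?_⟩, funext fun i => ?_⟩
  · have := hgL.2
    rw [Units.val_mul, Units.val_pow_eq_pow_val] at this
    rw [mul_pow]
    convert this using 1
    ring
  · rw [show (⟨(a : FB (p * M)) * g, mul_mem ha.1 hg⟩ : Bloc A M p hpM) =
      ⟨(a : FB (p * M)), ha.1⟩ * ⟨g, hg⟩ from rfl, map_mul]
    ring

theorem Points.valSpace_change {m : ℕ} {f : (FB (p * M))ˣ} {r : Fin P.d → QBar}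
    {a : (FB (p * M))ˣ} (ha : a ∈ unitGrp A M p hpM) :
    P.valSpace m (f * a ^ p) (fun i => r i * P.ext i ⟨(a : FB (p * M)), ha.1⟩) =
      P.valSpace m f r := by
  refine le_antisymm (P.valSpace_change_le f r ha) ?_
  have h := P.valSpace_change_le (m := m) (f * a ^ p)
    (fun i => r i * P.ext i ⟨(a : FB (p * M)), ha.1⟩) ((unitGrp A M p hpM).inv_mem ha)
  rw [mul_assoc, inv_pow, mul_inv_cancel, mul_one] at h
  simpa only [mul_assoc, P.ext_units_inv _ ha, mul_one] using h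

/-- Multiplication by a power of `j`. -/
theorem Points.jpow_mem_valSpace {m : ℕ} {f : (FB (p * M))ˣ} {r v : Fin P.d → QBar}
    (hv : v ∈ P.valSpace m f r) :
    (fun i => P.s i (upJ A M p hpM) ^ m) * v ∈ P.valSpace (m + m) f r := by
  have hJ : (upJ A M p hpM : FB (p * M)) ^ m ∈ loc2 A (iota2 M p hpM) :=
    pow_mem (upJ A M p hpM).2.1 m
  induction hv using Submodule.span_induction with
  | mem v hv =>
    obtain ⟨g, hg, hgL, rfl⟩ := hv
    refine Submodule.subset_span ⟨(upJ A M p hpM : FB (p * M)) ^ m * g,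
      mul_mem (pow_mem (coe_mem_Bloc _) m) hg, ⟨mul_mem hJ hgL.1, ?_⟩, funext fun i => ?_⟩
    · rw [mul_pow, ← pow_mul, mul_assoc, mul_add]
      refine mul_mem_polesSpace ?_ hgL.2
      have := pow_mem_poles (upF_mem_HN M p (jM_mem_HM (M := M))) (m * p)
      rw [mul_one] at this
      rwa [Nat.mul_comm p m]
    · rw [show (⟨(upJ A M p hpM : FB (p * M)) ^ m * g, mul_mem (pow_mem (coe_mem_Bloc _) m) hg⟩ :
        Bloc A M p hpM) =
          toBloc (A := A) (M := M) (p := p) (hpM := hpM) (upJ A M p hpM) ^ m * ⟨g, hg⟩ from rfl,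
        map_mul, map_pow,
        P.ext_toBloc, Pi.mul_apply]
      ring
  | zero => rw [mul_zero]; exact zero_mem _
  | add a b _ _ ha hb => rw [mul_add]; exact add_mem ha hb
  | smul c a _ ha => rw [mul_smul_comm]; exact Submodule.smul_mem _ _ ha

theorem Points.ext_comb (i : Fin P.d) {κ : Type*} [Fintype κ] (c : κ → A) (g : κ → FB (p * M))
    (hg : ∀ l, g l ∈ Bloc A M p hpM)
    (hx : ∑ l, algebraMap QBar (FB (p * M)) (c l : QBar) * g l ∈ Bloc A M p hpM) :
    P.ext i ⟨_, hx⟩ = ∑ l, (c l : QBar) * P.ext i ⟨g l, hg l⟩ := by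
  have e : (⟨_, hx⟩ : Bloc A M p hpM) = ∑ l,
      toBloc (A := A) (M := M) (p := p) (hpM := hpM) (constB A M p hpM (c l)) * ⟨g l, hg l⟩ :=
    Subtype.ext (by rw [AddSubmonoidClass.coe_finsetSum]; rfl)
  rw [e, map_sum]
  exact Finset.sum_congr rfl fun l _ => by rw [map_mul, P.ext_const]

theorem Points.valSpace_le {m : ℕ} {f : (FB (p * M))ˣ} {r : Fin P.d → QBar}
    {N : ℕ} {g : Fin N → FB (p * M)} (hg : ∀ l, g l ∈ Bloc A M p hpM)
    {w : Fin N → Fin P.d → A} (hw : ∀ l i, (w l i : QBar) = r i * P.ext i ⟨g l, hg l⟩)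
    (hgen : ∀ x, IsLat A hpM m (f : FB (p * M)) x →
      ∃ c : Fin N → A, x = ∑ l, algebraMap QBar (FB (p * M)) (c l : QBar) * g l) :
    P.valSpace m f r ≤ Submodule.span QBar (Set.range fun l => castV (w l)) := by
  refine Submodule.span_le.mpr ?_
  rintro _ ⟨x, hx, hxL, rfl⟩
  obtain ⟨c, rfl⟩ := hgen x hxL
  have e : (fun i => r i * P.ext i ⟨_, hx⟩) = ∑ l, (c l : QBar) • castV (w l) := by
    funext i
    rw [P.ext_comb i c g hg hx, Finset.mul_sum, Finset.sum_apply]
    refine Finset.sum_congr rfl fun l _ => ?_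
    simp only [Pi.smul_apply, castV, hw, smul_eq_mul]
    ring
  rw [e]
  exact Submodule.sum_mem _ fun l _ => Submodule.smul_mem _ _ (Submodule.subset_span ⟨l, rfl⟩)

end Main

section Setup

variable [FF.IsFunctionField (Res A) (KM A M)] {h : Setup A M p}
variable {n : ℕ} {P : Points A M p h.hqM n}

theorem Points.IsRep.finrank_valSpace {m : ℕ} (hm : IsDegree h m) (hmn : m ≤ n)
    {f : (FB (p * M))ˣ} {r : Fin P.d → QBar} (hR : P.IsRep f r) :
    Module.finrank QBar (P.valSpace m f r) ≤ Module.finrank (Res A) (P.Phi m) := by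
  obtain ⟨N, g, hg, w, u, hgL, hw, hwu, hli, hsp, hN, hgen⟩ := hR.exists_frame hm hmn
  have : Module.Finite QBar (Submodule.span QBar (Set.range fun l => castV (w l))) :=
    FiniteDimensional.span_of_finite _ (Set.finite_range _)
  have h1 := Submodule.finrank_mono (P.valSpace_le hg hw hgen)
  have h2 := finrank_range_le_card (R := QBar) (fun l => castV (w l))
  rw [Fintype.card_fin, Set.finrank] at h2
  omega

theorem Points.IsRep.exists_lift {m : ℕ} (hm : IsDegree h m) (hmn : m ≤ n)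
    {f : (FB (p * M))ˣ} {r : Fin P.d → QBar} (hR : P.IsRep f r) {φ : Fin P.d → Res A}
    (hφ : φ ∈ P.Phi m) : ∃ v : Fin P.d → A, castV v ∈ P.valSpace m f r ∧ redV v = φ := by
  obtain ⟨N, g, hg, w, u, hgL, hw, hwu, hli, hsp, hN, hgen⟩ := hR.exists_frame hm hmn
  obtain ⟨c, rfl⟩ := hsp φ hφ
  choose ct hct using fun l => IsLocalRing.residue_surjective (c l)
  refine ⟨fun i => ∑ l, ct l * w l i, ?_, funext fun i => ?_⟩
  · have e : castV (fun i => ∑ l, ct l * w l i) = ∑ l, (ct l : QBar) • castV (w l) := by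
      funext i
      simp [castV, Finset.sum_apply]
    rw [e]
    refine Submodule.sum_mem _ fun l _ => Submodule.smul_mem _ _
      (Submodule.subset_span ⟨g l, hg l, hgL l, funext fun i => hw l i⟩)
  · rw [redV, map_sum, Finset.sum_apply]
    exact Finset.sum_congr rfl fun l _ => by rw [map_mul, hct]; rfl

/-- An integral vector of the value space is the vector of a section. -/
theorem Points.IsRep.exists_section {m : ℕ} (hm : IsDegree h m) (hmn : m ≤ n)
    {f : (FB (p * M))ˣ} {r : Fin P.d → QBar} (hR : P.IsRep f r) {v : Fin P.d → QBar}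
    (hv : v ∈ P.valSpace m f r) (hvA : ∀ i, v i ∈ A) :
    ∃ (g : FB (p * M)) (hg : g ∈ Bloc A M p h.hqM), IsLat A h.hqM m (f : FB (p * M)) g ∧
      v = fun i => r i * P.ext i ⟨g, hg⟩ := by
  obtain ⟨N, g, hg, w, u, hgL, hw, hwu, hli, hsp, hN, hgen⟩ := hR.exists_frame hm hmn
  obtain ⟨x, hx⟩ := (Submodule.mem_span_range_iff_exists_fun QBar).mp
    (P.valSpace_le hg hw hgen hv)
  have hxA : ∀ l, x l ∈ A := mem_of_comb w hli x fun i => by
    have := congrFun hx i
    simp only [Finset.sum_apply, Pi.smul_apply, castV, smul_eq_mul] at this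
    rw [this]
    exact hvA i
  have hL : IsLat A h.hqM m (f : FB (p * M))
      (∑ l, algebraMap QBar (FB (p * M)) (x l) * g l) :=
    IsLat.sum _ _ fun l _ => (hgL l).smul ⟨x l, hxA l⟩
  refine ⟨_, hL.mem_Bloc hR.mem, hL, funext fun i => ?_⟩
  rw [P.ext_comb i (fun l => ⟨x l, hxA l⟩) g hg, Finset.mul_sum, ← hx, Finset.sum_apply]
  refine Finset.sum_congr rfl fun l _ => ?_
  simp only [Pi.smul_apply, castV, hw, smul_eq_mul]
  ring

/-- The points are injective in bounded degree. -/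
theorem Points.eq_zero_of_forall {k : ℕ} (hk : IsDegree h k) (hkn : k ≤ n)
    (y : Bint A M p h.hqM) (hy : (y : FB (p * M)) ∈ HN M p k) (h0 : ∀ i, P.s i y = 0) :
    y = 0 := by
  obtain ⟨N, g, hg, w, u, hgL, hw, hwu, hli, hsp, hN, hgen⟩ :=
    (Points.IsRep.one (P := P)).exists_frame hk hkn
  have hyL : IsLat A h.hqM k ((1 : (FB (p * M))ˣ) : FB (p * M)) (y : FB (p * M)) := by
    refine ⟨y.2.1, ?_⟩
    rw [Units.val_one, mul_one]
    exact pow_mem_poles hy p
  obtain ⟨c, hc⟩ := hgen _ hyL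
  have hsum : ∀ i, ∑ l, (c l : QBar) * (w l i : QBar) = 0 := fun i => by
    have hmem : ∑ l, algebraMap QBar (FB (p * M)) (c l : QBar) * g l ∈ Bloc A M p h.hqM :=
      hc ▸ coe_mem_Bloc y
    have h1 := P.ext_comb i c g hg hmem
    rw [show (⟨_, hmem⟩ : Bloc A M p h.hqM) = toBloc (A := A) (M := M) (p := p) (hpM := h.hqM) y
      from Subtype.ext hc.symm, P.ext_toBloc, h0] at h1
    simp only [hw, Pi.one_apply, one_mul]
    exact h1.symm
  suffices hc0 : ∀ l, (c l : QBar) = 0 by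
    refine Subtype.ext ?_
    rw [hc]
    simp [hc0]
  intro l
  by_contra hne
  have h2 := mem_of_comb w hli (fun l' => ((p : QBar) * (c l : QBar))⁻¹ * (c l' : QBar))
    (fun i => by
      simp only [mul_assoc, ← Finset.mul_sum, hsum, mul_zero]
      exact zero_mem A) l
  simp only [mul_inv, mul_assoc, inv_mul_cancel₀ hne, mul_one] at h2
  have hpn : (p : QBar) ∈ A.nonunits := h.hA
  rw [ValuationSubring.mem_nonunits_iff] at hpn
  have h3 := (A.valuation_le_one_iff _).mpr h2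
  rw [map_inv₀, inv_le_one₀ (zero_lt_iff.mpr ((Valuation.ne_zero_iff _).mpr
    (Nat.cast_ne_zero.mpr hp.out.ne_zero)))] at h3
  exact absurd h3 (not_le.mpr hpn)

/-- **Separation**. -/
theorem Points.IsRep.exists_change {m : ℕ} (hm : IsDegree h m) (hpm : IsDegree h (p * m))
    (hpmn : p * m ≤ n) {f f' : (FB (p * M))ˣ} {r r' : Fin P.d → QBar} (hR : P.IsRep f r)
    (hR' : P.IsRep f' r') (hf : (f : FB (p * M)) ∈ HN M p (p * m))
    (hV : P.valSpace m f r = P.valSpace m f' r') :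
    ∃ a, ∃ ha : a ∈ unitGrp A M p h.hqM,
      f = f' * a ^ p ∧ r = fun i => r' i * P.ext i ⟨(a : FB (p * M)), ha.1⟩ := by
  have hmn : m ≤ n := (Nat.le_mul_of_pos_left m hp.out.pos).trans hpmn
  have hr : r ∈ P.valSpace m f' r' := by
    rw [← hV]
    refine Submodule.subset_span ⟨1, one_mem _, ⟨one_mem _, by rwa [one_pow, one_mul]⟩, ?_⟩
    funext i
    rw [show (⟨1, one_mem _⟩ : Bloc A M p h.hqM) = 1 from rfl, map_one, mul_one]
  obtain ⟨g, hg, hgL, hrg⟩ := hR'.exists_section hm hmn hr fun i => (hR.residue i).1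
  set X : Bint A M p h.hqM := ⟨(f : FB (p * M)), hR.mem.2.1, p * m, hf⟩ with hX
  set Y : Bint A M p h.hqM := ⟨g ^ p * (f' : FB (p * M)),
    mul_mem (pow_mem hgL.1 p) hR'.mem.2.1, p * m, hgL.2⟩ with hY
  have hXY : X = Y := by
    refine sub_eq_zero.mp (P.eq_zero_of_forall hpm hpmn _ ?_ fun i => ?_)
    · exact sub_mem hf hgL.2
    · rw [map_sub, sub_eq_zero, ← P.ext_toBloc, ← P.ext_toBloc,
        show toBloc (A := A) (M := M) (p := p) (hpM := h.hqM) X =
          (⟨(f : FB (p * M)), hR.mem.1⟩ : Bloc A M p h.hqM) from rfl,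
        show toBloc (A := A) (M := M) (p := p) (hpM := h.hqM) Y =
          (⟨g, hg⟩ : Bloc A M p h.hqM) ^ p * ⟨(f' : FB (p * M)), hR'.mem.1⟩ from rfl,
        map_mul, map_pow, ← hR.root, ← hR'.root, hrg]
      ring
  have hfg : (f : FB (p * M)) = g ^ p * (f' : FB (p * M)) := congrArg Subtype.val hXY
  have hg0 : g ≠ 0 := fun h0 => f.ne_zero (by rw [hfg, h0, zero_pow hp.out.ne_zero, zero_mul])
  set a : (FB (p * M))ˣ := Units.mk0 g hg0
  have e : f = f' * a ^ p := Units.ext (by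
    rw [Units.val_mul, Units.val_pow_eq_pow_val, Units.val_mk0, hfg]
    exact mul_comm _ _)
  have ha : a ∈ unitGrp A M p h.hqM := mem_unitGrp_of_pow h.hA (by
    have h1 : a ^ p = f'⁻¹ * f := by rw [e, inv_mul_cancel_left]
    rw [h1]
    exact mul_mem ((unitGrp A M p h.hqM).inv_mem hR'.mem) hR.mem)
  exact ⟨a, ha, e, hrg⟩

end Setup

end Fermat.Agent.OrdinaryAtP

end
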