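import Fermat.Agent.OrdinaryAtP.Generators

/-!
# Symmetries of the integral ring and the first reduction

Inertia and the involution act on the integral ring; the first reduction is a homomorphism to the
ring of functions over the residue field regular away from the cusps.
-/

set_option autoImplicit false
set_option synthInstance.maxHeartbeats 400000
set_option maxHeartbeats 1000000
set_option linter.unusedSectionVars false

noncomputable section

namespace Fermat.Agent.OrdinaryAtP

open ModularCurve AlgebraicCurve Polynomial Semistable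
open Arith (QBar GQ)
open scoped Pointwise

variable {A : ValuationSubring QBar} {M p : ℕ} [NeZero M] [hp : Fact p.Prime]

variable {hpM : ¬ p ∣ M}

theorem galF_mem_HN (σ : GQ) {n : ℕ} {x : FB (p * M)} (hx : x ∈ HN M p n) :
    galF (p * M) σ x ∈ HN M p n :=
  galF_mem_poles (p * M) (by rw [galF_upF, galF_jM]) hx

theorem galF_algebraMap (σ : GQ) (N : ℕ) (c : QBar) :
    galF N σ (algebraMap QBar (FB N) c) = algebraMap QBar (FB N) (σ c) :=
  arithmeticRingAut_algebraMap _ σ c

variable (A M p hpM) in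
/-- The action of inertia on the integral ring. -/
def galB (τ : A.inertiaSubgroupIn ℚ) : Bint A M p hpM →+* Bint A M p hpM :=
  ((galF (p * M) (τ : GQ)).toRingHom.comp (Bint A M p hpM).subtype).codRestrict _ fun x => by
    obtain ⟨n, hn⟩ := x.2.2
    exact ⟨((resLift_of_inertia τ.2).galF_mem_loc2 M p hpM ⟨x, x.2.1⟩).1, n, galF_mem_HN _ hn⟩

theorem coe_galB (τ : A.inertiaSubgroupIn ℚ) (x : Bint A M p hpM) :
    (galB A M p hpM τ x : FB (p * M)) = galF (p * M) (τ : GQ) x := rfl

theorem galB_mul (τ υ : A.inertiaSubgroupIn ℚ) (x : Bint A M p hpM) :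
    galB A M p hpM τ (galB A M p hpM υ x) = galB A M p hpM (τ * υ) x :=
  Subtype.ext (Subtype.ext (by
    rw [coe_galB, coe_galB, coe_galB, coe_arithmeticRingAut, coe_arithmeticRingAut,
      coe_arithmeticRingAut, Subgroup.coe_mul]
    ext n
    simp [coeffMap_coeff]))

theorem galB_one (x : Bint A M p hpM) : galB A M p hpM 1 x = x :=
  Subtype.ext (Subtype.ext (by
    rw [coe_galB, coe_arithmeticRingAut]
    ext n
    simp [coeffMap_coeff]))

theorem galB_constB (τ : A.inertiaSubgroupIn ℚ) (c : A) :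
    galB A M p hpM τ (constB A M p hpM c) =
      constB A M p hpM ⟨(τ : GQ) c, (resLift_of_inertia τ.2).mem c c.2⟩ :=
  Subtype.ext (galF_algebraMap _ _ _)

theorem galB_upJ (τ : A.inertiaSubgroupIn ℚ) :
    galB A M p hpM τ (upJ A M p hpM) = upJ A M p hpM :=
  Subtype.ext (by
    show galF (p * M) (τ : GQ) (upF M p (jM M)) = upF M p (jM M)
    rw [galF_upF, galF_jM])

variable [CharP (Res A) p]

theorem rho_galB (τ : A.inertiaSubgroupIn ℚ) (x : Bint A M p hpM) :
    rho A M p hpM (galB A M p hpM τ x) = rho A M p hpM x := by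
  obtain ⟨hx, e⟩ := (resLift_of_inertia τ.2).galF_mem_loc2 M p hpM ⟨x, x.2.1⟩
  rw [rho_apply, rho_apply]
  exact funext fun s => (e s).trans (by rw [coeffMap_id])

theorem transcendental_upJ : Transcendental QBar ((upJ A M p hpM : Bint A M p hpM) : FB (p * M)) :=
  transcendental_upF_jM M p

theorem coe_polyJ (P : (A : Type)[X]) :
    (polyJ A M p hpM P : FB (p * M)) =
      aeval ((upJ A M p hpM : Bint A M p hpM) : FB (p * M)) (P.map A.subtype) := by
  show (Bint A M p hpM).subtype (polyJ A M p hpM P) = _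
  rw [polyJ, coe_eval₂RingHom, hom_eval₂, aeval_def, eval₂_map]
  rfl

theorem polyJ_injective : Function.Injective (polyJ A M p hpM) := by
  rw [injective_iff_map_eq_zero]
  intro P hP
  have h0 := congrArg Subtype.val hP
  rw [ZeroMemClass.coe_zero, coe_polyJ] at h0
  by_contra hne
  exact transcendental_upJ (A := A) (hpM := hpM)
    ⟨P.map A.subtype, (Polynomial.map_ne_zero_iff Subtype.val_injective).mpr hne, h0⟩

variable [FF.IsFunctionField (Res A) (KM A M)] (h : Setup A M p)
include h

/-- The involution on the integral ring. -/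
def wB : Bint A M p h.hqM →+* Bint A M p h.hqM :=
  ((wEquiv p M h.hqM).toRingEquiv.toRingHom.comp (Bint A M p h.hqM).subtype).codRestrict _
    fun x => by
      obtain ⟨n, hn⟩ := x.2.2
      exact ⟨(h.wEquiv_red2 ⟨x, x.2.1⟩).1, p * n, wEquiv_mem_HN M p h.hqM hn⟩

theorem coe_wB (x : Bint A M p h.hqM) :
    (wB h x : FB (p * M)) = wEquiv p M h.hqM x := rfl

theorem wB_constB (c : A) : wB h (constB A M p h.hqM c) = constB A M p h.hqM c :=
  Subtype.ext ((wEquiv p M h.hqM).commutes _)

theorem wB_galB (τ : A.inertiaSubgroupIn ℚ) (x : Bint A M p h.hqM) :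
    wB h (galB A M p h.hqM τ x) = galB A M p h.hqM τ (wB h x) :=
  Subtype.ext (wEquiv_galois p M h.hqM _ _)

theorem rho_wB (x : Bint A M p h.hqM) :
    rho A M p h.hqM (wB h x) = ![rho A M p h.hqM x 1, rho A M p h.hqM x 0] := by
  obtain ⟨hw, e⟩ := h.wEquiv_red2 ⟨x, x.2.1⟩
  rw [rho_apply, rho_apply]
  exact e

theorem exists_serR_rho (x : Bint A M p h.hqM) (s : Fin 2) :
    ∃ z : Rk A M, serR A M z = rho A M p h.hqM x s := by
  obtain ⟨n, hn⟩ := x.2.2
  obtain ⟨h0, h1⟩ := (mem_Pk A M).mp (red2_mem_Pk M p h.hqM h.hA h.hM (x := ⟨x, x.2.1⟩) hn)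
  fin_cases s
  · obtain ⟨z, hz, -⟩ := exists_serR h0
    exact ⟨z, hz⟩
  · obtain ⟨z, hz, -⟩ := exists_serR h1
    exact ⟨z, hz⟩

/-- The first reduction. -/
def comp0 : Bint A M p h.hqM →+* Rk A M where
  toFun x := (exists_serR_rho h x 0).choose
  map_one' := serR_injective (by rw [(exists_serR_rho h 1 0).choose_spec, map_one, map_one]; rfl)
  map_mul' x y := serR_injective (by
    rw [(exists_serR_rho h (x * y) 0).choose_spec, map_mul, map_mul,
      (exists_serR_rho h x 0).choose_spec, (exists_serR_rho h y 0).choose_spec]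
    rfl)
  map_zero' := serR_injective (by rw [(exists_serR_rho h 0 0).choose_spec, map_zero, map_zero]; rfl)
  map_add' x y := serR_injective (by
    rw [(exists_serR_rho h (x + y) 0).choose_spec, map_add, map_add,
      (exists_serR_rho h x 0).choose_spec, (exists_serR_rho h y 0).choose_spec]
    rfl)

theorem serR_comp0 (x : Bint A M p h.hqM) :
    serR A M (comp0 h x) = rho A M p h.hqM x 0 := (exists_serR_rho h x 0).choose_spec

theorem comp0_mem_Hk {n : ℕ} {x : Bint A M p h.hqM} (hx : (x : FB (p * M)) ∈ HN M p n) :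
    (comp0 h x : KM A M) ∈ Hk A M n := by
  obtain ⟨h0, -⟩ := (mem_Pk A M).mp (red2_mem_Pk M p h.hqM h.hA h.hM (x := ⟨x, x.2.1⟩) hx)
  refine coe_mem_HkS.mp ?_
  rw [show ((comp0 h x : KM A M) : LaurentSeries (Res A)) = serR A M (comp0 h x) from rfl,
    serR_comp0]
  exact h0

theorem comp0_constB (c : A) :
    comp0 h (constB A M p h.hqM c) = algebraMap (Res A) (Rk A M) (IsLocalRing.residue A c) := by
  refine serR_injective ?_
  rw [serR_comp0, serR_algebraMap, rho_apply]
  exact red2_const (iota2 M p h.hqM) (c := c) 0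

theorem comp0_upJ : comp0 h (upJ A M p h.hqM) = ⟨jK A M, 1, RedTorsion.mem_polesSpace.mpr fun v =>
    FF.mem_ordGe_of_le v (by rw [FF.poles_apply, Nat.cast_one, one_mul]; omega)⟩ := by
  refine serR_injective ?_
  rw [serR_comp0, rho_upJ]
  rfl

end Fermat.Agent.OrdinaryAtP

end
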