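import Fermat.Agent.OrdinaryAtP.Localised
import Fermat.Agent.OrdinaryAtP.Lattice
import Fermat.Agent.JacTorsion.Kummer

/-!
# Values of the sections of a cover at the points

A unit `f` with divisor divisible by `p` and `p`-th roots `r` of its values define for every degree
`m` the space of the vectors `r * g` with `g ^ p * f` regular of degree `p m`.
-/

set_option autoImplicit false
set_option synthInstance.maxHeartbeats 400000
set_option maxHeartbeats 1000000
set_option linter.unusedSectionVars false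

noncomputable section

namespace Fermat.Agent.OrdinaryAtP

open ModularCurve AlgebraicCurve Semistable
open Arith (QBar GQ)
open scoped Pointwise

variable {A : ValuationSubring QBar}

/-- An integral combination of vectors with independent residues has integral coefficients. -/
theorem mem_of_comb {κ ι : Type*} [Fintype ι] (w : ι → κ → A)
    (hw : LinearIndependent (IsLocalRing.ResidueField A) fun l => redV (w l)) (x : ι → QBar)
    (hx : ∀ s, ∑ l, x l * (w l s : QBar) ∈ A) : ∀ l, x l ∈ A := by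
  classical
  by_contra hbad
  rw [not_forall] at hbad
  obtain ⟨l₀, hl₀⟩ := hbad
  obtain ⟨l₁, -, hmax⟩ := Finset.univ.exists_max_image (fun l => A.valuation (x l))
    ⟨l₀, Finset.mem_univ _⟩
  have hlt : 1 < A.valuation (x l₁) :=
    (not_le.mp fun h => hl₀ ((A.valuation_le_one_iff _).mp h)).trans_le (hmax l₀ (Finset.mem_univ _))
  have hx1 : x l₁ ≠ 0 := fun h => by
    rw [h, map_zero] at hlt
    exact absurd hlt (not_lt.mpr zero_le)
  have hq : ∀ l, x l / x l₁ ∈ A := fun l => by
    rw [← A.valuation_le_one_iff, map_div₀,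
      div_le_one₀ (zero_lt_iff.mpr ((Valuation.ne_zero_iff _).mpr hx1))]
    exact hmax l (Finset.mem_univ l)
  have hinv : (x l₁)⁻¹ ∈ A.nonunits := by
    rw [ValuationSubring.mem_nonunits_iff, map_inv₀]
    exact inv_lt_one_of_one_lt₀ hlt
  have h1 : ∀ s, ∑ l, IsLocalRing.residue A (⟨_, hq l⟩ : A) * redV (w l) s = 0 := fun s => by
    have e : (∑ l, (⟨_, hq l⟩ : A) * w l s) =
        ⟨_, Arith.mem_of_mem_nonunits hinv⟩ * ⟨_, hx s⟩ := Subtype.ext (by
      push_cast
      rw [Finset.mul_sum]
      exact Finset.sum_congr rfl fun l _ => by ring)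
    have e2 := congrArg (IsLocalRing.residue A) e
    rw [map_mul, (Semistable.residue_eq_zero_iff _).mpr hinv, zero_mul, map_sum] at e2
    simpa [redV] using e2
  have h2 := Fintype.linearIndependent_iff.mp hw (fun l => IsLocalRing.residue A ⟨_, hq l⟩)
    (funext fun s => by simpa [Finset.sum_apply] using h1 s) l₁
  rw [show (⟨_, hq l₁⟩ : A) = 1 from Subtype.ext (div_self hx1), map_one] at h2
  exact one_ne_zero h2

/-- A root of a unit congruent to one is integral and congruent to one. -/
theorem residue_root_eq_one {p : ℕ} [Fact p.Prime] [CharP (IsLocalRing.ResidueField A) p]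
    {r e : QBar} (he : e ∈ A) (hre : r ^ p = e)
    (h1 : IsLocalRing.residue A (⟨e, he⟩ : A) = 1) :
    ∃ hr : r ∈ A, IsLocalRing.residue A (⟨r, hr⟩ : A) = 1 := by
  have hp : p.Prime := Fact.out
  have hr : r ∈ A := by
    rw [← A.valuation_le_one_iff, ← pow_le_one_iff hp.ne_zero, ← map_pow, hre]
    exact (A.valuation_le_one_iff e).mpr he
  refine ⟨hr, frobenius_inj (IsLocalRing.ResidueField A) p ?_⟩
  rw [frobenius_def, frobenius_def, one_pow, ← map_pow, ← h1]
  exact congrArg _ (Subtype.ext hre)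

variable {M p : ℕ} [NeZero M] [hp : Fact p.Prime] [CharP (Res A) p]

section Defs

variable {hpM : ¬ p ∣ M} {n : ℕ} (P : Points A M p hpM n)

/-- The residues of the values. -/
def Points.resS : Bint A M p hpM →+* (Fin P.d → Res A) :=
  RingHom.pi fun i => (IsLocalRing.residue A).comp ((P.s i).codRestrict A.toSubring (P.mem i))

theorem Points.resS_apply (x : Bint A M p hpM) (i : Fin P.d) :
    P.resS x i = IsLocalRing.residue A ⟨P.s i x, P.mem i x⟩ := rfl

theorem Points.resS_congr {x y : Bint A M p hpM} (e : rho A M p hpM x = rho A M p hpM y) :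
    P.resS x = P.resS y := funext fun i => P.residue_eq_of_rho e i

theorem Points.resS_constB (c : A) :
    P.resS (constB A M p hpM c) = fun _ => IsLocalRing.residue A c :=
  funext fun i => by
    rw [P.resS_apply]
    congr 1
    exact Subtype.ext (P.const i c)

theorem Points.resS_constB_mul (c : A) (x : Bint A M p hpM) :
    P.resS (constB A M p hpM c * x) = IsLocalRing.residue A c • P.resS x := by
  rw [map_mul, P.resS_constB]
  rfl

/-- The residues of the values in degree `m`. -/
def Points.Phi (m : ℕ) : Submodule (Res A) (Fin P.d → Res A) where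
  carrier := {φ | ∃ u : Bint A M p hpM, (u : FB (p * M)) ∈ HN M p m ∧ P.resS u = φ}
  zero_mem' := ⟨0, zero_mem _, map_zero _⟩
  add_mem' := by
    rintro _ _ ⟨u, hu, rfl⟩ ⟨v, hv, rfl⟩
    exact ⟨u + v, add_mem hu hv, map_add _ _ _⟩
  smul_mem' := by
    rintro c _ ⟨u, hu, rfl⟩
    obtain ⟨c, rfl⟩ := IsLocalRing.residue_surjective c
    refine ⟨constB A M p hpM c * u, ?_, P.resS_constB_mul c u⟩
    rw [Subring.coe_mul, coe_constB, ← Algebra.smul_def]
    exact Submodule.smul_mem _ _ hu

variable (A hpM) in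
/-- `g` is a section in degree `m` of the cover of `f`. -/
def IsLat (m : ℕ) (f g : FB (p * M)) : Prop :=
  g ∈ loc2 A (iota2 M p hpM) ∧ g ^ p * f ∈ HN M p (p * m)

/-- The space of values. -/
def Points.valSpace (m : ℕ) (f : (FB (p * M))ˣ) (r : Fin P.d → QBar) :
    Submodule QBar (Fin P.d → QBar) :=
  Submodule.span QBar {v | ∃ (g : FB (p * M)) (hg : g ∈ Bloc A M p hpM),
    IsLat A hpM m f g ∧ v = fun i => r i * P.ext i ⟨g, hg⟩}

/-- A unit with divisor divisible by `p` and roots of its values. -/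
structure Points.IsRep (f : (FB (p * M))ˣ) (r : Fin P.d → QBar) : Prop where
  mem : f ∈ unitGrp A M p hpM
  dvd : f ∈ JacTorsion.divGrp QBar (FB (p * M)) p
  root : ∀ i, r i ^ p = P.ext i ⟨f, mem.1⟩

variable {P}

theorem Points.IsRep.residue {f : (FB (p * M))ˣ} {r : Fin P.d → QBar} (hR : P.IsRep f r)
    (i : Fin P.d) : ∃ hr : r i ∈ A, IsLocalRing.residue A (⟨r i, hr⟩ : A) = 1 := by
  refine residue_root_eq_one (P.ext_mem i _) (hR.root i) ?_
  rw [P.residue_ext i ⟨_, hR.mem.1⟩ hR.mem.2.1 (u := 1) (by rw [map_one]; exact hR.mem.2.2),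
    show (⟨P.s i 1, P.mem i 1⟩ : A) = 1 from Subtype.ext (map_one _), map_one]

theorem IsLat.mem_Bloc {m : ℕ} {f : (FB (p * M))ˣ} {g : FB (p * M)}
    (hf : f ∈ unitGrp A M p hpM) (hg : IsLat A hpM m (f : FB (p * M)) g) :
    g ∈ Bloc A M p hpM := by
  refine mem_Bloc_of_pow hg.1 hp.out.ne_zero ?_
  have e : g ^ p = (g ^ p * (f : FB (p * M))) * ((f⁻¹ : (FB (p * M))ˣ) : FB (p * M)) := by
    rw [mul_assoc, Units.mul_inv, mul_one]
  rw [e]
  exact mul_mem (coe_mem_Bloc ⟨g ^ p * (f : FB (p * M)), mul_mem (pow_mem hg.1 p) hf.2.1, p * m,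
    hg.2⟩) ((unitGrp A M p hpM).inv_mem hf).1

end Defs

variable [FF.IsFunctionField (Res A) (KM A M)] (h : Setup A M p)

/-- Degrees in which twisted spaces reduce onto the untwisted one. -/
structure IsDegree (m : ℕ) : Prop where
  twist : ∀ (f : FB (p * M)) (D : Divisor QBar (FB (p * M))),
    (∀ v, v.ord f = (p : ℤ) * D v) → HasUnitRed A M p h.hqM f →
      redSub A (iota2 M p h.hqM) (HD M p D m) = Bn A M p h.hqM m
  rr : ∀ D : Divisor QBar (FB (p * M)), Divisor.degree D = 0 →
    Module.finrank QBar (HD M p D m) = Module.finrank QBar (HN M p m)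

include h

theorem exists_isDegree : ∃ n₀, ∀ m, n₀ ≤ m → IsDegree h m := by
  obtain ⟨n₁, hn₁⟩ := exists_twist h
  obtain ⟨n₂, hn₂⟩ := exists_finrank_HD (M := M) (q := p)
  exact ⟨n₁ + n₂, fun m hm => ⟨fun f D hD hf => hn₁ f D hD hf m (by omega),
    fun D hD => hn₂ D hD m (by omega)⟩⟩

variable {h}
variable {n : ℕ} {P : Points A M p h.hqM n}

/-- **A frame of sections**: their value vectors have independent residues and they span the
sections integrally. -/
theorem Points.IsRep.exists_frame {m : ℕ} (hm : IsDegree h m) (hmn : m ≤ n)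
    {f : (FB (p * M))ˣ} {r : Fin P.d → QBar} (hR : P.IsRep f r) :
    ∃ (N : ℕ) (g : Fin N → FB (p * M)) (hg : ∀ l, g l ∈ Bloc A M p h.hqM)
      (w : Fin N → Fin P.d → A) (u : Fin N → Bint A M p h.hqM),
      (∀ l, IsLat A h.hqM m (f : FB (p * M)) (g l)) ∧
      (∀ l i, (w l i : QBar) = r i * P.ext i ⟨g l, hg l⟩) ∧
      (∀ l, redV (w l) = P.resS (u l) ∧ (u l : FB (p * M)) ∈ HN M p m) ∧
      LinearIndependent (Res A) (fun l => redV (w l)) ∧
      (∀ φ ∈ P.Phi m, ∃ c : Fin N → Res A, φ = ∑ l, c l • redV (w l)) ∧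
      N ≤ Module.finrank (Res A) (P.Phi m) ∧
      ∀ x, IsLat A h.hqM m (f : FB (p * M)) x →
        ∃ c : Fin N → A, x = ∑ l, algebraMap QBar (FB (p * M)) (c l : QBar) * g l := by
  classical
  have : NeZero p := ⟨hp.out.ne_zero⟩
  set D := JacTorsion.divQuot (⟨f, hR.dvd⟩ : JacTorsion.divGrp QBar (FB (p * M)) p) with hD
  have hord : ∀ v, v.ord (f : FB (p * M)) = (p : ℤ) * D v := fun v => by
    rw [← JacTorsion.div_apply, ← JacTorsion.smul_divQuot ⟨f, hR.dvd⟩, Finsupp.smul_apply,
      smul_eq_mul]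
  have hdeg := degree_eq_zero_of_kummer hp.out.ne_zero hord
  have htw := hm.twist _ D hord hR.mem.2
  have hLD : ∀ {x : FB (p * M)}, x ∈ loc2 A (iota2 M p h.hqM) → x ∈ HD M p D m →
      IsLat A h.hqM m (f : FB (p * M)) x := fun hx hxD => ⟨hx, pow_mul_mem_HN hxD hord⟩
  have hDL : ∀ {x : FB (p * M)}, IsLat A h.hqM m (f : FB (p * M)) x → x ∈ HD M p D m := by
    intro x hx
    rcases eq_or_ne x 0 with rfl | hx0
    · exact zero_mem _
    rw [mem_HD]
    intro v
    have h1 := FF.le_ord_of_mem_ordGe v (mul_ne_zero (pow_ne_zero _ hx0) (Units.ne_zero _))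
      (RedTorsion.mem_polesSpace.mp hx.2 v)
    rw [v.ord_mul (pow_ne_zero _ hx0) (Units.ne_zero _), FF.ord_pow, hord] at h1
    refine FF.mem_ordGe_of_le v ?_
    push_cast at h1
    have hpZ : (0 : ℤ) < p := by exact_mod_cast hp.out.pos
    nlinarith
  obtain ⟨hfd, hrk⟩ := finrank_Bn M p h.hqM h.hA m
  set N := Module.finrank (Res A) (Bn A M p h.hqM m) with hN
  set b := Module.finBasis (Res A) (Bn A M p h.hqM m)
  have hlift : ∀ l, ∃ g : loc2 A (iota2 M p h.hqM), (g : FB (p * M)) ∈ HD M p D m ∧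
      red2 A (iota2 M p h.hqM) g = (b l).1 := fun l => mem_redSub.mp (by rw [htw]; exact (b l).2)
  choose gl hglD hglr using hlift
  have hu : ∀ l, ∃ u : Bint A M p h.hqM, (u : FB (p * M)) ∈ HN M p m ∧
      rho A M p h.hqM u = (b l).1 := fun l => exists_lift_rho h m (b l).2
  choose u hum hur using hu
  have hg : ∀ l, (gl l : FB (p * M)) ∈ Bloc A M p h.hqM := fun l =>
    (hLD (gl l).2 (hglD l)).mem_Bloc hR.mem
  have hrA : ∀ i, r i ∈ A := fun i => (hR.residue i).1
  let w : Fin N → Fin P.d → A := fun l i =>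
    ⟨r i * P.ext i ⟨_, hg l⟩, mul_mem (hrA i) (P.ext_mem i _)⟩
  have hwred : ∀ l, redV (w l) = P.resS (u l) := fun l => funext fun i => by
    have h1 := P.residue_ext i ⟨_, hg l⟩ (gl l).2 (u := u l) (by rw [hur]; exact hglr l)
    rw [P.resS_apply, ← h1, redV, show w l i = ⟨r i, hrA i⟩ * ⟨P.ext i ⟨_, hg l⟩, P.ext_mem i _⟩
      from rfl, map_mul, (hR.residue i).2, one_mul]
  have hli : LinearIndependent (Res A) fun l => redV (w l) := by
    rw [Fintype.linearIndependent_iff]
    intro c hc
    choose ct hct using fun l => IsLocalRing.residue_surjective (c l)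
    set U := ∑ l, constB A M p h.hqM (ct l) * u l with hU
    have hU0 : P.resS U = 0 := by
      rw [hU, map_sum, ← hc]
      exact Finset.sum_congr rfl fun l _ => by rw [P.resS_constB_mul, hct, hwred]
    have hUm : (U : FB (p * M)) ∈ HN M p n := by
      rw [hU, AddSubmonoidClass.coe_finsetSum]
      refine Submodule.sum_mem _ fun l _ => ?_
      rw [Subring.coe_mul, coe_constB, ← Algebra.smul_def]
      exact Submodule.smul_mem _ _ (RedTorsion.polesSpace_mono hmn (hum l))
    have hrho := P.sep U hUm fun i => (Semistable.residue_eq_zero_iff (P.mem i U)).mp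
      (congrFun hU0 i)
    have h1 : ∑ l, c l • (b l).1 = 0 := by
      rw [← hrho, hU, map_sum]
      exact Finset.sum_congr rfl fun l _ => by rw [rho_constB_mul, hct, hur]
    exact fun l => Fintype.linearIndependent_iff.mp b.linearIndependent c
      (Subtype.ext (by rw [AddSubmonoidClass.coe_finsetSum]; simpa using h1)) l
  have hspanΦ : ∀ φ ∈ P.Phi m, ∃ c : Fin N → Res A, φ = ∑ l, c l • redV (w l) := by
    rintro φ ⟨x, hx, rfl⟩
    set r' : Bn A M p h.hqM m := ⟨rho A M p h.hqM x, mem_redSub.mpr ⟨⟨x, x.2.1⟩, hx, rfl⟩⟩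
    refine ⟨fun l => b.repr r' l, ?_⟩
    choose ct hct using fun l => IsLocalRing.residue_surjective (b.repr r' l)
    have e : P.resS x = P.resS (∑ l, constB A M p h.hqM (ct l) * u l) := by
      refine P.resS_congr ?_
      rw [map_sum]
      have h1 := congrArg Subtype.val (b.sum_repr r').symm
      refine h1.trans ?_
      rw [AddSubmonoidClass.coe_finsetSum]
      exact Finset.sum_congr rfl fun l _ => by rw [rho_constB_mul, hct, hur]; rfl
    rw [e, map_sum]
    exact Finset.sum_congr rfl fun l _ => by rw [P.resS_constB_mul, hct, hwred]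
  refine ⟨N, fun l => (gl l : FB (p * M)), hg, w, u, fun l => hLD (gl l).2 (hglD l),
    fun l i => rfl, fun l => ⟨hwred l, hum l⟩, hli, hspanΦ, ?_, fun x hx => ?_⟩
  · have hle : Submodule.span (Res A) (Set.range fun l => redV (w l)) ≤ P.Phi m :=
      Submodule.span_le.mpr (by
        rintro _ ⟨l, rfl⟩
        exact ⟨u l, hum l, (hwred l).symm⟩)
    have := Submodule.finrank_mono hle
    rwa [finrank_span_eq_card hli, Fintype.card_fin] at this
  · have hgi : LinearIndependent (Res A) fun l => red2 A (iota2 M p h.hqM) (gl l) := by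
      have e : (fun l => red2 A (iota2 M p h.hqM) (gl l)) = fun l => (b l).1 :=
        funext fun l => hglr l
      rw [e]
      exact b.linearIndependent.map' (Bn A M p h.hqM m).subtype (Submodule.ker_subtype _)
    have hliF : LinearIndependent QBar (fun l => (gl l).1) :=
      LinearIndependent.of_comp (embLin (iota2 M p h.hqM))
        (linearIndependent_of_red (h := fun l s => (mem_loc2 _).mp (gl l).2 s) hgi)
    have hle : Submodule.span QBar (Set.range fun l => (gl l).1) ≤ HD M p D m :=
      Submodule.span_le.mpr (by rintro _ ⟨l, rfl⟩; exact hglD l)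
    have htop : x ∈ Submodule.span QBar (Set.range fun l => (gl l).1) := by
      rw [Submodule.eq_of_le_of_finrank_le hle (by
        rw [finrank_span_eq_card hliF, Fintype.card_fin, hm.rr D hdeg, ← hrk])]
      exact hDL hx
    obtain ⟨c, hc⟩ := exists_int_coords gl hgi ⟨x, hx.1⟩ htop
    refine ⟨c, ?_⟩
    have h1 := congrArg Subtype.val hc
    rw [AddSubmonoidClass.coe_finsetSum] at h1
    exact h1

end Fermat.Agent.OrdinaryAtP

end
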